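/-
S43lib / Igusa / Descent  (helper9)

**Two descent facts for the fields `ℚ̄ · F₀ ⊆ ℚ̄((q))`, `F₀ ⊆ ℚ((q))` any subfield.**

* `ratSpan_eq_top`   : `ℚ̄ · F₀` is `ℚ̄`-SPANNED by the image of `F₀` (helper1's argument for
  `F_ℚ(N)` in `S36lib/Desc2/SpeiserBar`, for an arbitrary `F₀`: a domain generated over a field by
  algebraic elements is a field);
* `exists_coeffEmb_eq_of_fixed` : a Laurent series over `ℚ̄` fixed by the coefficientwise action of
  all of `G_ℚ` has rational coefficients.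
-/
import Mathlib
import Fermat.Prelude.Def_ModularCurve_ArithmeticGalois

set_option autoImplicit false
set_option linter.unusedSectionVars false
set_option linter.unusedVariables false

noncomputable section

namespace Fermat.Agent.S43lib.Igusa

open ModularCurve IntermediateField

local notation "Qb" => AlgebraicClosure ℚ

variable (F₀ : IntermediateField ℚ (LaurentSeries ℚ))

set_option quotPrecheck false in
local notation "FB" => ↥(laurentBaseChange Qb F₀)

/-- the elements of `F₀`, as elements of `ℚ̄ · F₀` -/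
def ratEl {z : LaurentSeries ℚ} (hz : z ∈ F₀) : FB :=
  ⟨coeffEmb Qb z, coeffEmb_mem_laurentBaseChange Qb hz⟩

@[simp] theorem coe_ratEl {z : LaurentSeries ℚ} (hz : z ∈ F₀) :
    ((ratEl F₀ hz : FB) : LaurentSeries Qb) = coeffEmb Qb z := rfl

theorem ratEl_mul {z z' : LaurentSeries ℚ} (hz : z ∈ F₀) (hz' : z' ∈ F₀) :
    ratEl F₀ hz * ratEl F₀ hz' = ratEl F₀ (mul_mem hz hz') := by
  apply Subtype.ext
  show coeffEmb Qb z * coeffEmb Qb z' = coeffEmb Qb (z * z')
  rw [map_mul]

theorem ratEl_one : ratEl F₀ (one_mem F₀) = 1 := by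
  apply Subtype.ext
  show coeffEmb Qb 1 = 1
  rw [map_one]

theorem arithmeticRingAut_ratEl (σ : Qb ≃ₐ[ℚ] Qb) {z : LaurentSeries ℚ} (hz : z ∈ F₀) :
    arithmeticRingAut F₀ σ (ratEl F₀ hz) = ratEl F₀ hz := by
  apply Subtype.ext
  rw [coe_arithmeticRingAut_apply, coe_ratEl]
  exact coeffMap_coeffEmb σ z

/-- the `ℚ̄`-span of the image of `F₀` in `ℚ̄ · F₀` -/
def ratSpan : Submodule Qb FB :=
  Submodule.span Qb {f | ∃ (z : LaurentSeries ℚ) (hz : z ∈ F₀), f = ratEl F₀ hz}

theorem ratEl_mem_ratSpan {z : LaurentSeries ℚ} (hz : z ∈ F₀) : ratEl F₀ hz ∈ ratSpan F₀ :=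
  Submodule.subset_span ⟨z, hz, rfl⟩

theorem ratEl_mul_mem_ratSpan {z : LaurentSeries ℚ} (hz : z ∈ F₀) {f : FB}
    (hf : f ∈ ratSpan F₀) : ratEl F₀ hz * f ∈ ratSpan F₀ := by
  induction hf using Submodule.span_induction with
  | mem g hg =>
    obtain ⟨z', hz', rfl⟩ := hg
    rw [ratEl_mul]
    exact ratEl_mem_ratSpan F₀ _
  | zero => rw [mul_zero]; exact (ratSpan F₀).zero_mem
  | add g g' _ _ hg hg' => rw [mul_add]; exact (ratSpan F₀).add_mem hg hg'
  | smul a g _ hg => rw [mul_smul_comm]; exact (ratSpan F₀).smul_mem a hg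

set_option maxHeartbeats 400000 in
/-- **`ℚ̄ · F₀` is `ℚ̄`-spanned by `F₀`** -/
theorem ratSpan_eq_top : ratSpan F₀ = ⊤ := by
  classical
  rw [eq_top_iff]
  rintro f -
  set E₀ : Subfield (LaurentSeries Qb) := F₀.toSubfield.map (coeffEmb Qb) with hE₀
  set C : Set (LaurentSeries Qb) := Set.range (algebraMap Qb (LaurentSeries Qb)) with hC
  have hmemE₀ : ∀ {z : LaurentSeries ℚ}, z ∈ F₀ → coeffEmb Qb z ∈ E₀ :=
    fun {z} hz => ⟨z, hz, rfl⟩
  -- constants are algebraic over `E₀`
  have halg : ∀ x ∈ C, IsAlgebraic E₀ x := by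
    rintro _ ⟨a, rfl⟩
    have h1 : IsAlgebraic ℤ a :=
      (IsFractionRing.isAlgebraic_iff ℤ ℚ Qb).mpr ((AlgebraicClosure.isAlgebraic ℚ).isAlgebraic a)
    obtain ⟨p, hp0, hpa⟩ := h1
    have hcz : CharZero (LaurentSeries Qb) :=
      charZero_of_injective_algebraMap (algebraMap Qb (LaurentSeries Qb)).injective
    have hinj : Function.Injective (Int.castRingHom E₀) := by
      intro m n h
      have h3 := congrArg (fun x : E₀ => (x : LaurentSeries Qb)) h
      simp only [eq_intCast] at h3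
      exact_mod_cast h3
    refine ⟨p.map (Int.castRingHom E₀), (Polynomial.map_ne_zero_iff hinj).mpr hp0, ?_⟩
    rw [Polynomial.aeval_def, Polynomial.eval₂_map]
    have hcomp : (algebraMap E₀ (LaurentSeries Qb)).comp (Int.castRingHom E₀) =
        (algebraMap Qb (LaurentSeries Qb)).comp (Int.castRingHom Qb) := RingHom.ext_int _ _
    rw [hcomp, ← Polynomial.hom_eval₂]
    have : Polynomial.eval₂ (Int.castRingHom Qb) a p = 0 := by
      rw [← hpa, Polynomial.aeval_def]
      rfl
    rw [this, map_zero]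
  -- Step 1: `f ∈ Algebra.adjoin E₀ C`
  have h1 : (f : LaurentSeries Qb) ∈ Algebra.adjoin E₀ C := by
    rw [← IntermediateField.adjoin_toSubalgebra_of_isAlgebraic halg]
    have hle : Subfield.closure (Set.range (algebraMap Qb (LaurentSeries Qb)) ∪
        (⇑(coeffEmb Qb) '' ((F₀ : IntermediateField ℚ (LaurentSeries ℚ)) :
          Set (LaurentSeries ℚ)))) ≤ (IntermediateField.adjoin E₀ C).toSubfield := by
      rw [Subfield.closure_le]
      rintro x (hx | ⟨z, hz, rfl⟩)
      · exact IntermediateField.subset_adjoin E₀ C hx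
      · exact (IntermediateField.adjoin E₀ C).algebraMap_mem ⟨coeffEmb Qb z, hmemE₀ hz⟩
    exact hle (mem_laurentBaseChange_iff.mp f.2)
  -- Step 2: `Algebra.adjoin E₀ C` is the `E₀`-span of `C`
  have h2 : (f : LaurentSeries Qb) ∈ Submodule.span E₀ C := by
    have := Algebra.adjoin_eq_span E₀ C
    have h3 : (f : LaurentSeries Qb) ∈ Subalgebra.toSubmodule (Algebra.adjoin E₀ C) := h1
    rw [this] at h3
    have hcl : (Submonoid.closure C : Set (LaurentSeries Qb)) = C := by
      have : C = ((algebraMap Qb (LaurentSeries Qb)).range.toSubmonoid :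
          Set (LaurentSeries Qb)) := by
        ext x; simp [hC]
      rw [this, Submonoid.closure_eq]
    rwa [hcl] at h3
  -- Step 3: induction
  have key : ∀ x ∈ Submodule.span E₀ C, ∃ g : FB, g ∈ ratSpan F₀ ∧ (g : LaurentSeries Qb) = x := by
    intro x hx
    induction hx using Submodule.span_induction with
    | mem x hx =>
      obtain ⟨a, rfl⟩ := hx
      refine ⟨algebraMap Qb FB a, ?_, rfl⟩
      rw [Algebra.algebraMap_eq_smul_one, ← ratEl_one F₀]
      exact (ratSpan F₀).smul_mem a (ratEl_mem_ratSpan F₀ _)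
    | zero => exact ⟨0, (ratSpan F₀).zero_mem, rfl⟩
    | add x y _ _ hx hy =>
      obtain ⟨g, hg, rfl⟩ := hx
      obtain ⟨g', hg', rfl⟩ := hy
      exact ⟨g + g', (ratSpan F₀).add_mem hg hg', rfl⟩
    | smul e x _ hx =>
      obtain ⟨g, hg, rfl⟩ := hx
      obtain ⟨z, hz, hze⟩ := e.2
      refine ⟨ratEl F₀ hz * g, ratEl_mul_mem_ratSpan F₀ hz hg, ?_⟩
      show coeffEmb Qb z * (g : LaurentSeries Qb) = e • (g : LaurentSeries Qb)
      rw [Subfield.smul_def, smul_eq_mul, ← hze]
  obtain ⟨g, hg, hgf⟩ := key _ h2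
  have : g = f := Subtype.ext hgf
  rw [← this]
  exact hg

/-! ### Galois-fixed series are rational -/

/-- a Laurent series over `ℚ̄` fixed coefficientwise by all of `G_ℚ` has rational coefficients -/
theorem exists_coeffEmb_eq_of_fixed (y : LaurentSeries Qb)
    (hy : ∀ σ : Qb ≃ₐ[ℚ] Qb, coeffMap (σ : Qb →+* Qb) y = y) :
    ∃ x : LaurentSeries ℚ, coeffEmb Qb x = y := by
  have hGal : IsGalois ℚ Qb := by
    have h : (AlgebraicClosure.instAlgebra ℚ : Algebra ℚ Qb) = DivisionRing.toRatAlgebra :=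
      Subsingleton.elim _ _
    rw [← h]
    exact IsAlgClosure.isGalois ℚ _
  have hc : ∀ n : ℤ, ∃ r : ℚ, algebraMap ℚ Qb r = y.coeff n := by
    intro n
    have h1 : y.coeff n ∈ Set.range (algebraMap ℚ Qb) := by
      rw [InfiniteGalois.mem_range_algebraMap_iff_fixed]
      intro σ
      have h2 := congrArg (fun z : LaurentSeries Qb => z.coeff n) (hy σ)
      simpa [coeffMap_coeff] using h2
    exact h1
  choose r hr using hc
  have hsupp : (Function.support r).IsPWO := by
    refine y.isPWO_support.mono ?_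
    intro n hn
    rw [Function.mem_support] at hn
    rw [HahnSeries.mem_support, ← hr n]
    intro h0
    exact hn ((map_eq_zero (algebraMap ℚ Qb)).mp h0)
  refine ⟨⟨r, hsupp⟩, ?_⟩
  ext n
  rw [coeffEmb_coeff]
  exact hr n

end Fermat.Agent.S43lib.Igusa
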