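/-
S43lib / Igusa / DiaU  (helper9)

**The diamond action of `(ℤ/N)ˣ` on the function field `FBar₁(N)` of `X₁(N)` over `ℚ̄`.**

helper6's `diaF1 δ hδ` (`S48lib/X1/HeckeJ/DiamondF1`) only depends on `δ₁₁ mod N` and is
multiplicative in it; this file packages it as a group homomorphism

  `diaU : (ZMod N)ˣ →* (FBar₁(N) ≃ₐ[ℚ̄] FBar₁(N))`

with `diaU u τ_(0,b) = τ_(0, b u)`, `diaU u j = j`, `diaU (-1) = 1`, commuting with `G_ℚ`
(`diaU_galois`), and `diaF1 δ hδ = diaU (δ₁₁ mod N)` (`diaF1_eq_diaU`).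
-/
import Mathlib
import Fermat.Agent.S48lib.X1.HeckeJ.DiamondF1

set_option autoImplicit false
set_option linter.unusedSectionVars false
set_option linter.unusedVariables false
set_option linter.style.haveILetI false

noncomputable section

namespace Fermat.Agent.S43lib.Igusa

open UpperHalfPlane Matrix.SpecialLinearGroup Fermat.Agent.ProgramR CongruenceSubgroup ModularForm
open ModularCurve IntermediateField Fermat.Agent.ProgramR.BarField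
open Fermat.Agent.S29lib.H Fermat.Agent.S28lib
open Fermat.Agent.S48lib.X1 Fermat.Agent.S48lib.X1.Wp Fermat.Agent.S48lib.X1.HeckeJ
open scoped MatrixGroups

local notation "Qb" => AlgebraicClosure ℚ

variable {N : ℕ} [NeZero N]

set_option quotPrecheck false in
local notation "FB1" => ↥(laurentBaseChange Qb (F1 N))

/-! ### generators -/

/-- the generators `τ_(0,b)` only depend on `b` modulo `N` -/
theorem tauB_congr_mod {b b' : ℤ} (h : b ≡ b' [ZMOD N]) (hb : ¬ (N : ℤ) ∣ b)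
    (hb' : ¬ (N : ℤ) ∣ b') : (tauB hb : FB1) = tauB hb' := by
  apply Subtype.ext
  rw [coe_tauB, coe_tauB]
  have hζ : zbar N ^ N = 1 := (zbar_spec N).pow_eq_one
  have key : ∀ x y : ℤ, x ≡ y [ZMOD N] → zbar N ^ x = zbar N ^ y := by
    intro x y hxy
    obtain ⟨c, hc⟩ := hxy.symm.dvd
    have : x = y + N * c := by linarith
    rw [this, zpow_add, zpow_mul, zpow_natCast, hζ, one_zpow, mul_one]
  have hX : Xq N (zbar N) (kap ((zbar N ^ b' : Qbˣ) : Qb)) b =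
      Xq N (zbar N) (kap ((zbar N ^ b' : Qbˣ) : Qb)) b' := by
    ext m
    rw [Xq, Xq, PowerSeries.coeff_mk, PowerSeries.coeff_mk, cX_congr_right N (zbar N) hζ 0 h]
  rw [tauqL, tauqL, key b b' h, tauq, tauq, hX]

/-- two ring endomorphisms of `FBar₁(N)` which agree on `ℚ̄`, on `j` and on the `τ_(0,b)` agree -/
theorem ringHom_ext_gen (f g : FB1 →+* FB1)
    (hc : ∀ c : Qb, f (algebraMap Qb FB1 c) = g (algebraMap Qb FB1 c))
    (hj : f (jBq (F1 N) (jq_mem_F1 N)) = g (jBq (F1 N) (jq_mem_F1 N)))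
    (hτ : ∀ (b : ℤ) (hb : ¬ (N : ℤ) ∣ b), f (tauB hb) = g (tauB hb)) (x : FB1) : f x = g x := by
  have h : x ∈ RingHom.eqLocusField f g := by
    refine forall_mem_of_gen _ (genSet Qb N (zbar N)) (FBar1_le_genL N) hc ?_ x
    rintro y (rfl | ⟨b, hb, rfl⟩)
    · exact ⟨jqModC_mem (F1 N) (jq_mem_F1 N), hj⟩
    · exact ⟨tauqL_mem_FBar1 N hb, hτ b hb⟩
  exact h

/-- two `ℚ̄`-algebra automorphisms of `FBar₁(N)` which agree on `j` and on the `τ_(0,b)` agree -/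
theorem algEquiv_ext_gen (f g : FB1 ≃ₐ[Qb] FB1)
    (hj : f (jBq (F1 N) (jq_mem_F1 N)) = g (jBq (F1 N) (jq_mem_F1 N)))
    (hτ : ∀ (b : ℤ) (hb : ¬ (N : ℤ) ∣ b), f (tauB hb) = g (tauB hb)) : f = g := by
  apply AlgEquiv.ext
  intro x
  refine ringHom_ext_gen (f : FB1 ≃+* FB1).toRingHom (g : FB1 ≃+* FB1).toRingHom ?_ hj hτ x
  intro c
  show f (algebraMap Qb FB1 c) = g (algebraMap Qb FB1 c)
  rw [AlgEquiv.commutes, AlgEquiv.commutes]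

/-! ### `diaF1` only depends on `δ₁₁ mod N`, and is multiplicative -/

theorem diaF1_congr {δ δ' : SL(2, ℤ)} (hδ : (N : ℤ) ∣ δ 1 0) (hδ' : (N : ℤ) ∣ δ' 1 0)
    (h : δ 1 1 ≡ δ' 1 1 [ZMOD N]) : diaF1 δ hδ = diaF1 δ' hδ' := by
  refine algEquiv_ext_gen _ _ ?_ ?_
  · rw [diaF1_jBq, diaF1_jBq]
  · intro b hb
    rw [diaF1_tauB, diaF1_tauB]
    exact tauB_congr_mod (h.mul_left b) _ _

theorem dvd_mul_one_zero {δ δ' : SL(2, ℤ)} (hδ : (N : ℤ) ∣ δ 1 0) (hδ' : (N : ℤ) ∣ δ' 1 0) :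
    (N : ℤ) ∣ (δ * δ' : SL(2, ℤ)) 1 0 := by
  have e0 : ((δ * δ' : SL(2, ℤ)) 1 0 : ℤ) = δ 1 0 * δ' 0 0 + δ 1 1 * δ' 1 0 := by
    rw [Matrix.SpecialLinearGroup.coe_mul, Matrix.mul_apply, Fin.sum_univ_two]
  rw [e0]
  exact dvd_add (hδ.mul_right _) (hδ'.mul_left _)

theorem mul_one_one_modEq {δ δ' : SL(2, ℤ)} (hδ : (N : ℤ) ∣ δ 1 0) :
    (δ * δ' : SL(2, ℤ)) 1 1 ≡ δ 1 1 * δ' 1 1 [ZMOD N] := by
  have e1 : ((δ * δ' : SL(2, ℤ)) 1 1 : ℤ) = δ 1 0 * δ' 0 1 + δ 1 1 * δ' 1 1 := by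
    rw [Matrix.SpecialLinearGroup.coe_mul, Matrix.mul_apply, Fin.sum_univ_two]
  rw [e1]
  obtain ⟨k, hk⟩ := hδ
  refine (Int.modEq_iff_dvd.mpr ⟨-(k * δ' 0 1), ?_⟩)
  rw [hk]
  ring

theorem diaF1_mul {δ δ' : SL(2, ℤ)} (hδ : (N : ℤ) ∣ δ 1 0) (hδ' : (N : ℤ) ∣ δ' 1 0) :
    diaF1 (δ * δ') (dvd_mul_one_zero hδ hδ') = diaF1 δ hδ * diaF1 δ' hδ' := by
  refine algEquiv_ext_gen _ _ ?_ ?_
  · rw [AlgEquiv.mul_apply, diaF1_jBq, diaF1_jBq, diaF1_jBq]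
  · intro b hb
    rw [AlgEquiv.mul_apply, diaF1_tauB, diaF1_tauB, diaF1_tauB]
    refine tauB_congr_mod ?_ _ _
    have h1 := (mul_one_one_modEq (δ' := δ') hδ).mul_left b
    refine h1.trans ?_
    rw [show b * (δ 1 1 * δ' 1 1) = b * δ' 1 1 * δ 1 1 by ring]

theorem diaF1_eq_one {δ : SL(2, ℤ)} (hδ : (N : ℤ) ∣ δ 1 0) (h : δ 1 1 ≡ 1 [ZMOD N]) :
    diaF1 δ hδ = 1 := by
  refine algEquiv_ext_gen _ _ ?_ ?_
  · rw [diaF1_jBq]; rfl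
  · intro b hb
    rw [diaF1_tauB]
    refine tauB_congr_mod ?_ _ hb
    have := h.mul_left b
    rwa [mul_one] at this

/-! ### the diamonds of `±Γ₁(N)` are trivial -/

theorem diaWH0_of_mem {Γ : Subgroup SL(2, ℤ)} {δ : SL(2, ℤ)}
    (hn : ∀ γ ∈ Γ, δ * γ * δ⁻¹ ∈ Γ) (hδ : δ ∈ Γ) (a : WH0 Γ) : diaWH0 δ hn a = a := by
  apply Subtype.ext
  funext z
  rw [diaWH0_apply]
  exact a.2.smul_eq δ hδ z

theorem diaFF_of_mem {Γ : Subgroup SL(2, ℤ)} {δ : SL(2, ℤ)}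
    (hn : ∀ γ ∈ Γ, δ * γ * δ⁻¹ ∈ Γ) (hδ : δ ∈ Γ) (k : WH0.FunField Γ) : diaFF δ hn k = k := by
  have : diaFF δ hn = RingHom.id _ := by
    apply funField_ringHom_ext
    intro a
    rw [diaFF_algebraMap, diaWH0_of_mem hn hδ]
    rfl
  rw [this]
  rfl

theorem diaF1_of_mem_pmGamma1 {δ : SL(2, ℤ)} (hδ : (N : ℤ) ∣ δ 1 0) (hmem : δ ∈ pmGamma1 N) :
    diaF1 δ hδ = 1 := by
  apply AlgEquiv.ext
  intro x
  show diaF1 δ hδ x = x
  rw [diaF1_apply, diaHom_eq_iff, diaFF_of_mem _ hmem]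

/-! ### the action of `(ℤ/N)ˣ` -/

theorem isCoprime_val_unit (u : (ZMod N)ˣ) : IsCoprime (((u : ZMod N).val : ℕ) : ℤ) (N : ℤ) := by
  rw [Int.isCoprime_iff_gcd_eq_one, Int.gcd_natCast_natCast]
  exact ZMod.val_coe_unit_coprime u

/-- a matrix of `Γ₀(N)` with lower right entry `u` -/
def deltaOf (u : (ZMod N)ˣ) : SL(2, ℤ) := (exists_delta (isCoprime_val_unit u)).choose

theorem deltaOf_one_zero (u : (ZMod N)ˣ) : deltaOf u 1 0 = (N : ℤ) :=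
  (exists_delta (isCoprime_val_unit u)).choose_spec.1

theorem deltaOf_one_one (u : (ZMod N)ˣ) : deltaOf u 1 1 = (((u : ZMod N).val : ℕ) : ℤ) :=
  (exists_delta (isCoprime_val_unit u)).choose_spec.2

theorem dvd_deltaOf (u : (ZMod N)ˣ) : (N : ℤ) ∣ deltaOf u 1 0 := by
  rw [deltaOf_one_zero]

theorem cast_deltaOf (u : (ZMod N)ˣ) : ((deltaOf u 1 1 : ℤ) : ZMod N) = (u : ZMod N) := by
  rw [deltaOf_one_one, Int.cast_natCast, ZMod.natCast_zmod_val]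

theorem modEq_of_cast_eq {x y : ℤ} (h : (x : ZMod N) = (y : ZMod N)) : x ≡ y [ZMOD N] :=
  (ZMod.intCast_eq_intCast_iff x y N).mp h

/-- **the diamond operator `⟨u⟩`, `u ∈ (ℤ/N)ˣ`, on `FBar₁(N)`** -/
def diaU : (ZMod N)ˣ →* (FB1 ≃ₐ[Qb] FB1) where
  toFun u := diaF1 (deltaOf u) (dvd_deltaOf u)
  map_one' := by
    refine diaF1_eq_one _ (modEq_of_cast_eq ?_)
    rw [cast_deltaOf, Units.val_one, Int.cast_one]
  map_mul' u v := by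
    rw [← diaF1_mul (dvd_deltaOf u) (dvd_deltaOf v)]
    refine diaF1_congr _ _ ?_
    refine Int.ModEq.trans ?_ (mul_one_one_modEq (dvd_deltaOf u)).symm
    refine modEq_of_cast_eq ?_
    rw [Int.cast_mul, cast_deltaOf, cast_deltaOf, cast_deltaOf, Units.val_mul]

theorem diaU_apply (u : (ZMod N)ˣ) (x : FB1) : diaU u x = diaF1 (deltaOf u) (dvd_deltaOf u) x :=
  rfl

/-- `diaF1 δ = diaU (δ₁₁ mod N)` -/
theorem diaF1_eq_diaU {δ : SL(2, ℤ)} (hδ : (N : ℤ) ∣ δ 1 0) (u : (ZMod N)ˣ)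
    (h : ((δ 1 1 : ℤ) : ZMod N) = (u : ZMod N)) : diaF1 δ hδ = diaU u := by
  refine diaF1_congr hδ (dvd_deltaOf u) (modEq_of_cast_eq ?_)
  rw [h, cast_deltaOf]

/-- the unit of `ℤ/N` attached to a matrix of `Γ₀(N)` -/
def unitOfDelta {δ : SL(2, ℤ)} (hδ : (N : ℤ) ∣ δ 1 0) : (ZMod N)ˣ :=
  ZMod.unitOfIsCoprime (δ 1 1) (isCoprime_of_dvd hδ)

@[simp] theorem coe_unitOfDelta {δ : SL(2, ℤ)} (hδ : (N : ℤ) ∣ δ 1 0) :
    ((unitOfDelta hδ : (ZMod N)ˣ) : ZMod N) = ((δ 1 1 : ℤ) : ZMod N) :=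
  ZMod.coe_unitOfIsCoprime _ _

theorem diaF1_eq_diaU_unitOfDelta {δ : SL(2, ℤ)} (hδ : (N : ℤ) ∣ δ 1 0) :
    diaF1 δ hδ = diaU (unitOfDelta hδ) :=
  diaF1_eq_diaU hδ _ (coe_unitOfDelta hδ).symm

/-- **the diamond on generators**: `⟨u⟩ τ_(0,b) = τ_(0,b')` for `b' ≡ b u (mod N)` -/
theorem diaU_tauB (u : (ZMod N)ˣ) {b b' : ℤ} (hb : ¬ (N : ℤ) ∣ b) (hb' : ¬ (N : ℤ) ∣ b')
    (h : (b' : ZMod N) = (b : ZMod N) * (u : ZMod N)) :
    diaU u (tauB hb : FB1) = tauB hb' := by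
  rw [diaU_apply, diaF1_tauB]
  refine tauB_congr_mod (modEq_of_cast_eq ?_) _ _
  rw [Int.cast_mul, cast_deltaOf, h]

theorem diaU_jBq (u : (ZMod N)ˣ) :
    diaU u (jBq (F1 N) (jq_mem_F1 N)) = jBq (F1 N) (jq_mem_F1 N) :=
  diaF1_jBq _ (dvd_deltaOf u)

/-- **the diamonds commute with `G_ℚ`** -/
theorem diaU_galois (u : (ZMod N)ˣ) (σ : Qb ≃ₐ[ℚ] Qb) (x : FB1) :
    diaU u (arithmeticGalois (F1 N) σ • x) = arithmeticGalois (F1 N) σ • diaU u x :=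
  diaF1_galois _ (dvd_deltaOf u) σ x

theorem diaU_arithmeticRingAut (u : (ZMod N)ˣ) (σ : Qb ≃ₐ[ℚ] Qb) (x : FB1) :
    diaU u (arithmeticRingAut (F1 N) σ x) = arithmeticRingAut (F1 N) σ (diaU u x) :=
  diaF1_arithmeticRingAut _ (dvd_deltaOf u) σ x

/-- `⟨-1⟩ = 1` -/
theorem diaU_neg_one : diaU (-1 : (ZMod N)ˣ) = (1 : FB1 ≃ₐ[Qb] FB1) := by
  have hmem : (-1 : SL(2, ℤ)) ∈ pmGamma1 N := by
    rw [mem_pmGamma1_iff_dvd]
    refine ⟨by simp, Or.inr ?_⟩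
    simp
  have h0 : (N : ℤ) ∣ (-1 : SL(2, ℤ)) 1 0 := by simp
  rw [← diaF1_of_mem_pmGamma1 h0 hmem]
  symm
  refine diaF1_eq_diaU h0 _ ?_
  simp

/-- the comparison map intertwines `diaU` with the analytic diamond of any representative -/
theorem toFunField_diaU {δ : SL(2, ℤ)} (hδ : (N : ℤ) ∣ δ 1 0) (u : (ZMod N)ˣ)
    (h : ((δ 1 1 : ℤ) : ZMod N) = (u : ZMod N)) (x : FB1) :
    (isAnModel_F1 (M := N)).toFunField (qbarEmb : Qb →+* ℂ) (diaU u x) =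
      diaFF δ (normalises_pmGamma1 hδ)
        ((isAnModel_F1 (M := N)).toFunField (qbarEmb : Qb →+* ℂ) x) := by
  rw [← diaF1_eq_diaU hδ u h, toFunField_diaF1]

end Fermat.Agent.S43lib.Igusa
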