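/-
S43lib / Igusa / Field  (helper9)

**The function field `F_H` of the intermediate curve `X_H(N)`, `X₁(N) → X_H(N) → X₀(N)`,
for a subgroup `H ≤ (ℤ/N)ˣ`**, inside helper3/6/7's `X₁(N)` machine (`S48lib/X1`).

* `fixH H : IntermediateField ℚ̄ FBar₁(N)` : the elements fixed by the diamonds `⟨u⟩`, `u ∈ H`;
* `FH H   : IntermediateField ℚ̄ ℚ̄((q))`  : the same field, as a field of Laurent series;
* `FH0 H  : IntermediateField ℚ ℚ((q))`   : **the rational model** `{x ∈ ℚ((q)) | x ∈ F_H}`, in the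
  Prelude's pattern, so that `arithmeticGalois (FH0 H)` (the action of `G_ℚ`) and
  `laurentBaseChange ℚ̄ (FH0 H)` are available;
* **`laurentBaseChange_FH0 : laurentBaseChange ℚ̄ (FH0 H) = FH H`** (Galois descent: average over
  `H`, which commutes with `G_ℚ`, and use that `FBar₁(N)` is `ℚ̄`-spanned by `F₁(N)`);
* `FH0_le_F1`, `FH_le_FBar1`, `FH_mono`, `FH_bot`.
-/
import Mathlib
import Fermat.Agent.S43lib.Igusa.DiaU
import Fermat.Agent.S43lib.Igusa.Descent

set_option autoImplicit false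
set_option linter.unusedSectionVars false
set_option linter.unusedVariables false
set_option linter.style.haveILetI false

noncomputable section

namespace Fermat.Agent.S43lib.Igusa

open ModularCurve IntermediateField Fermat.Agent.ProgramR.BarField
open Fermat.Agent.S48lib.X1 Fermat.Agent.S48lib.X1.HeckeJ

local notation "Qb" => AlgebraicClosure ℚ

variable {N : ℕ} [NeZero N] (H : Subgroup (ZMod N)ˣ)

set_option quotPrecheck false in
local notation "FB1" => ↥(laurentBaseChange Qb (F1 N))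

/-! ### the fixed field -/

/-- the elements of `FBar₁(N)` fixed by the diamonds `⟨u⟩`, `u ∈ H` -/
def fixH : IntermediateField Qb FB1 where
  carrier := {y | ∀ u ∈ H, diaU u y = y}
  mul_mem' := fun {a b} ha hb u hu => by rw [map_mul, ha u hu, hb u hu]
  one_mem' := fun u _ => map_one _
  add_mem' := fun {a b} ha hb u hu => by rw [map_add, ha u hu, hb u hu]
  zero_mem' := fun u _ => map_zero _
  algebraMap_mem' := fun c u _ => (diaU u).commutes c
  inv_mem' := fun a ha u hu => by rw [map_inv₀, ha u hu]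

theorem mem_fixH {y : FB1} : y ∈ fixH H ↔ ∀ u ∈ H, diaU u y = y := Iff.rfl

/-- **the function field of `X_H(N)` over `ℚ̄`**, as a field of Laurent series -/
def FH : IntermediateField Qb (LaurentSeries Qb) := IntermediateField.lift (fixH H)

theorem mem_FH_iff {y : LaurentSeries Qb} :
    y ∈ FH H ↔ ∃ hy : y ∈ laurentBaseChange Qb (F1 N),
      ∀ u ∈ H, diaU u (⟨y, hy⟩ : FB1) = ⟨y, hy⟩ := by
  constructor
  · intro h
    obtain ⟨z, hz, rfl⟩ := (IntermediateField.mem_map (fixH H)).mp h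
    exact ⟨z.2, hz⟩
  · rintro ⟨hy, h⟩
    exact (IntermediateField.mem_map (fixH H)).mpr ⟨⟨y, hy⟩, h, rfl⟩

theorem coe_mem_FH_iff (y : FB1) : (y : LaurentSeries Qb) ∈ FH H ↔ ∀ u ∈ H, diaU u y = y := by
  rw [mem_FH_iff]
  exact ⟨fun ⟨_, h⟩ => h, fun h => ⟨y.2, h⟩⟩

theorem FH_le_FBar1 : FH H ≤ laurentBaseChange Qb (F1 N) := fun _ hy =>
  ((mem_FH_iff H).mp hy).1

theorem FH_mono {H H' : Subgroup (ZMod N)ˣ} (h : H ≤ H') : FH H' ≤ FH H := by
  intro y hy
  obtain ⟨hy1, hy2⟩ := (mem_FH_iff H').mp hy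
  exact (mem_FH_iff H).mpr ⟨hy1, fun u hu => hy2 u (h hu)⟩

theorem FH_bot : FH (⊥ : Subgroup (ZMod N)ˣ) = laurentBaseChange Qb (F1 N) := by
  refine le_antisymm (FH_le_FBar1 _) ?_
  intro y hy
  refine (mem_FH_iff _).mpr ⟨hy, fun u hu => ?_⟩
  rw [Subgroup.mem_bot.mp hu, map_one]
  rfl

/-! ### the rational model -/

/-- **the rational model of `F_H`**: the Laurent series with rational coefficients lying in
`F_H` -/
def FH0 : IntermediateField ℚ (LaurentSeries ℚ) :=
  Subfield.toIntermediateField ((FH H).toSubfield.comap (coeffEmb Qb)) (by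
    intro r
    show coeffEmb Qb (algebraMap ℚ (LaurentSeries ℚ) r) ∈ FH H
    rw [algebraMap_laurentSeries_eq_single, coeffEmb, coeffMap_single,
      ← algebraMap_laurentSeries_eq_single]
    exact (FH H).algebraMap_mem _)

theorem mem_FH0_iff {x : LaurentSeries ℚ} : x ∈ FH0 H ↔ coeffEmb Qb x ∈ FH H := Iff.rfl

theorem FH0_le_F1 : FH0 H ≤ F1 N := by
  intro x hx
  rw [mem_F1_iff, ← FBar1_eq_genL]
  exact FH_le_FBar1 H ((mem_FH0_iff H).mp hx)

theorem FH0_mono {H H' : Subgroup (ZMod N)ˣ} (h : H ≤ H') : FH0 H' ≤ FH0 H := fun _ hx =>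
  FH_mono h hx

theorem laurentBaseChange_FH0_le : laurentBaseChange Qb (FH0 H) ≤ FH H := by
  rw [laurentBaseChange, IntermediateField.adjoin_le_iff]
  rintro _ ⟨x, hx, rfl⟩
  exact hx

/-! ### the trace over `H` -/

open Classical in
/-- the sum of the diamonds `⟨u⟩`, `u ∈ H` -/
def trH : FB1 →ₗ[Qb] FB1 := ∑ u : H, (diaU (u : (ZMod N)ˣ)).toLinearMap

open Classical in
theorem trH_apply (y : FB1) : trH H y = ∑ u : H, diaU (u : (ZMod N)ˣ) y := by
  rw [trH, LinearMap.sum_apply]
  rfl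

open Classical in
theorem trH_of_fixed {y : FB1} (hy : ∀ u ∈ H, diaU u y = y) :
    trH H y = (Fintype.card H : Qb) • y := by
  rw [trH_apply, Finset.sum_congr rfl fun (u : H) _ => hy (u : (ZMod N)ˣ) u.2, Finset.sum_const,
    Finset.card_univ, Nat.cast_smul_eq_nsmul]

open Classical in
theorem diaU_trH {v : (ZMod N)ˣ} (hv : v ∈ H) (y : FB1) : diaU v (trH H y) = trH H y := by
  rw [trH_apply, map_sum]
  refine Fintype.sum_equiv (Equiv.mulLeft (⟨v, hv⟩ : H)) _ _ fun u => ?_
  rw [Equiv.coe_mulLeft, Subgroup.coe_mul, map_mul]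
  rfl

open Classical in
theorem arithmeticRingAut_trH (σ : Qb ≃ₐ[ℚ] Qb) (y : FB1) :
    arithmeticRingAut (F1 N) σ (trH H y) = trH H (arithmeticRingAut (F1 N) σ y) := by
  rw [trH_apply, trH_apply, map_sum]
  exact Finset.sum_congr rfl fun u _ => (diaU_arithmeticRingAut _ σ y).symm

/-- the trace of a rational element is a rational element of `F_H` -/
theorem coe_trH_ratEl_mem {x : LaurentSeries ℚ} (hx : x ∈ F1 N) :
    ((trH H (ratEl (F1 N) hx) : FB1) : LaurentSeries Qb) ∈ laurentBaseChange Qb (FH0 H) := by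
  set t : FB1 := trH H (ratEl (F1 N) hx) with ht
  have hfix : ∀ σ : Qb ≃ₐ[ℚ] Qb, coeffMap (σ : Qb →+* Qb) (t : LaurentSeries Qb) = t := by
    intro σ
    have h1 := arithmeticRingAut_trH H σ (ratEl (F1 N) hx)
    rw [arithmeticRingAut_ratEl] at h1
    have h2 := congrArg (fun z : FB1 => (z : LaurentSeries Qb)) h1
    exact h2
  obtain ⟨x', hx'⟩ := exists_coeffEmb_eq_of_fixed _ hfix
  have hmem : x' ∈ FH0 H := by
    rw [mem_FH0_iff, hx', coe_mem_FH_iff]
    intro u hu
    exact diaU_trH H hu _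
  rw [← hx']
  exact coeffEmb_mem_laurentBaseChange Qb hmem

/-- **Galois descent**: `F_H` is the base change of its rational model -/
theorem laurentBaseChange_FH0 : laurentBaseChange Qb (FH0 H) = FH H := by
  classical
  refine le_antisymm (laurentBaseChange_FH0_le H) ?_
  intro y hy
  obtain ⟨hy1, hy2⟩ := (mem_FH_iff H).mp hy
  set ŷ : FB1 := ⟨y, hy1⟩ with hŷ
  -- the trace of every element of `FBar₁(N)` lies in `ℚ̄ · FH0`
  have key : ∀ z : FB1, ((trH H z : FB1) : LaurentSeries Qb) ∈ laurentBaseChange Qb (FH0 H) := by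
    intro z
    have hz : z ∈ ratSpan (F1 N) := by rw [ratSpan_eq_top]; trivial
    induction hz using Submodule.span_induction with
    | mem g hg =>
      obtain ⟨x, hx, rfl⟩ := hg
      exact coe_trH_ratEl_mem H hx
    | zero =>
      rw [map_zero]
      exact zero_mem _
    | add g g' _ _ hg hg' =>
      rw [map_add]
      exact add_mem hg hg'
    | smul a g _ hg =>
      rw [map_smul, Algebra.smul_def]
      exact mul_mem ((laurentBaseChange Qb (FH0 H)).algebraMap_mem a) hg
  have h1 := key ŷ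
  rw [trH_of_fixed H hy2] at h1
  have hcard : (Fintype.card H : Qb) ≠ 0 := by
    exact_mod_cast Fintype.card_ne_zero
  have h2 : y = algebraMap Qb (LaurentSeries Qb) ((Fintype.card H : Qb)⁻¹) *
      (((Fintype.card H : Qb) • ŷ : FB1) : LaurentSeries Qb) := by
    rw [Algebra.smul_def]
    show y = algebraMap Qb (LaurentSeries Qb) ((Fintype.card H : Qb)⁻¹) *
      (algebraMap Qb (LaurentSeries Qb) (Fintype.card H : Qb) * y)
    rw [← mul_assoc, ← map_mul, inv_mul_cancel₀ hcard, map_one, one_mul]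
  rw [h2]
  exact mul_mem ((laurentBaseChange Qb (FH0 H)).algebraMap_mem _) h1

theorem mem_laurentBaseChange_FH0_iff {y : LaurentSeries Qb} :
    y ∈ laurentBaseChange Qb (FH0 H) ↔ ∃ hy : y ∈ laurentBaseChange Qb (F1 N),
      ∀ u ∈ H, diaU u (⟨y, hy⟩ : FB1) = ⟨y, hy⟩ := by
  rw [laurentBaseChange_FH0, mem_FH_iff]

/-- the inclusion `F_H → FBar₁(N)` -/
def inclH : ↥(laurentBaseChange Qb (FH0 H)) →ₐ[Qb] FB1 :=
  IntermediateField.inclusion (laurentBaseChange_mono Qb (FH0_le_F1 H))

@[simp] theorem coe_inclH (y : ↥(laurentBaseChange Qb (FH0 H))) :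
    ((inclH H y : FB1) : LaurentSeries Qb) = (y : LaurentSeries Qb) :=
  IntermediateField.coe_inclusion _ y

theorem inclH_injective : Function.Injective (inclH H) := (inclH H).injective

theorem diaU_inclH {u : (ZMod N)ˣ} (hu : u ∈ H) (y : ↥(laurentBaseChange Qb (FH0 H))) :
    diaU u (inclH H y) = inclH H y := by
  obtain ⟨hy, h⟩ := (mem_laurentBaseChange_FH0_iff H).mp y.2
  exact h u hu

/-- the inclusion commutes with the two actions of `G_ℚ` -/
theorem inclH_galois (σ : Qb ≃ₐ[ℚ] Qb) (y : ↥(laurentBaseChange Qb (FH0 H))) :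
    inclH H (arithmeticGalois (FH0 H) σ • y) = arithmeticGalois (F1 N) σ • inclH H y := by
  apply Subtype.ext
  rw [coe_inclH, coe_arithmeticGalois_smul, coe_arithmeticGalois_smul, coe_inclH]

end Fermat.Agent.S43lib.Igusa
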