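/-
S43lib / Igusa / FixedX0  (helper9)

**`X₁(N) → X_H(N) → X₀(N)`: the bottom of the tower.**

* `inclFF`  : the analytic inclusion `Frac WH0(Γ₀(N)) → Frac WH0(±Γ₁(N))`, compatible with
  `q`-expansions and with the comparison maps of the two `q`-models (`toFunField_full`);
* `exists_integral_multiple` : every element of `Frac WH0(Γ)` is `b / p(j)` with `b ∈ WH0 Γ`;
* `diaU_of_mem_fullBar` : **the diamonds fix `FBar(N)`**, hence `FBar(N) ≤ F_H` (`fullBar_le_FH`);
* `mem_fullBar_of_fixed` : **the elements of `FBar₁(N)` fixed by all diamonds lie in `FBar(N)`**,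
  hence `F_⊤ = FBar(N)` (`FH_top`).
-/
import Mathlib
import Fermat.Agent.S43lib.Igusa.Field
import Fermat.Agent.S48lib.X1.HeckeJ.Rational
import Fermat.Agent.S48lib.X1.Field.FixedInst

set_option autoImplicit false
set_option linter.unusedSectionVars false
set_option linter.unusedVariables false
set_option linter.style.haveILetI false

noncomputable section

namespace Fermat.Agent.S43lib.Igusa

open UpperHalfPlane hiding I
open scoped MatrixGroups
open Polynomial ModularCurve IntermediateField CongruenceSubgroup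
open Fermat.Agent.ProgramR Fermat.Agent.ProgramR.QExp Fermat.Agent.ProgramR.BarField
open Fermat.Agent.S29lib.H
open Fermat.Agent.S48lib.X1 Fermat.Agent.S48lib.X1.Wp Fermat.Agent.S48lib.X1.HeckeJ

attribute [local instance] FractionRing.liftAlgebra
attribute [local instance] Genus.cosetFintype

local notation "Qb" => AlgebraicClosure ℚ

variable {N : ℕ} [NeZero N]

set_option quotPrecheck false in
local notation "FB1" => ↥(laurentBaseChange Qb (F1 N))

/-! ### integral multiples -/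

/-- every element of the analytic function field of `Γ` is `b / p(j)` with `b` holomorphic -/
theorem exists_integral_multiple (Γ : Subgroup SL(2, ℤ)) [Fintype (SL(2, ℤ) ⧸ Γ)]
    (x : WH0.FunField Γ) :
    ∃ (b : WH0 Γ) (p : Polynomial ℂ), p ≠ 0 ∧
      algebraMap (Polynomial ℂ) (WH0.FunField Γ) p * x =
        algebraMap (WH0 Γ) (WH0.FunField Γ) b := by
  have halg : IsAlgebraic (Polynomial ℂ) x := by
    have h1 : IsAlgebraic RatC x := Algebra.IsAlgebraic.isAlgebraic x
    exact (IsFractionRing.isAlgebraic_iff (Polynomial ℂ) RatC (WH0.FunField Γ)).mpr h1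
  obtain ⟨p, hp0, hpy⟩ := halg.exists_integral_multiple
  obtain ⟨b, hb⟩ := IsIntegralClosure.isIntegral_iff (A := WH0 Γ) (R := Polynomial ℂ)
    (B := WH0.FunField Γ) |>.mp hpy
  exact ⟨b, p, hp0, by rw [hb, Algebra.smul_def]⟩

theorem algebraMap_poly_ne_zero (Γ : Subgroup SL(2, ℤ)) {p : Polynomial ℂ} (hp : p ≠ 0) :
    algebraMap (Polynomial ℂ) (WH0.FunField Γ) p ≠ 0 := by
  rw [IsScalarTower.algebraMap_apply (Polynomial ℂ) (WH0 Γ) (WH0.FunField Γ), Ne,
    IsFractionRing.to_map_eq_zero_iff]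
  intro h0
  exact hp (WH0.algebraMap_poly_injective Γ (h0.trans (map_zero _).symm))

/-- the analytic diamond fixes the polynomials in `j` -/
theorem diaWH0_algebraMap_poly {Γ : Subgroup SL(2, ℤ)} (δ : SL(2, ℤ))
    (hn : ∀ γ ∈ Γ, δ * γ * δ⁻¹ ∈ Γ) (p : Polynomial ℂ) :
    diaWH0 δ hn (algebraMap (Polynomial ℂ) (WH0 Γ) p) = algebraMap (Polynomial ℂ) (WH0 Γ) p := by
  apply Subtype.ext
  funext z
  rw [diaWH0_apply, WH0.algebraMap_poly_apply, WH0.algebraMap_poly_apply]
  congr 1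
  exact LevelOne.jInv_smul δ z

theorem diaFF_algebraMap_poly {Γ : Subgroup SL(2, ℤ)} (δ : SL(2, ℤ))
    (hn : ∀ γ ∈ Γ, δ * γ * δ⁻¹ ∈ Γ) (p : Polynomial ℂ) :
    diaFF δ hn (algebraMap (Polynomial ℂ) (WH0.FunField Γ) p) =
      algebraMap (Polynomial ℂ) (WH0.FunField Γ) p := by
  rw [IsScalarTower.algebraMap_apply (Polynomial ℂ) (WH0 Γ) (WH0.FunField Γ), diaFF_algebraMap,
    diaWH0_algebraMap_poly]

/-! ### the inclusion `Frac WH0(Γ₀(N)) → Frac WH0(±Γ₁(N))` -/

variable (N) in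
/-- the analytic inclusion of function fields -/
def inclFF : WH0.FunField (Gamma0 N) →+* WH0.FunField (pmGamma1 N) :=
  funFieldMap (inclWH0 (pmGamma1_le_Gamma0 N)) (inclWH0_injective (pmGamma1_le_Gamma0 N))

theorem inclFF_algebraMap (a : WH0 (Gamma0 N)) :
    inclFF N (algebraMap _ _ a) = algebraMap _ _ (inclWH0 (pmGamma1_le_Gamma0 N) a) :=
  funFieldMap_algebraMap _ _ a

theorem qExpFFW_inclFF (k : WH0.FunField (Gamma0 N)) :
    qExpFFW (pmGamma1 N) 1 T_mem_pmGamma1 (inclFF N k) =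
      qExpFFW (Gamma0 N) 1 (T_pow_one_mem_Gamma0 N) k := by
  have : (qExpFFW (pmGamma1 N) 1 T_mem_pmGamma1).comp (inclFF N) =
      qExpFFW (Gamma0 N) 1 (T_pow_one_mem_Gamma0 N) := by
    apply funField_ringHom_ext
    intro a
    rw [RingHom.comp_apply, inclFF_algebraMap, qExpFFW_algebraMap, qExpFFW_algebraMap]
    rfl
  exact congrArg (fun φ : WH0.FunField (Gamma0 N) →+* LaurentSeries ℂ => φ k) this

theorem inclFF_algebraMap_poly (p : Polynomial ℂ) :
    inclFF N (algebraMap (Polynomial ℂ) (WH0.FunField (Gamma0 N)) p) =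
      algebraMap (Polynomial ℂ) (WH0.FunField (pmGamma1 N)) p := by
  rw [IsScalarTower.algebraMap_apply (Polynomial ℂ) (WH0 (Gamma0 N)) (WH0.FunField (Gamma0 N)),
    inclFF_algebraMap,
    IsScalarTower.algebraMap_apply (Polynomial ℂ) (WH0 (pmGamma1 N)) (WH0.FunField (pmGamma1 N))]
  congr 1
  apply Subtype.ext
  funext z
  rw [inclWH0_apply, WH0.algebraMap_poly_apply, WH0.algebraMap_poly_apply]

/-- the diamonds of `Γ₀(N)` fix the image of `Frac WH0(Γ₀(N))` -/
theorem diaFF_inclFF {δ : SL(2, ℤ)} (hδ : (N : ℤ) ∣ δ 1 0) (k : WH0.FunField (Gamma0 N)) :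
    diaFF δ (normalises_pmGamma1 hδ) (inclFF N k) = inclFF N k := by
  have hmem : δ ∈ Gamma0 N := by
    rw [Gamma0_mem]
    exact (ZMod.intCast_zmod_eq_zero_iff_dvd _ _).mpr hδ
  have : (diaFF δ (normalises_pmGamma1 hδ)).comp (inclFF N) = inclFF N := by
    apply funField_ringHom_ext
    intro a
    rw [RingHom.comp_apply, inclFF_algebraMap, diaFF_algebraMap]
    congr 1
    apply Subtype.ext
    funext z
    rw [diaWH0_apply, inclWH0_apply]
    exact a.2.smul_eq δ hmem z
  exact congrArg (fun φ : WH0.FunField (Gamma0 N) →+* WH0.FunField (pmGamma1 N) => φ k) this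

/-- **the comparison maps of `FBar(N)` and `FBar₁(N)` are compatible** -/
theorem toFunField_full (hN : 1 < N) (x : ↥(laurentBaseChange Qb (modularFunctionFieldFull N))) :
    (isAnModel_F1 (M := N)).toFunField (qbarEmb : Qb →+* ℂ)
        (IntermediateField.inclusion (fullBar_le_FBar1 hN) x) =
      inclFF N ((isAnModel_full N).toFunField (qbarEmb : Qb →+* ℂ) x) := by
  rw [IsAnModel.toFunField_eq_iff, qExpFFW_inclFF, IsAnModel.qExpFFW_toFunField,
    IntermediateField.coe_inclusion]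

/-! ### the diamonds fix `FBar(N)` -/

/-- **the diamonds fix the function field of `X₀(N)`** -/
theorem diaU_of_mem_fullBar (hN : 1 < N) (u : (ZMod N)ˣ)
    (x : ↥(laurentBaseChange Qb (modularFunctionFieldFull N))) :
    diaU u (IntermediateField.inclusion (fullBar_le_FBar1 hN) x) =
      IntermediateField.inclusion (fullBar_le_FBar1 hN) x := by
  rw [diaU_apply, diaF1_apply, diaHom_eq_iff, toFunField_full hN,
    diaFF_inclFF (dvd_deltaOf u)]

variable (H : Subgroup (ZMod N)ˣ)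

/-- `FBar(N) ≤ F_H` -/
theorem fullBar_le_FH (hN : 1 < N) :
    (laurentBaseChange Qb (modularFunctionFieldFull N) :
      IntermediateField Qb (LaurentSeries Qb)) ≤ FH H := by
  intro y hy
  refine (mem_FH_iff H).mpr ⟨fullBar_le_FBar1 hN hy, fun u _ => ?_⟩
  exact diaU_of_mem_fullBar hN u ⟨y, hy⟩

/-- `F_ℚ(N) ≤ FH0 H`, on the rational models -/
theorem full_le_FH0 (hN : 1 < N) : modularFunctionFieldFull N ≤ FH0 H := by
  intro x hx
  rw [mem_FH0_iff]
  exact fullBar_le_FH H hN (coeffEmb_mem_laurentBaseChange Qb hx)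

/-! ### the elements fixed by all diamonds -/

/-- an element of `Frac WH0(±Γ₁(N))` fixed by all diamonds of `Γ₀(N)` comes from
`Frac WH0(Γ₀(N))` -/
theorem exists_inclFF_eq_of_fixed (k : WH0.FunField (pmGamma1 N))
    (hk : ∀ (δ : SL(2, ℤ)) (hδ : (N : ℤ) ∣ δ 1 0), diaFF δ (normalises_pmGamma1 hδ) k = k) :
    ∃ k₀ : WH0.FunField (Gamma0 N), inclFF N k₀ = k := by
  obtain ⟨b, p, hp, hpb⟩ := exists_integral_multiple (pmGamma1 N) k
  have hbfix : ∀ (δ : SL(2, ℤ)) (hδ : (N : ℤ) ∣ δ 1 0),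
      diaWH0 δ (normalises_pmGamma1 hδ) b = b := by
    intro δ hδ
    apply IsFractionRing.injective (WH0 (pmGamma1 N)) (WH0.FunField (pmGamma1 N))
    rw [← diaFF_algebraMap, ← hpb, map_mul, diaFF_algebraMap_poly, hk δ hδ]
  have hbW : IsWH0 (Gamma0 N) b.1 :=
    { mdiff := b.2.mdiff
      smul_eq := by
        intro γ hγ z
        have hγ' : (N : ℤ) ∣ γ 1 0 := by
          rw [Gamma0_mem] at hγ
          exact (ZMod.intCast_zmod_eq_zero_iff_dvd _ _).mp hγ
        have h1 := congrArg (fun f : WH0 (pmGamma1 N) => f.1 z) (hbfix γ hγ')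
        simp only [diaWH0_apply] at h1
        exact h1
      exists_bdd := b.2.exists_bdd }
  refine ⟨algebraMap _ _ (⟨b.1, hbW⟩ : WH0 (Gamma0 N)) /
    algebraMap (Polynomial ℂ) (WH0.FunField (Gamma0 N)) p, ?_⟩
  rw [map_div₀, inclFF_algebraMap, inclFF_algebraMap_poly]
  have hb' : inclWH0 (pmGamma1_le_Gamma0 N) (⟨b.1, hbW⟩ : WH0 (Gamma0 N)) = b :=
    Subtype.ext rfl
  rw [hb', ← hpb]
  exact mul_div_cancel_left₀ _ (algebraMap_poly_ne_zero (pmGamma1 N) hp)

/-- **the elements of `FBar₁(N)` fixed by all the diamonds lie in `FBar(N)`** -/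
theorem mem_fullBar_of_fixed (y : FB1) (hy : ∀ u : (ZMod N)ˣ, diaU u y = y) :
    (y : LaurentSeries Qb) ∈ laurentBaseChange Qb (modularFunctionFieldFull N) := by
  have hk : ∀ (δ : SL(2, ℤ)) (hδ : (N : ℤ) ∣ δ 1 0), diaFF δ (normalises_pmGamma1 hδ)
      ((isAnModel_F1 (M := N)).toFunField (qbarEmb : Qb →+* ℂ) y) =
      (isAnModel_F1 (M := N)).toFunField (qbarEmb : Qb →+* ℂ) y := by
    intro δ hδ
    rw [← toFunField_diaF1 δ hδ, diaF1_eq_diaU_unitOfDelta hδ, hy]
  obtain ⟨k₀, hk₀⟩ := exists_inclFF_eq_of_fixed _ hk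
  have hq : qExpFFW (Gamma0 N) 1 (T_pow_one_mem_Gamma0 N) k₀ =
      coeffMap (qbarEmb : Qb →+* ℂ) (y : LaurentSeries Qb) := by
    rw [← qExpFFW_inclFF, hk₀, IsAnModel.qExpFFW_toFunField]
  exact ((isAnModel_full N).exists_toFunField_eq qbarEmb (generates_full N) (jq_mem_full N)
    k₀ _ hq).1

/-- **`F_⊤ = FBar(N)`**: the fixed field of all the diamonds is the function field of `X₀(N)` -/
theorem FH_top (hN : 1 < N) :
    FH (⊤ : Subgroup (ZMod N)ˣ) = laurentBaseChange Qb (modularFunctionFieldFull N) := by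
  refine le_antisymm ?_ (fullBar_le_FH _ hN)
  intro y hy
  obtain ⟨hy1, hy2⟩ := (mem_FH_iff _).mp hy
  exact mem_fullBar_of_fixed ⟨y, hy1⟩ fun u => hy2 u (Subgroup.mem_top u)

end Fermat.Agent.S43lib.Igusa
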