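/-
S43lib / Igusa / KummerAbs  (helper9)

**Abstract Kummer theory for an eigenvector.**  `E / K` fields of characteristic zero, a finite group
`U` acting on `E` by `K`-automorphisms `ρ u` with `E^U = K`, a character `ψ : U →* Kˣ` with values
in the `e`-th roots of unity, of EXACT order `e` (some `ψ u₀` is a primitive `e`-th root of unity),
whose kernel acts trivially on `E`, and an eigenvector `h ≠ 0`, `ρ u h = ψ u • h`.  Then

* `pow_mem`          : `h ^ e ∈ K`;
* `exists_coeffs`    : every `f ∈ E` is `∑_{i<e} c_i h^i`, `c_i ∈ K`   (isotypic projections);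
* `linearIndependent_pow` : `1, h, …, h^(e-1)` are linearly independent over `K`;
* `exists_aeval_eq`  : every `f ∈ E` is `p(h)`, `p ∈ K[X]`;
* `dvd_of_aeval_eq_zero` : `p(h) = 0 → (X ^ e - C u) ∣ p`   for `u ∈ K` with `h ^ e = u`;
* `finrank_eq`       : `[E : K] = e`.

These are exactly the fields of helper2's `KC.IsKummerGen e u h`.
-/
import Mathlib

set_option autoImplicit false
set_option linter.unusedSectionVars false
set_option linter.unusedVariables false

noncomputable section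

namespace Fermat.Agent.S43lib.Igusa

open Polynomial

/-- the hypotheses -/
structure IsEigenGen {K E : Type*} [Field K] [Field E] [Algebra K E] {U : Type*} [Group U]
    (ρ : U →* (E ≃ₐ[K] E)) (ψ : U →* Kˣ) (e : ℕ) (h : E) : Prop where
  fixed : ∀ f : E, (∀ u, ρ u f = f) → ∃ c : K, algebraMap K E c = f
  ne_zero : h ≠ 0
  eigen : ∀ u, ρ u h = ((ψ u : Kˣ) : K) • h
  pow_eq_one : ∀ u, ψ u ^ e = 1
  ker : ∀ u, ψ u = 1 → ∀ f : E, ρ u f = f
  prim : ∃ u₀, IsPrimitiveRoot ((ψ u₀ : Kˣ) : K) e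
  pos : 0 < e

namespace IsEigenGen

variable {K E : Type*} [Field K] [Field E] [Algebra K E] [CharZero K]
variable {U : Type*} [Group U] [Fintype U]
variable {ρ : U →* (E ≃ₐ[K] E)} {ψ : U →* Kˣ} {e : ℕ} {h : E}

theorem rho_pow (H : IsEigenGen ρ ψ e h) (u : U) (i : ℕ) :
    ρ u (h ^ i) = (((ψ u : Kˣ) : K) ^ i) • h ^ i := by
  rw [map_pow, H.eigen, _root_.smul_pow]

/-- `h ^ e ∈ K` -/
theorem pow_mem (H : IsEigenGen ρ ψ e h) : ∃ c : K, algebraMap K E c = h ^ e := by
  apply H.fixed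
  intro u
  rw [H.rho_pow, ← Units.val_pow_eq_pow_val, H.pow_eq_one, Units.val_one, one_smul]

/-! ### isotypic projections -/

/-- the (unnormalised) projection on the `ψ ^ i`-isotypic part -/
def proj (ρ : U →* (E ≃ₐ[K] E)) (ψ : U →* Kˣ) (i : ℕ) (f : E) : E :=
  ∑ u : U, (((ψ u⁻¹ : Kˣ) : K) ^ i) • ρ u f

theorem rho_proj (ρ : U →* (E ≃ₐ[K] E)) (ψ : U →* Kˣ) (v : U) (i : ℕ) (f : E) :
    ρ v (proj ρ ψ i f) = (((ψ v : Kˣ) : K) ^ i) • proj ρ ψ i f := by
  rw [proj, map_sum, Finset.smul_sum]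
  refine Fintype.sum_equiv (Equiv.mulLeft v) _ _ fun u => ?_
  rw [Equiv.coe_mulLeft, map_smul, smul_smul, map_mul ρ, AlgEquiv.mul_apply]
  congr 1
  rw [← mul_pow, ← Units.val_mul, mul_inv_rev, map_mul, map_inv ψ v, mul_left_comm,
    mul_inv_cancel, mul_one]

open Classical in
theorem geom_sum_root {ζ : K} (hζ : ζ ^ e = 1) :
    ∑ i ∈ Finset.range e, ζ ^ i = if ζ = 1 then (e : K) else 0 := by
  split_ifs with h1
  · rw [h1]
    simp
  · have h2 := geom_sum_mul ζ e
    rw [hζ, sub_self] at h2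
    exact (mul_eq_zero.mp h2).resolve_right (sub_ne_zero.mpr h1)

open Classical in
theorem sum_proj (H : IsEigenGen ρ ψ e h) (f : E) :
    ∑ i ∈ Finset.range e, proj ρ ψ i f =
      ((e : K) * ((Finset.univ.filter fun u : U => ψ u = 1).card : K)) • f := by
  simp only [proj]
  rw [Finset.sum_comm]
  have h1 : ∀ u : U, ∑ i ∈ Finset.range e, (((ψ u⁻¹ : Kˣ) : K) ^ i) • ρ u f =
      if ψ u = 1 then (e : K) • f else 0 := by
    intro u
    rw [← Finset.sum_smul, geom_sum_root (by
      rw [← Units.val_pow_eq_pow_val, H.pow_eq_one, Units.val_one])]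
    have h2 : (((ψ u⁻¹ : Kˣ) : K) = 1) ↔ ψ u = 1 := by
      rw [Units.val_eq_one, map_inv, inv_eq_one]
    by_cases hu : ψ u = 1
    · rw [if_pos (h2.mpr hu), if_pos hu, H.ker u hu]
    · rw [if_neg (fun hh => hu (h2.mp hh)), if_neg hu, zero_smul]
  rw [Finset.sum_congr rfl fun u _ => h1 u, Finset.sum_ite, Finset.sum_const_zero, add_zero,
    Finset.sum_const, ← Nat.cast_smul_eq_nsmul K, smul_smul, mul_comm]

open Classical in
theorem card_ker_ne_zero (ψ : U →* Kˣ) :
    ((Finset.univ.filter fun u : U => ψ u = 1).card : K) ≠ 0 := by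
  have : 0 < (Finset.univ.filter fun u : U => ψ u = 1).card :=
    Finset.card_pos.mpr ⟨1, Finset.mem_filter.mpr ⟨Finset.mem_univ _, map_one ψ⟩⟩
  exact_mod_cast this.ne'

/-- **spanning**: every element of `E` is a `K`-combination of `1, h, …, h^(e-1)` -/
theorem exists_coeffs (H : IsEigenGen ρ ψ e h) (f : E) :
    ∃ c : ℕ → K, f = ∑ i ∈ Finset.range e, c i • h ^ i := by
  classical
  have hc : ∀ i : ℕ, ∃ c : K, algebraMap K E c = proj ρ ψ i f / h ^ i := by
    intro i
    apply H.fixed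
    intro u
    rw [map_div₀, rho_proj, H.rho_pow, Algebra.smul_def, Algebra.smul_def]
    have h0 : algebraMap K E (((ψ u : Kˣ) : K) ^ i) ≠ 0 := by
      rw [Ne, map_eq_zero]
      exact pow_ne_zero _ (Units.ne_zero _)
    rw [mul_div_mul_left _ _ h0]
  choose c hc using hc
  set m : K := (e : K) * ((Finset.univ.filter fun u : U => ψ u = 1).card : K) with hm
  have hm0 : m ≠ 0 := mul_ne_zero (by exact_mod_cast H.pos.ne') (card_ker_ne_zero ψ)
  refine ⟨fun i => m⁻¹ * c i, ?_⟩
  have h1 : ∀ i ∈ Finset.range e, (m⁻¹ * c i) • h ^ i = m⁻¹ • proj ρ ψ i f := by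
    intro i _
    rw [mul_smul, Algebra.smul_def (c i), hc, div_mul_cancel₀ _ (pow_ne_zero _ H.ne_zero)]
  rw [Finset.sum_congr rfl h1, ← Finset.smul_sum, H.sum_proj, smul_smul, inv_mul_cancel₀ hm0,
    one_smul]

/-! ### linear independence -/

/-- **independence**: `1, h, …, h^(e-1)` are linearly independent over `K` -/
theorem linearIndependent_pow (H : IsEigenGen ρ ψ e h) :
    LinearIndependent K (fun i : Fin e => h ^ (i : ℕ)) := by
  obtain ⟨u₀, hu₀⟩ := H.prim
  refine Module.End.eigenvectors_linearIndependent' ((ρ u₀ : E ≃ₐ[K] E).toLinearMap)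
    (fun i : Fin e => ((ψ u₀ : Kˣ) : K) ^ (i : ℕ)) ?_ _ ?_
  · intro i j hij
    exact Fin.ext (hu₀.pow_inj i.2 j.2 hij)
  · intro i
    refine ⟨?_, pow_ne_zero _ H.ne_zero⟩
    rw [Module.End.mem_eigenspace_iff]
    exact H.rho_pow u₀ i

theorem sum_eq_zero (H : IsEigenGen ρ ψ e h) {c : ℕ → K}
    (hc : ∑ i ∈ Finset.range e, c i • h ^ i = 0) : ∀ i < e, c i = 0 := by
  have h1 := H.linearIndependent_pow
  rw [Fintype.linearIndependent_iff] at h1
  intro i hi
  have h2 : ∑ j : Fin e, c (j : ℕ) • h ^ (j : ℕ) = 0 := by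
    rw [← hc, Finset.sum_range]
  exact h1 (fun j => c (j : ℕ)) h2 ⟨i, hi⟩

/-! ### polynomial form -/

/-- every element of `E` is a polynomial in `h` over `K` -/
theorem exists_aeval_eq (H : IsEigenGen ρ ψ e h) (f : E) : ∃ p : K[X], aeval h p = f := by
  obtain ⟨c, hc⟩ := H.exists_coeffs f
  refine ⟨∑ i ∈ Finset.range e, C (c i) * X ^ i, ?_⟩
  rw [hc, map_sum]
  refine Finset.sum_congr rfl fun i _ => ?_
  rw [map_mul, aeval_C, map_pow, aeval_X, Algebra.smul_def]

/-- a polynomial of degree `< e` vanishing at `h` is zero -/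
theorem eq_zero_of_aeval_eq_zero (H : IsEigenGen ρ ψ e h) {r : K[X]} (hdeg : r.degree < e)
    (hr : aeval h r = 0) : r = 0 := by
  have h1 : aeval h r = ∑ i ∈ Finset.range e, r.coeff i • h ^ i := by
    rw [aeval_eq_sum_range' (show r.natDegree < e from by
      by_cases h0 : r = 0
      · rw [h0, natDegree_zero]; exact H.pos
      · exact (natDegree_lt_iff_degree_lt h0).mpr hdeg)]
  rw [h1] at hr
  have h2 := H.sum_eq_zero hr
  ext i
  rw [coeff_zero]
  by_cases hi : i < e
  · exact h2 i hi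
  · apply coeff_eq_zero_of_degree_lt
    exact lt_of_lt_of_le hdeg (by exact_mod_cast not_lt.mp hi)

/-- **the minimal polynomial**: `p(h) = 0 → (X ^ e - C u) ∣ p` -/
theorem dvd_of_aeval_eq_zero (H : IsEigenGen ρ ψ e h) {u : K} (hu : h ^ e = algebraMap K E u)
    (p : K[X]) (hp : aeval h p = 0) : (X ^ e - C u) ∣ p := by
  have hmonic : (X ^ e - C u : K[X]).Monic := monic_X_pow_sub_C u H.pos.ne'
  have hroot : aeval h (X ^ e - C u : K[X]) = 0 := by
    rw [map_sub, map_pow, aeval_X, aeval_C, hu, sub_self]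
  rw [← modByMonic_eq_zero_iff_dvd hmonic]
  apply H.eq_zero_of_aeval_eq_zero
  · have := degree_modByMonic_lt p hmonic
    rwa [degree_X_pow_sub_C H.pos] at this
  · have h1 := congrArg (aeval h) (modByMonic_add_div p (X ^ e - C u : K[X]))
    rw [map_add, map_mul, hroot, zero_mul, add_zero] at h1
    rw [h1, hp]

/-- the basis `1, h, …, h^(e-1)` -/
def powBasis (H : IsEigenGen ρ ψ e h) : Module.Basis (Fin e) K E :=
  Module.Basis.mk H.linearIndependent_pow (by
    rintro f -
    obtain ⟨c, hc⟩ := H.exists_coeffs f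
    rw [hc, Finset.sum_range]
    exact Submodule.sum_mem _ fun i _ =>
      Submodule.smul_mem _ _ (Submodule.subset_span ⟨i, rfl⟩))

/-- **the degree**: `[E : K] = e` -/
theorem finrank_eq (H : IsEigenGen ρ ψ e h) : Module.finrank K E = e := by
  rw [Module.finrank_eq_card_basis H.powBasis, Fintype.card_fin]

theorem finiteDimensional (H : IsEigenGen ρ ψ e h) : FiniteDimensional K E :=
  Module.Finite.of_basis H.powBasis

end IsEigenGen

end Fermat.Agent.S43lib.Igusa
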