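/-
S43lib / Igusa / KummerInst  (helper9)

**`F_H / FBar(N)` is a Kummer extension**, `H = ker ψ` for a character `ψ : (ℤ/N)ˣ →* ℚ̄ˣ`.

* `FBH ψ`          : the function field `ℚ̄ · FH0 (ker ψ)` of `X_H(N)` (a type);
* `algebraFH ψ hN` : the `FBar(N)`-algebra structure of `FBH ψ` (+ `isScalarTower_FH`);
* `diaH ψ hN : (ZMod N)ˣ →* (FBH ψ ≃ₐ[FBar(N)] FBH ψ)` : the diamonds, restricted to `F_H`;
  `coe_diaH`, `diaH_galois` (they commute with `G_ℚ`);
* `isEigenGen` : an eigenvector `h ≠ 0` of the diamonds with character `ψ` of exact order `e`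
  satisfies `IsEigenGen`; hence (`KummerAbs`)
  `pow_mem_fullBar`, `exists_aeval_eq`, `dvd_of_aeval_eq_zero`, `finrank_FH` —
  the four fields of helper2's `KC.IsKummerGen e u h` for `F_H = FBar(N)[h]`, `h ^ e = u`.
-/
import Mathlib
import Fermat.Agent.S43lib.Igusa.FixedX0
import Fermat.Agent.S43lib.Igusa.KummerAbs

set_option autoImplicit false
set_option linter.unusedSectionVars false
set_option linter.unusedVariables false
set_option linter.style.haveILetI false

noncomputable section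

namespace Fermat.Agent.S43lib.Igusa

open Polynomial ModularCurve IntermediateField
open Fermat.Agent.ProgramR.BarField
open Fermat.Agent.S48lib.X1 Fermat.Agent.S48lib.X1.HeckeJ

local notation "Qb" => AlgebraicClosure ℚ

variable {N : ℕ} [NeZero N] (ψ : (ZMod N)ˣ →* Qbˣ)

set_option quotPrecheck false in
local notation "FB1" => ↥(laurentBaseChange Qb (F1 N))

set_option quotPrecheck false in
local notation "FB0" => ↥(laurentBaseChange Qb (modularFunctionFieldFull N))

/-- the function field of `X_H(N)`, `H = ker ψ`, over `ℚ̄` -/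
abbrev FBH : Type := ↥(laurentBaseChange Qb (FH0 ψ.ker))

/-- the inclusion `FBar(N) → F_H` -/
def inclFH (hN : 1 < N) : FB0 →ₐ[Qb] FBH ψ :=
  IntermediateField.inclusion (laurentBaseChange_mono Qb (full_le_FH0 ψ.ker hN))

@[simp] theorem coe_inclFH (hN : 1 < N) (x : FB0) :
    ((inclFH ψ hN x : FBH ψ) : LaurentSeries Qb) = (x : LaurentSeries Qb) :=
  IntermediateField.coe_inclusion _ x

/-- the `FBar(N)`-algebra structure of `F_H` -/
@[reducible] def algebraFH (hN : 1 < N) : Algebra FB0 (FBH ψ) := (inclFH ψ hN).toRingHom.toAlgebra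

theorem algebraMap_FH_apply (hN : 1 < N) (x : FB0) :
    letI := algebraFH ψ hN
    algebraMap FB0 (FBH ψ) x = inclFH ψ hN x := rfl

theorem isScalarTower_FH (hN : 1 < N) :
    letI := algebraFH ψ hN
    IsScalarTower Qb FB0 (FBH ψ) := by
  letI := algebraFH ψ hN
  refine IsScalarTower.of_algebraMap_eq fun c => ?_
  rw [algebraMap_FH_apply, AlgHom.commutes]

theorem inclH_inclFH (hN : 1 < N) (x : FB0) :
    inclH ψ.ker (inclFH ψ hN x) = IntermediateField.inclusion (fullBar_le_FBar1 hN) x :=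
  Subtype.ext (by rw [coe_inclH, coe_inclFH, IntermediateField.coe_inclusion])

/-! ### the diamonds on `F_H` -/

theorem diaU_comm (u v : (ZMod N)ˣ) (z : FB1) : diaU u (diaU v z) = diaU v (diaU u z) := by
  rw [← AlgEquiv.mul_apply, ← AlgEquiv.mul_apply, ← map_mul, ← map_mul, mul_comm]

theorem diaU_inclH_mem (u : (ZMod N)ˣ) (y : FBH ψ) :
    ((diaU u (inclH ψ.ker y) : FB1) : LaurentSeries Qb) ∈ laurentBaseChange Qb (FH0 ψ.ker) := by
  refine (mem_laurentBaseChange_FH0_iff _).mpr ⟨(diaU u (inclH ψ.ker y)).2, fun v hv => ?_⟩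
  show diaU v (diaU u (inclH ψ.ker y)) = diaU u (inclH ψ.ker y)
  rw [diaU_comm, diaU_inclH _ hv]

/-- the diamond `⟨u⟩` on `F_H`, as a ring homomorphism -/
def diaHHom (u : (ZMod N)ˣ) : FBH ψ →+* FBH ψ where
  toFun y := ⟨((diaU u (inclH ψ.ker y) : FB1) : LaurentSeries Qb), diaU_inclH_mem ψ u y⟩
  map_one' := Subtype.ext (by simp)
  map_mul' a b := Subtype.ext (by simp)
  map_zero' := Subtype.ext (by simp)
  map_add' a b := Subtype.ext (by simp)

theorem inclH_diaHHom (u : (ZMod N)ˣ) (y : FBH ψ) :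
    inclH ψ.ker (diaHHom ψ u y) = diaU u (inclH ψ.ker y) := Subtype.ext rfl

theorem diaHHom_one (y : FBH ψ) : diaHHom ψ 1 y = y := by
  apply inclH_injective
  rw [inclH_diaHHom, map_one]
  rfl

theorem diaHHom_mul (u v : (ZMod N)ˣ) (y : FBH ψ) :
    diaHHom ψ (u * v) y = diaHHom ψ u (diaHHom ψ v y) := by
  apply inclH_injective
  rw [inclH_diaHHom, inclH_diaHHom, inclH_diaHHom, map_mul]
  rfl

theorem diaHHom_inclFH (hN : 1 < N) (u : (ZMod N)ˣ) (x : FB0) :
    diaHHom ψ u (inclFH ψ hN x) = inclFH ψ hN x := by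
  apply inclH_injective
  rw [inclH_diaHHom, inclH_inclFH, diaU_of_mem_fullBar hN]

/-- the diamond `⟨u⟩` on `F_H`, as an automorphism over `FBar(N)` -/
def diaHEquiv (hN : 1 < N) (u : (ZMod N)ˣ) :
    letI := algebraFH ψ hN
    FBH ψ ≃ₐ[FB0] FBH ψ :=
  letI := algebraFH ψ hN
  { toFun := diaHHom ψ u
    invFun := diaHHom ψ u⁻¹
    left_inv := fun y => by rw [← diaHHom_mul, inv_mul_cancel, diaHHom_one]
    right_inv := fun y => by rw [← diaHHom_mul, mul_inv_cancel, diaHHom_one]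
    map_mul' := map_mul _
    map_add' := map_add _
    commutes' := fun x => diaHHom_inclFH ψ hN u x }

/-- **the diamond action of `(ℤ/N)ˣ` on `F_H`** by automorphisms over `FBar(N)` -/
def diaH (hN : 1 < N) :
    letI := algebraFH ψ hN
    (ZMod N)ˣ →* (FBH ψ ≃ₐ[FB0] FBH ψ) :=
  letI := algebraFH ψ hN
  { toFun := diaHEquiv ψ hN
    map_one' := AlgEquiv.ext fun y => diaHHom_one ψ y
    map_mul' := fun u v => AlgEquiv.ext fun y => diaHHom_mul ψ u v y }

theorem diaH_apply (hN : 1 < N) (u : (ZMod N)ˣ) (y : FBH ψ) :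
    letI := algebraFH ψ hN
    diaH ψ hN u y = diaHHom ψ u y := rfl

theorem inclH_diaH (hN : 1 < N) (u : (ZMod N)ˣ) (y : FBH ψ) :
    letI := algebraFH ψ hN
    inclH ψ.ker (diaH ψ hN u y) = diaU u (inclH ψ.ker y) := inclH_diaHHom ψ u y

/-- the diamonds of `H = ker ψ` are trivial on `F_H` -/
theorem diaH_of_mem_ker (hN : 1 < N) {u : (ZMod N)ˣ} (hu : u ∈ ψ.ker) (y : FBH ψ) :
    letI := algebraFH ψ hN
    diaH ψ hN u y = y := by
  apply inclH_injective
  rw [inclH_diaH, diaU_inclH _ hu]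

/-- the diamonds commute with `G_ℚ` -/
theorem diaH_galois (hN : 1 < N) (u : (ZMod N)ˣ) (σ : Qb ≃ₐ[ℚ] Qb) (y : FBH ψ) :
    letI := algebraFH ψ hN
    diaH ψ hN u (arithmeticGalois (FH0 ψ.ker) σ • y) =
      arithmeticGalois (FH0 ψ.ker) σ • diaH ψ hN u y := by
  apply inclH_injective
  rw [inclH_diaH, inclH_galois, inclH_galois, inclH_diaH, diaU_galois]

/-- the elements of `F_H` fixed by all the diamonds lie in `FBar(N)` -/
theorem exists_inclFH_eq_of_fixed (hN : 1 < N) (f : FBH ψ)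
    (hf : ∀ u : (ZMod N)ˣ, diaHHom ψ u f = f) : ∃ c : FB0, inclFH ψ hN c = f := by
  have h1 : ∀ u : (ZMod N)ˣ, diaU u (inclH ψ.ker f) = inclH ψ.ker f := by
    intro u
    rw [← inclH_diaHHom, hf u]
  have h2 := mem_fullBar_of_fixed (inclH ψ.ker f) h1
  refine ⟨⟨_, h2⟩, ?_⟩
  apply Subtype.ext
  rw [coe_inclFH]
  rfl

/-! ### the Kummer generator -/

/-- the character with values in `FBar(N)ˣ` -/
def psiK : (ZMod N)ˣ →* FB0ˣ := (Units.map (algebraMap Qb FB0 : Qb →* FB0)).comp ψ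

theorem coe_psiK (u : (ZMod N)ˣ) : ((psiK ψ u : FB0ˣ) : FB0) = algebraMap Qb FB0 (ψ u : Qb) := rfl

/-- `h ∈ F_H` is a nonzero eigenvector of the diamonds, with character `ψ` of exact order `e` -/
structure IsDiaEigen (e : ℕ) (h : FBH ψ) : Prop where
  pos : 0 < e
  pow_eq_one : ∀ u, ψ u ^ e = 1
  prim : ∃ u₀, IsPrimitiveRoot ((ψ u₀ : Qbˣ) : Qb) e
  ne_zero : h ≠ 0
  eigen : ∀ u : (ZMod N)ˣ,
    diaU u (inclH ψ.ker h) = algebraMap Qb FB1 ((ψ u : Qbˣ) : Qb) * inclH ψ.ker h

variable {ψ}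

/-- **an eigenvector of the diamonds with character `ψ` of exact order `e` is a Kummer generator
of `F_H / FBar(N)`** -/
theorem isEigenGen (hN : 1 < N) {e : ℕ} {h : FBH ψ} (D : IsDiaEigen ψ e h) :
    letI := algebraFH ψ hN
    IsEigenGen (diaH ψ hN) (psiK ψ) e h := by
  letI := algebraFH ψ hN
  haveI := isScalarTower_FH ψ hN
  refine
    { fixed := ?_
      ne_zero := D.ne_zero
      eigen := ?_
      pow_eq_one := ?_
      ker := ?_
      prim := ?_
      pos := D.pos }
  · intro f hf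
    obtain ⟨c, hc⟩ := exists_inclFH_eq_of_fixed ψ hN f hf
    exact ⟨c, hc⟩
  · intro u
    apply inclH_injective
    rw [inclH_diaH, D.eigen u, Algebra.smul_def, map_mul]
    have h1 : inclH ψ.ker (algebraMap FB0 (FBH ψ) ((psiK ψ u : FB0ˣ) : FB0)) =
        algebraMap Qb FB1 ((ψ u : Qbˣ) : Qb) := by
      apply Subtype.ext
      rw [coe_inclH, algebraMap_FH_apply, coe_inclFH, coe_psiK]
      rfl
    rw [h1]
  · intro u
    apply Units.ext
    rw [Units.val_pow_eq_pow_val, coe_psiK, ← map_pow, ← Units.val_pow_eq_pow_val,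
      D.pow_eq_one u, Units.val_one, map_one, Units.val_one]
  · intro u hu f
    have h1 : ψ u = 1 := by
      apply Units.ext
      have h2 := congrArg (fun x : FB0ˣ => (x : FB0)) hu
      simp only [coe_psiK, Units.val_one] at h2
      rw [Units.val_one]
      exact (algebraMap Qb FB0).injective (h2.trans (map_one _).symm)
    exact diaH_of_mem_ker ψ hN (MonoidHom.mem_ker.mpr h1) f
  · obtain ⟨u₀, hu₀⟩ := D.prim
    refine ⟨u₀, ?_⟩
    rw [coe_psiK]
    exact hu₀.map_of_injective (algebraMap Qb FB0).injective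

theorem charZero_FB0 : CharZero FB0 :=
  charZero_of_injective_algebraMap (algebraMap Qb FB0).injective

namespace IsDiaEigen

variable {e : ℕ} {h : FBH ψ}

/-- `h ^ e ∈ FBar(N)` -/
theorem pow_mem_fullBar (D : IsDiaEigen ψ e h) (hN : 1 < N) :
    letI := algebraFH ψ hN
    ∃ u : FB0, algebraMap FB0 (FBH ψ) u = h ^ e := by
  letI := algebraFH ψ hN
  haveI : CharZero FB0 := charZero_FB0
  exact (isEigenGen hN D).pow_mem

/-- every element of `F_H` is a polynomial in `h` over `FBar(N)` -/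
theorem exists_aeval_eq (D : IsDiaEigen ψ e h) (hN : 1 < N) (f : FBH ψ) :
    letI := algebraFH ψ hN
    ∃ p : FB0[X], aeval h p = f := by
  letI := algebraFH ψ hN
  haveI : CharZero FB0 := charZero_FB0
  exact (isEigenGen hN D).exists_aeval_eq f

/-- the minimal polynomial of `h` over `FBar(N)` is `X ^ e - u` -/
theorem dvd_of_aeval_eq_zero (D : IsDiaEigen ψ e h) (hN : 1 < N) {u : FB0}
    (hu : letI := algebraFH ψ hN; h ^ e = algebraMap FB0 (FBH ψ) u) (p : FB0[X])
    (hp : letI := algebraFH ψ hN; aeval h p = 0) : (X ^ e - C u) ∣ p := by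
  letI := algebraFH ψ hN
  haveI : CharZero FB0 := charZero_FB0
  exact (isEigenGen hN D).dvd_of_aeval_eq_zero hu p hp

/-- `[F_H : FBar(N)] = e` -/
theorem finrank_FH (D : IsDiaEigen ψ e h) (hN : 1 < N) :
    letI := algebraFH ψ hN
    Module.finrank FB0 (FBH ψ) = e := by
  letI := algebraFH ψ hN
  haveI : CharZero FB0 := charZero_FB0
  exact (isEigenGen hN D).finrank_eq

end IsDiaEigen

end Fermat.Agent.S43lib.Igusa
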