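/-
S43lib / Igusa / GlAn  (helper9)

**Composition with an integral matrix normalising `Γ`, on a `q`-model.**  Generalisation of
helper6's `S48lib/X1/HeckeJ/Diamond` from `δ ∈ SL(2,ℤ)` to `A ∈ GL(2,ℝ)` integral of positive
determinant with `A Γ ⊆ Γ A`:

* `glWH0 A hA hn : WH0 Γ →+* WH0 Γ`, `glFF A hA hn : Frac (WH0 Γ) →+* Frac (WH0 Γ)` (`k ↦ k ∘ A`),
  `toMer_glFF`;
* `GlStable hM e A hA hn` : the image of the comparison map `Φ` is stable under `k ↦ k ∘ A`;
  `glStable_of_gen` (enough on field generators), `glStable_of_qExp` (enough: the `q`-expansions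
  of the `(Φ x) ∘ A`, `x` a generator, have coefficients in `L` — the `q`-expansion principle);
* `glHom`, `glAlg : L F₀ →ₐ[L] L F₀` with `Φ (glHom x) = (Φ x) ∘ A`.
-/
import Mathlib
import Fermat.Agent.S48lib.X1.HeckeJ.Rational

set_option autoImplicit false
set_option linter.unusedSectionVars false
set_option linter.unusedVariables false
set_option linter.style.haveILetI false

noncomputable section

namespace Fermat.Agent.S43lib.Igusa

open UpperHalfPlane Matrix.SpecialLinearGroup Fermat.Agent.ProgramR CongruenceSubgroup ModularForm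
open ModularCurve IntermediateField Fermat.Agent.ProgramR.LevelOne
open Fermat.Agent.S29lib.H Fermat.Agent.S48lib.X1.HeckeJ
open scoped MatrixGroups

/-! ### the analytic side -/

section An

variable {Γ : Subgroup SL(2, ℤ)} (A : GL (Fin 2) ℝ) (hA : IsIntMat A)
  (hn : ∀ γ ∈ Γ, ∃ γ' ∈ Γ, A * (mapGL ℝ γ : GL (Fin 2) ℝ) = (mapGL ℝ γ' : GL (Fin 2) ℝ) * A)

/-- `a ↦ a ∘ A` on `WH0 Γ`, for an integral matrix `A` with `A Γ ⊆ Γ A` -/
def glWH0 : WH0 Γ →+* WH0 Γ where
  toFun a := ⟨fun z => a.1 (A • z), by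
    have h1 := (glTranslate A hA (WH0.incl Γ a)).2
    refine ⟨h1.mdiff, ?_, h1.exists_bdd⟩
    intro γ hγ z
    obtain ⟨γ', hγ', hmul⟩ := hn γ hγ
    have h2 : A • (γ • z) = γ' • (A • z) := by
      show A • ((mapGL ℝ γ : GL (Fin 2) ℝ) • z) = (mapGL ℝ γ' : GL (Fin 2) ℝ) • (A • z)
      rw [← mul_smul, ← mul_smul, hmul]
    rw [h2]
    exact a.2.smul_eq _ hγ' _⟩
  map_one' := rfl
  map_mul' _ _ := rfl
  map_zero' := rfl
  map_add' _ _ := rfl

@[simp] theorem glWH0_apply (a : WH0 Γ) (z : ℍ) : (glWH0 A hA hn a).1 z = a.1 (A • z) := rfl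

theorem toHol_glWH0 (a : WH0 Γ) :
    WH0.toHol Γ (glWH0 A hA hn a) = Hol.comp A hA.det_pos (WH0.toHol Γ a) := rfl

theorem glWH0_injective : Function.Injective (glWH0 A hA hn) := by
  intro a b hab
  apply WH0.toHol_injective Γ
  apply Hol.comp_injective A hA.det_pos
  rw [← toHol_glWH0 A hA hn, ← toHol_glWH0 A hA hn, hab]

theorem glWH0_const (c : ℂ) : glWH0 A hA hn (algebraMap ℂ (WH0 Γ) c) = algebraMap ℂ (WH0 Γ) c :=
  rfl

/-- `k ↦ k ∘ A` on the analytic function field -/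
def glFF : WH0.FunField Γ →+* WH0.FunField Γ :=
  funFieldMap (glWH0 A hA hn) (glWH0_injective A hA hn)

theorem glFF_algebraMap (a : WH0 Γ) :
    glFF A hA hn (algebraMap _ _ a) = algebraMap _ _ (glWH0 A hA hn a) :=
  funFieldMap_algebraMap _ _ a

theorem toMer_glFF (k : WH0.FunField Γ) :
    toMer Γ (glFF A hA hn k) = merComp A hA.det_pos (toMer Γ k) := by
  have : (toMer Γ).comp (glFF A hA hn) = (merComp A hA.det_pos).comp (toMer Γ) := by
    apply funField_ringHom_ext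
    intro a
    rw [RingHom.comp_apply, RingHom.comp_apply, glFF_algebraMap, toMer_algebraMap,
      toMer_algebraMap, merComp_algebraMap, toHol_glWH0]
  exact congrArg (fun φ : WH0.FunField Γ →+* Mer => φ k) this

theorem glFF_const (c : ℂ) : glFF A hA hn (algebraMap ℂ _ c) = algebraMap ℂ _ c := by
  rw [IsScalarTower.algebraMap_apply ℂ (WH0 Γ) (WH0.FunField Γ), glFF_algebraMap, glWH0_const]

/-- two such operators agree as soon as the matrices act in the same way on `ℍ` -/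
theorem glFF_congr {A' : GL (Fin 2) ℝ} (hA' : IsIntMat A')
    (hn' : ∀ γ ∈ Γ, ∃ γ' ∈ Γ, A' * (mapGL ℝ γ : GL (Fin 2) ℝ) = (mapGL ℝ γ' : GL (Fin 2) ℝ) * A')
    (h : ∀ z : ℍ, A • z = A' • z) (k : WH0.FunField Γ) : glFF A hA hn k = glFF A' hA' hn' k := by
  have : glFF A hA hn = glFF A' hA' hn' := by
    apply funField_ringHom_ext
    intro a
    rw [glFF_algebraMap, glFF_algebraMap]
    congr 1
    apply Subtype.ext
    funext z
    rw [glWH0_apply, glWH0_apply, h z]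
  exact congrArg (fun φ : WH0.FunField Γ →+* WH0.FunField Γ => φ k) this

/-- composition -/
theorem glFF_glFF {B : GL (Fin 2) ℝ} (hB : IsIntMat B)
    (hnB : ∀ γ ∈ Γ, ∃ γ' ∈ Γ, B * (mapGL ℝ γ : GL (Fin 2) ℝ) = (mapGL ℝ γ' : GL (Fin 2) ℝ) * B)
    {C : GL (Fin 2) ℝ} (hC : IsIntMat C)
    (hnC : ∀ γ ∈ Γ, ∃ γ' ∈ Γ, C * (mapGL ℝ γ : GL (Fin 2) ℝ) = (mapGL ℝ γ' : GL (Fin 2) ℝ) * C)
    (h : ∀ z : ℍ, B • (A • z) = C • z) (k : WH0.FunField Γ) :
    glFF A hA hn (glFF B hB hnB k) = glFF C hC hnC k := by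
  have : (glFF A hA hn).comp (glFF B hB hnB) = glFF C hC hnC := by
    apply funField_ringHom_ext
    intro a
    rw [RingHom.comp_apply, glFF_algebraMap, glFF_algebraMap, glFF_algebraMap]
    congr 1
    apply Subtype.ext
    funext z
    rw [glWH0_apply, glWH0_apply, glWH0_apply, h z]
  exact congrArg (fun φ : WH0.FunField Γ →+* WH0.FunField Γ => φ k) this

/-- commutation: `k ∘ B ∘ A = k ∘ B' ∘ A'` -/
theorem glFF_glFF_eq {B : GL (Fin 2) ℝ} (hB : IsIntMat B)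
    (hnB : ∀ γ ∈ Γ, ∃ γ' ∈ Γ, B * (mapGL ℝ γ : GL (Fin 2) ℝ) = (mapGL ℝ γ' : GL (Fin 2) ℝ) * B)
    {A' : GL (Fin 2) ℝ} (hA' : IsIntMat A')
    (hnA' : ∀ γ ∈ Γ, ∃ γ' ∈ Γ,
      A' * (mapGL ℝ γ : GL (Fin 2) ℝ) = (mapGL ℝ γ' : GL (Fin 2) ℝ) * A')
    {B' : GL (Fin 2) ℝ} (hB' : IsIntMat B')
    (hnB' : ∀ γ ∈ Γ, ∃ γ' ∈ Γ,
      B' * (mapGL ℝ γ : GL (Fin 2) ℝ) = (mapGL ℝ γ' : GL (Fin 2) ℝ) * B')
    (h : ∀ z : ℍ, B • (A • z) = B' • (A' • z)) (k : WH0.FunField Γ) :
    glFF A hA hn (glFF B hB hnB k) = glFF A' hA' hnA' (glFF B' hB' hnB' k) := by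
  have : (glFF A hA hn).comp (glFF B hB hnB) = (glFF A' hA' hnA').comp (glFF B' hB' hnB') := by
    apply funField_ringHom_ext
    intro a
    rw [RingHom.comp_apply, RingHom.comp_apply, glFF_algebraMap, glFF_algebraMap, glFF_algebraMap,
      glFF_algebraMap]
    congr 1
    apply Subtype.ext
    funext z
    rw [glWH0_apply, glWH0_apply, glWH0_apply, glWH0_apply, h z]
  exact congrArg (fun φ : WH0.FunField Γ →+* WH0.FunField Γ => φ k) this

/-- the normaliser hypothesis for `δ ∈ SL(2,ℤ)` normalising `Γ` -/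
theorem mapGL_normalises (δ : SL(2, ℤ)) (hδ : ∀ γ ∈ Γ, δ * γ * δ⁻¹ ∈ Γ) :
    ∀ γ ∈ Γ, ∃ γ' ∈ Γ, (mapGL ℝ δ : GL (Fin 2) ℝ) * (mapGL ℝ γ : GL (Fin 2) ℝ) =
      (mapGL ℝ γ' : GL (Fin 2) ℝ) * (mapGL ℝ δ : GL (Fin 2) ℝ) := by
  intro γ hγ
  refine ⟨δ * γ * δ⁻¹, hδ γ hγ, ?_⟩
  rw [← map_mul, ← map_mul]
  congr 1
  group

/-- the operator of `δ ∈ SL(2,ℤ)` is the diamond -/
theorem glFF_mapGL (δ : SL(2, ℤ)) (hδ : ∀ γ ∈ Γ, δ * γ * δ⁻¹ ∈ Γ)
    (hn' : ∀ γ ∈ Γ, ∃ γ' ∈ Γ, (mapGL ℝ δ : GL (Fin 2) ℝ) * (mapGL ℝ γ : GL (Fin 2) ℝ) =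
      (mapGL ℝ γ' : GL (Fin 2) ℝ) * (mapGL ℝ δ : GL (Fin 2) ℝ)) (k : WH0.FunField Γ) :
    glFF (mapGL ℝ δ : GL (Fin 2) ℝ) (isIntMat_mapGL δ) hn' k = diaFF δ hδ k := by
  have : glFF (mapGL ℝ δ : GL (Fin 2) ℝ) (isIntMat_mapGL δ) hn' = diaFF δ hδ := by
    apply funField_ringHom_ext
    intro a
    rw [glFF_algebraMap, diaFF_algebraMap]
    rfl
  exact congrArg (fun φ : WH0.FunField Γ →+* WH0.FunField Γ => φ k) this

end An

/-! ### the formal side -/

section Formal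

variable {Γ : Subgroup SL(2, ℤ)} {hT : ModularGroup.T ^ ((1 : ℕ) : ℤ) ∈ Γ}
variable {F₀ : IntermediateField ℚ (LaurentSeries ℚ)} (hM : IsAnModel Γ hT F₀)
variable {L : Type*} [Field L] [Algebra ℚ L] (e : L →+* ℂ)
variable (A : GL (Fin 2) ℝ) (hA : IsIntMat A)
  (hn : ∀ γ ∈ Γ, ∃ γ' ∈ Γ, A * (mapGL ℝ γ : GL (Fin 2) ℝ) = (mapGL ℝ γ' : GL (Fin 2) ℝ) * A)

/-- the image of `Φ` is stable under `k ↦ k ∘ A` -/
def GlStable : Prop :=
  ∀ x : ↥(laurentBaseChange L F₀), ∃ y : ↥(laurentBaseChange L F₀),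
    hM.toFunField e y = glFF A hA hn (hM.toFunField e x)

/-- the subfield of `L F₀` of elements `x` with `(Φ x) ∘ A ∈ Φ (L F₀)` -/
def glSubfield : Subfield ↥(laurentBaseChange L F₀) :=
  (hM.toFunField e).fieldRange.comap ((glFF A hA hn).comp (hM.toFunField e))

theorem mem_glSubfield (x : ↥(laurentBaseChange L F₀)) :
    x ∈ glSubfield hM e A hA hn ↔
      ∃ y : ↥(laurentBaseChange L F₀), hM.toFunField e y = glFF A hA hn (hM.toFunField e x) := by
  rw [glSubfield, Subfield.mem_comap, RingHom.mem_fieldRange]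
  rfl

/-- stability can be checked on field generators -/
theorem glStable_of_gen (G : Set (LaurentSeries L))
    (hG : (laurentBaseChange L F₀ : IntermediateField L (LaurentSeries L)) ≤
      IntermediateField.adjoin L G)
    (hgen : ∀ x ∈ G, ∃ hx : x ∈ laurentBaseChange L F₀, ∃ y : ↥(laurentBaseChange L F₀),
      hM.toFunField e y = glFF A hA hn (hM.toFunField e ⟨x, hx⟩)) :
    GlStable hM e A hA hn := by
  intro x
  rw [← mem_glSubfield]
  refine forall_mem_of_gen _ G hG ?_ ?_ x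
  · intro c
    rw [mem_glSubfield]
    exact ⟨algebraMap L _ c, by rw [hM.toFunField_algebraMap, glFF_const]⟩
  · intro x hx
    obtain ⟨hxK, y, hy⟩ := hgen x hx
    exact ⟨hxK, (mem_glSubfield hM e A hA hn _).mpr ⟨y, hy⟩⟩

/-- **the `q`-expansion principle**: stability follows as soon as the `q`-expansions of the
`(Φ x) ∘ A`, `x` a generator, have coefficients in `L` -/
theorem glStable_of_qExp (hgenΦ : Generates hM e) (hj : jq ∈ F₀) (G : Set (LaurentSeries L))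
    (hG : (laurentBaseChange L F₀ : IntermediateField L (LaurentSeries L)) ≤
      IntermediateField.adjoin L G)
    (hgen : ∀ x ∈ G, ∃ hx : x ∈ laurentBaseChange L F₀, ∃ y : LaurentSeries L,
      qExpFFW Γ 1 hT (glFF A hA hn (hM.toFunField e ⟨x, hx⟩)) = coeffMap e y) :
    GlStable hM e A hA hn := by
  refine glStable_of_gen hM e A hA hn G hG fun x hx => ?_
  obtain ⟨hxK, y, hy⟩ := hgen x hx
  obtain ⟨hyK, hyΦ⟩ := hM.exists_toFunField_eq e hgenΦ hj _ y hy
  exact ⟨hxK, ⟨y, hyK⟩, hyΦ⟩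

variable (hst : GlStable hM e A hA hn)

/-- **the formal operator** as a ring endomorphism of `L F₀` -/
def glHom : ↥(laurentBaseChange L F₀) →+* ↥(laurentBaseChange L F₀) :=
  ((toFunFieldEquiv hM e).symm :
      (hM.toFunField e).fieldRange →+* ↥(laurentBaseChange L F₀)).comp
    (((glFF A hA hn).comp (hM.toFunField e)).codRestrict (hM.toFunField e).fieldRange
      (fun x => by
        obtain ⟨y, hy⟩ := hst x
        exact RingHom.mem_fieldRange.mpr ⟨y, hy⟩))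

/-- characterisation: `Φ (glHom x) = (Φ x) ∘ A` -/
theorem toFunField_glHom (x : ↥(laurentBaseChange L F₀)) :
    hM.toFunField e (glHom hM e A hA hn hst x) = glFF A hA hn (hM.toFunField e x) := by
  have h := coe_toFunFieldEquiv hM e (glHom hM e A hA hn hst x)
  rw [← h]
  simp only [glHom, RingHom.coe_comp, Function.comp_apply, RingHom.coe_coe,
    RingEquiv.apply_symm_apply]
  rfl

theorem toMer_toFunField_glHom (x : ↥(laurentBaseChange L F₀)) :
    toMer Γ (hM.toFunField e (glHom hM e A hA hn hst x)) =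
      merComp A hA.det_pos (toMer Γ (hM.toFunField e x)) := by
  rw [toFunField_glHom, toMer_glFF]

theorem glHom_eq_iff (x y : ↥(laurentBaseChange L F₀)) :
    glHom hM e A hA hn hst x = y ↔ hM.toFunField e y = glFF A hA hn (hM.toFunField e x) := by
  rw [← toFunField_glHom hM e A hA hn hst x]
  exact ⟨fun h => by rw [h], fun h => (hM.toFunField e).injective h.symm⟩

/-- **the formal operator** as an `L`-algebra endomorphism -/
def glAlg : ↥(laurentBaseChange L F₀) →ₐ[L] ↥(laurentBaseChange L F₀) :=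
  { glHom hM e A hA hn hst with
    commutes' := fun c => by
      show glHom hM e A hA hn hst (algebraMap L _ c) = algebraMap L _ c
      rw [glHom_eq_iff, hM.toFunField_algebraMap, glFF_const] }

@[simp] theorem glAlg_apply (x : ↥(laurentBaseChange L F₀)) :
    glAlg hM e A hA hn hst x = glHom hM e A hA hn hst x := rfl

end Formal

end Fermat.Agent.S43lib.Igusa
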