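/-
S43lib / Igusa / WMat  (helper9)

**Matrix algebra of the Atkin–Lehner operator at `q ∥ N = M q`, on `±Γ₁(N)`.**

`wMat q g = g · diag(q, 1)` for `g ∈ SL(2,ℤ)` with `M ∣ g₁₀`, `q ∣ g₁₁` (the matrices
`(q x, y; N z, q w)` of determinant `q`).  For `γ ∈ Γ₀(N)`:

* `wMat_mul_mapGL : W γ = γ' W` with `γ' = wConj q g γ c₁ hc ∈ Γ₀(N)`,
  `γ'₁₁ ≡ γ₁₁ (mod M)`, `γ'₁₁ ≡ γ₀₀ (mod q)`;
* `wConj_mem_pmGamma1` : `W` normalises `±Γ₁(N)`;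
* `wMat_smul_wMat_smul : W (W z) = δ z` with `δ = wSqDelta q g ν₁ hν ∈ Γ₀(N)`.
-/
import Mathlib
import Fermat.Agent.S43lib.Igusa.GlAn

set_option autoImplicit false
set_option linter.unusedSectionVars false
set_option linter.unusedVariables false
set_option linter.style.haveILetI false

noncomputable section

namespace Fermat.Agent.S43lib.Igusa

open UpperHalfPlane Matrix.SpecialLinearGroup Fermat.Agent.ProgramR CongruenceSubgroup ModularForm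
open Fermat.Agent.S29lib.H Fermat.Agent.S48lib.X1 Fermat.Agent.S48lib.X1.Wp
open Fermat.Agent.S48lib.X1.HeckeJ
open scoped MatrixGroups

variable (q : ℕ) [NeZero q]

/-- the Atkin–Lehner type matrix `g · diag(q, 1)` -/
def wMat (g : SL(2, ℤ)) : GL (Fin 2) ℝ := (mapGL ℝ g : GL (Fin 2) ℝ) * heckeDiagMatrix q

theorem val_wMat (g : SL(2, ℤ)) :
    ((wMat q g : GL (Fin 2) ℝ) : Matrix (Fin 2) (Fin 2) ℝ) =
      !![(q : ℝ) * g 0 0, (g 0 1 : ℝ); (q : ℝ) * g 1 0, (g 1 1 : ℝ)] := by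
  rw [wMat, Matrix.GeneralLinearGroup.coe_mul, mapGL_coe_matrix, val_heckeDiagMatrix (NeZero.ne q)]
  ext i j
  fin_cases i <;> fin_cases j <;>
    simp [Matrix.mul_apply, Fin.sum_univ_two, mul_comm]

theorem isIntMat_wMat (g : SL(2, ℤ)) : IsIntMat (wMat q g) := by
  refine ⟨!![(q : ℤ) * g 0 0, g 0 1; (q : ℤ) * g 1 0, g 1 1], ?_, ?_⟩
  · rw [val_wMat]
    ext i j
    fin_cases i <;> fin_cases j <;> simp
  · rw [Matrix.det_fin_two_of]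
    have hd := sl_det_eq g
    have hq : (0 : ℤ) < q := by exact_mod_cast Nat.pos_of_ne_zero (NeZero.ne q)
    have : (q : ℤ) * g 0 0 * g 1 1 - g 0 1 * ((q : ℤ) * g 1 0) = q := by
      linear_combination (q : ℤ) * hd
    rw [this]
    exact hq

/-- `diag(q,1) γ = γ₁ diag(q,1)` for `q ∣ γ₁₀` -/
def diagConj (γ : SL(2, ℤ)) (c₁ : ℤ) (hc : γ 1 0 = q * c₁) : SL(2, ℤ) :=
  ⟨!![γ 0 0, q * γ 0 1; c₁, γ 1 1], by
    rw [Matrix.det_fin_two_of]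
    linear_combination (sl_det_eq γ) + γ 0 1 * hc⟩

theorem heckeDiag_mul_mapGL (γ : SL(2, ℤ)) (c₁ : ℤ) (hc : γ 1 0 = q * c₁) :
    heckeDiagMatrix q * (mapGL ℝ γ : GL (Fin 2) ℝ) =
      (mapGL ℝ (diagConj q γ c₁ hc) : GL (Fin 2) ℝ) * heckeDiagMatrix q := by
  apply Matrix.GeneralLinearGroup.ext
  intro i j
  rw [Matrix.GeneralLinearGroup.coe_mul, Matrix.GeneralLinearGroup.coe_mul, mapGL_coe_matrix,
    mapGL_coe_matrix, val_heckeDiagMatrix (NeZero.ne q)]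
  have hcR : (γ 1 0 : ℝ) = (q : ℝ) * c₁ := by exact_mod_cast hc
  fin_cases i <;> fin_cases j <;>
    simp [diagConj, Matrix.mul_apply, Fin.sum_univ_two, hcR, mul_comm]

/-- `W γ = γ' W` -/
def wConj (g γ : SL(2, ℤ)) (c₁ : ℤ) (hc : γ 1 0 = q * c₁) : SL(2, ℤ) :=
  g * diagConj q γ c₁ hc * g⁻¹

theorem wMat_mul_mapGL (g γ : SL(2, ℤ)) (c₁ : ℤ) (hc : γ 1 0 = q * c₁) :
    wMat q g * (mapGL ℝ γ : GL (Fin 2) ℝ) =
      (mapGL ℝ (wConj q g γ c₁ hc) : GL (Fin 2) ℝ) * wMat q g := by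
  rw [wMat, mul_assoc, heckeDiag_mul_mapGL q γ c₁ hc, wConj, map_mul, map_mul, map_inv]
  group

theorem wConj_one_zero (g γ : SL(2, ℤ)) (c₁ : ℤ) (hc : γ 1 0 = q * c₁) :
    (wConj q g γ c₁ hc) 1 0 = g 1 0 * g 1 1 * γ 0 0 + g 1 1 ^ 2 * c₁ - g 1 0 ^ 2 * q * γ 0 1 -
      g 1 0 * g 1 1 * γ 1 1 := by
  simp [wConj, diagConj, Matrix.mul_apply, Fin.sum_univ_two, Matrix.adjugate_fin_two]
  ring

theorem wConj_one_one (g γ : SL(2, ℤ)) (c₁ : ℤ) (hc : γ 1 0 = q * c₁) :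
    (wConj q g γ c₁ hc) 1 1 = -(g 0 1 * g 1 0 * γ 0 0) - g 0 1 * g 1 1 * c₁ +
      g 0 0 * g 1 0 * q * γ 0 1 + g 0 0 * g 1 1 * γ 1 1 := by
  simp [wConj, diagConj, Matrix.mul_apply, Fin.sum_univ_two, Matrix.adjugate_fin_two]
  ring

section Level

variable (M : ℕ) {g : SL(2, ℤ)} (hgM : (M : ℤ) ∣ g 1 0) (hgq : (q : ℤ) ∣ g 1 1)

include hgM hgq

theorem dvd_wConj_one_zero {γ : SL(2, ℤ)} (c₁ : ℤ) (hc : γ 1 0 = q * c₁) (hM : (M : ℤ) ∣ c₁) :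
    ((M * q : ℕ) : ℤ) ∣ (wConj q g γ c₁ hc) 1 0 := by
  obtain ⟨μ, hμ⟩ := hgM
  obtain ⟨ν, hν⟩ := hgq
  obtain ⟨c₂, hc₂⟩ := hM
  rw [wConj_one_zero, hμ, hν, hc₂]
  refine ⟨μ * ν * γ 0 0 + q * ν ^ 2 * c₂ - M * μ ^ 2 * γ 0 1 - μ * ν * γ 1 1, ?_⟩
  push_cast
  ring

theorem wConj_one_one_modEq_M {γ : SL(2, ℤ)} (c₁ : ℤ) (hc : γ 1 0 = q * c₁) (hM : (M : ℤ) ∣ c₁) :
    (wConj q g γ c₁ hc) 1 1 ≡ γ 1 1 [ZMOD (M : ℤ)] := by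
  obtain ⟨μ, hμ⟩ := hgM
  obtain ⟨c₂, hc₂⟩ := hM
  have hd := sl_det_eq g
  rw [wConj_one_one]
  refine (Int.modEq_iff_dvd.mpr ⟨g 0 1 * μ * γ 0 0 + g 0 1 * g 1 1 * c₂ - g 0 0 * μ * q * γ 0 1 -
    g 0 1 * μ * γ 1 1, ?_⟩)
  rw [hμ] at hd ⊢
  rw [hc₂]
  linear_combination (-γ 1 1) * hd

theorem wConj_one_one_modEq_q {γ : SL(2, ℤ)} (c₁ : ℤ) (hc : γ 1 0 = q * c₁) :
    (wConj q g γ c₁ hc) 1 1 ≡ γ 0 0 [ZMOD (q : ℤ)] := by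
  obtain ⟨ν, hν⟩ := hgq
  have hd := sl_det_eq g
  rw [wConj_one_one]
  refine (Int.modEq_iff_dvd.mpr ⟨g 0 0 * ν * γ 0 0 + g 0 1 * ν * c₁ - g 0 0 * g 1 0 * γ 0 1 -
    g 0 0 * ν * γ 1 1, ?_⟩)
  rw [hν] at hd ⊢
  linear_combination (-γ 0 0) * hd

end Level

/-! ### `W` normalises `Γ₀(N)` and `±Γ₁(N)` -/

section Normal

variable (M : ℕ) [NeZero M] {g : SL(2, ℤ)} (hgM : (M : ℤ) ∣ g 1 0) (hgq : (q : ℤ) ∣ g 1 1)
  (hcop : Nat.Coprime M q)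

theorem exists_c₁ {γ : SL(2, ℤ)} (hγ : ((M * q : ℕ) : ℤ) ∣ γ 1 0) :
    ∃ c₁ : ℤ, γ 1 0 = q * c₁ ∧ (M : ℤ) ∣ c₁ := by
  obtain ⟨k, hk⟩ := hγ
  exact ⟨M * k, by rw [hk]; push_cast; ring, dvd_mul_right _ _⟩

include hcop in
theorem dvd_mul_of_dvd_of_dvd {a : ℤ} (h1 : (M : ℤ) ∣ a) (h2 : (q : ℤ) ∣ a) :
    ((M * q : ℕ) : ℤ) ∣ a := by
  have h : IsCoprime (M : ℤ) (q : ℤ) := Nat.isCoprime_iff_coprime.mpr hcop
  push_cast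
  exact h.mul_dvd h1 h2

/-- entries of an element of `Γ₀(N)` : `γ₀₀ γ₁₁ ≡ 1 (mod N)` -/
theorem zero_zero_mul_one_one {N : ℕ} {γ : SL(2, ℤ)} (hγ : (N : ℤ) ∣ γ 1 0) :
    γ 0 0 * γ 1 1 ≡ 1 [ZMOD (N : ℤ)] := by
  obtain ⟨k, hk⟩ := hγ
  have hd := sl_det_eq γ
  refine (Int.modEq_iff_dvd.mpr ⟨-(γ 0 1 * k), ?_⟩)
  rw [hk] at hd
  linear_combination -hd

include hgM hgq hcop in
/-- **`W` normalises `±Γ₁(M q)`** -/
theorem wConj_mem_pmGamma1 {γ : SL(2, ℤ)} (hγ : γ ∈ pmGamma1 (M * q)) (c₁ : ℤ)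
    (hc : γ 1 0 = q * c₁) (hM : (M : ℤ) ∣ c₁) : wConj q g γ c₁ hc ∈ pmGamma1 (M * q) := by
  rw [mem_pmGamma1_iff_dvd] at hγ ⊢
  obtain ⟨h0, h1⟩ := hγ
  refine ⟨dvd_wConj_one_zero q M hgM hgq c₁ hc hM, ?_⟩
  have hMdvd : (M : ℤ) ∣ ((M * q : ℕ) : ℤ) := ⟨q, by push_cast; ring⟩
  have hqdvd : (q : ℤ) ∣ ((M * q : ℕ) : ℤ) := ⟨M, by push_cast; ring⟩
  have e1 := (wConj_one_one_modEq_M q M hgM hgq c₁ hc hM).symm.dvd
  have e2 := (wConj_one_one_modEq_q q M hgM hgq c₁ hc).symm.dvd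
  have hprod := (zero_zero_mul_one_one h0).symm.dvd
  rcases h1 with h1 | h1
  · left
    apply dvd_mul_of_dvd_of_dvd q M hcop
    · have := dvd_add e1 (hMdvd.trans h1)
      have e : wConj q g γ c₁ hc 1 1 - γ 1 1 + (γ 1 1 - 1) = wConj q g γ c₁ hc 1 1 - 1 := by ring
      rwa [e] at this
    · -- `γ₀₀ ≡ 1 (mod q)`
      have h00 : (q : ℤ) ∣ γ 0 0 - 1 := by
        have h2 : ((M * q : ℕ) : ℤ) ∣ γ 0 0 - 1 := by
          have e : γ 0 0 - 1 = (γ 0 0 * γ 1 1 - 1) - γ 0 0 * (γ 1 1 - 1) := by ring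
          rw [e]
          exact dvd_sub hprod (h1.mul_left _)
        exact hqdvd.trans h2
      have := dvd_add e2 h00
      have e : wConj q g γ c₁ hc 1 1 - γ 0 0 + (γ 0 0 - 1) = wConj q g γ c₁ hc 1 1 - 1 := by ring
      rwa [e] at this
  · right
    apply dvd_mul_of_dvd_of_dvd q M hcop
    · have := dvd_add e1 (hMdvd.trans h1)
      have e : wConj q g γ c₁ hc 1 1 - γ 1 1 + (γ 1 1 + 1) = wConj q g γ c₁ hc 1 1 + 1 := by ring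
      rwa [e] at this
    · have h00 : (q : ℤ) ∣ γ 0 0 + 1 := by
        have h2 : ((M * q : ℕ) : ℤ) ∣ γ 0 0 + 1 := by
          have e : γ 0 0 + 1 = -((γ 0 0 * γ 1 1 - 1) - γ 0 0 * (γ 1 1 + 1)) := by ring
          rw [e]
          exact (dvd_sub hprod (h1.mul_left _)).neg_right
        exact hqdvd.trans h2
      have := dvd_add e2 h00
      have e : wConj q g γ c₁ hc 1 1 - γ 0 0 + (γ 0 0 + 1) = wConj q g γ c₁ hc 1 1 + 1 := by ring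
      rwa [e] at this

include hgM hgq hcop in
/-- the normaliser hypothesis of `glWH0` for `W` and `±Γ₁(M q)` -/
theorem wMat_normalises :
    ∀ γ ∈ pmGamma1 (M * q), ∃ γ' ∈ pmGamma1 (M * q),
      wMat q g * (mapGL ℝ γ : GL (Fin 2) ℝ) = (mapGL ℝ γ' : GL (Fin 2) ℝ) * wMat q g := by
  intro γ hγ
  obtain ⟨c₁, hc, hM⟩ := exists_c₁ q M ((mem_pmGamma1_iff_dvd.mp hγ).1)
  exact ⟨wConj q g γ c₁ hc, wConj_mem_pmGamma1 q M hgM hgq hcop hγ c₁ hc hM,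
    wMat_mul_mapGL q g γ c₁ hc⟩

end Normal

/-! ### the square of `W` -/

/-- `W² = q · δ` -/
def wSqDelta (g : SL(2, ℤ)) (ν₁ : ℤ) (hν : g 1 1 = q * ν₁) : SL(2, ℤ) :=
  g * ⟨!![q * g 0 0, g 0 1; g 1 0, ν₁], by
    rw [Matrix.det_fin_two_of]
    linear_combination (sl_det_eq g) - g 0 0 * hν⟩

theorem wSqDelta_one_zero (g : SL(2, ℤ)) (ν₁ : ℤ) (hν : g 1 1 = q * ν₁) :
    (wSqDelta q g ν₁ hν) 1 0 = g 1 0 * (q * g 0 0 + g 1 1) := by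
  simp [wSqDelta, Matrix.mul_apply, Fin.sum_univ_two]
  ring

theorem wSqDelta_one_one (g : SL(2, ℤ)) (ν₁ : ℤ) (hν : g 1 1 = q * ν₁) :
    (wSqDelta q g ν₁ hν) 1 1 = g 1 0 * g 0 1 + g 1 1 * ν₁ := by
  simp [wSqDelta, Matrix.mul_apply, Fin.sum_univ_two]

theorem dvd_wSqDelta_one_zero (M : ℕ) {g : SL(2, ℤ)} (hgM : (M : ℤ) ∣ g 1 0) (ν₁ : ℤ)
    (hν : g 1 1 = q * ν₁) : ((M * q : ℕ) : ℤ) ∣ (wSqDelta q g ν₁ hν) 1 0 := by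
  obtain ⟨μ, hμ⟩ := hgM
  rw [wSqDelta_one_zero, hμ, hν]
  exact ⟨μ * (g 0 0 + ν₁), by push_cast; ring⟩

theorem wMat_mul_wMat (g : SL(2, ℤ)) (ν₁ : ℤ) (hν : g 1 1 = q * ν₁) :
    wMat q g * wMat q g =
      Matrix.GeneralLinearGroup.scalar (Fin 2)
        (Units.mk0 (q : ℝ) (Nat.cast_ne_zero.mpr (NeZero.ne q))) *
        (mapGL ℝ (wSqDelta q g ν₁ hν) : GL (Fin 2) ℝ) := by
  apply Matrix.GeneralLinearGroup.ext
  intro i j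
  rw [Matrix.GeneralLinearGroup.coe_mul, Matrix.GeneralLinearGroup.coe_mul, val_wMat,
    mapGL_coe_matrix, Matrix.GeneralLinearGroup.coe_scalar, Units.val_mk0, Matrix.scalar_apply,
    Matrix.diagonal_mul]
  have hνR : (g 1 1 : ℝ) = (q : ℝ) * ν₁ := by exact_mod_cast hν
  fin_cases i <;> fin_cases j <;>
    simp [wSqDelta, Matrix.mul_apply, Fin.sum_univ_two, hνR] <;>
    ring

theorem wMat_smul_wMat_smul (g : SL(2, ℤ)) (ν₁ : ℤ) (hν : g 1 1 = q * ν₁) (z : ℍ) :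
    wMat q g • (wMat q g • z) = (mapGL ℝ (wSqDelta q g ν₁ hν) : GL (Fin 2) ℝ) • z := by
  rw [← mul_smul, wMat_mul_wMat q g ν₁ hν, mul_smul, glScalar_smul]

/-! ### the action on `ℍ` -/

theorem wMat_smul (g : SL(2, ℤ)) (z : ℍ) : wMat q g • z = g • (heckeDiagMatrix q • z) := by
  rw [wMat, mul_smul]
  rfl

theorem coe_heckeDiag_smul (z : ℍ) : ((heckeDiagMatrix q • z : ℍ) : ℂ) = (q : ℂ) * z := by
  have hpos : 0 < (heckeDiagMatrix q).det.val := (isIntMat_heckeDiagMatrix q).det_pos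
  rw [UpperHalfPlane.coe_smul_of_det_pos hpos]
  simp [UpperHalfPlane.num, UpperHalfPlane.denom, val_heckeDiagMatrix (NeZero.ne q)]

end Fermat.Agent.S43lib.Igusa
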