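/-
S43lib / Igusa / WGen  (helper9)

**The Atkin–Lehner matrix `W = g · diag(q,1)` on the generators of `FBar₁(M q)`.**

* `laurentExp_one_scale_of_width` : if `f` has width `N` and `f' = f(q ·)` has width one, then the
  `q`-expansion of `f'` read in `Q = q^{1/N}` is the `Q`-expansion of `f` with `Q ↦ Q^q`;
* `qExpFFW_glFF_j` : `j ∘ W = j(q ·)`;
* `qExpand_qExpFFW_glFF_tau` : `τ_(0,b) ∘ W = τ_(b g₁₀, b g₁₁)(q ·)`, in `Q`-expansions;
* **`glStable_wMat`** : the image of `Φ : FBar₁(M q) → Frac WH0(±Γ₁(M q))` is stable under `W`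
  (the `q`-expansion principle).
-/
import Mathlib
import Fermat.Agent.S43lib.Igusa.WMat
import Fermat.Agent.S43lib.Igusa.DiaU
import Fermat.Agent.S48lib.X1.Field.Omega

set_option autoImplicit false
set_option linter.unusedSectionVars false
set_option linter.unusedVariables false
set_option linter.style.haveILetI false

noncomputable section

namespace Fermat.Agent.S43lib.Igusa

open UpperHalfPlane hiding I
open Matrix.SpecialLinearGroup Fermat.Agent.ProgramR CongruenceSubgroup ModularForm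
open ModularCurve IntermediateField Fermat.Agent.ProgramR.BarField Fermat.Agent.ProgramR.QExp
open Fermat.Agent.ProgramR.LevelOne
open Fermat.Agent.S29lib.H Fermat.Agent.S28lib
open Fermat.Agent.S48lib.X1 Fermat.Agent.S48lib.X1.Wp Fermat.Agent.S48lib.X1.HeckeJ
open scoped MatrixGroups

local notation "Qb" => AlgebraicClosure ℚ

/-! ### contraction `Q^N ↦ Q` of Laurent series -/

section Contract

variable {R : Type*} [CommRing R] (N : ℕ) [NeZero N]

theorem contract_bddBelow (s : LaurentSeries R) :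
    BddBelow (Function.support fun n : ℤ => s.coeff ((N : ℤ) * n)) := by
  by_cases hs : s = 0
  · subst hs
    refine ⟨0, fun n hn => ?_⟩
    simp at hn
  · refine ⟨min s.order 0, fun n hn => ?_⟩
    have h1 : s.order ≤ (N : ℤ) * n := HahnSeries.order_le_of_coeff_ne_zero hn
    have hN : (1 : ℤ) ≤ N := by exact_mod_cast Nat.one_le_iff_ne_zero.mpr (NeZero.ne N)
    rcases le_or_gt 0 n with h0 | h0
    · exact (min_le_right _ _).trans h0
    · have : (N : ℤ) * n ≤ n := by nlinarith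
      exact (min_le_left _ _).trans (h1.trans this)

/-- the series `∑ a_{N n} Qⁿ` -/
def contract (s : LaurentSeries R) : LaurentSeries R :=
  HahnSeries.ofSuppBddBelow (fun n : ℤ => s.coeff ((N : ℤ) * n)) (contract_bddBelow N s)

@[simp] theorem contract_coeff (s : LaurentSeries R) (n : ℤ) :
    (contract N s).coeff n = s.coeff ((N : ℤ) * n) := rfl

theorem contract_qExpand (s : LaurentSeries R) : contract N (qExpand R N s) = s := by
  ext n
  rw [contract_coeff, qExpand_coeff_mul]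

theorem coeffMap_contract {S : Type*} [CommRing S] (φ : R →+* S) (s : LaurentSeries R) :
    coeffMap φ (contract N s) = contract N (coeffMap φ s) := by
  ext n
  rw [coeffMap_coeff, contract_coeff, contract_coeff, coeffMap_coeff]

end Contract

/-! ### a scaling lemma across widths -/

theorem laurentExp_one_scale_of_width (N q : ℕ) [NeZero N] [NeZero q] {f f' : ℍ → ℂ} {m₁ m₂ : ℕ}
    (hf : IsMeroAtInfty (N : ℝ) m₁ f) (hf' : IsMeroAtInfty 1 m₂ f')
    (ψ : ℍ → ℍ) (hψ : ∀ z : ℍ, (ψ z : ℂ) = (q : ℂ) * z) (hff : ∀ z, f' z = f (ψ z)) :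
    qExpand ℂ N (laurentExp 1 f') = qExpand ℂ q (laurentExp (N : ℝ) f) := by
  have hNpos : (0 : ℝ) < (N : ℝ) := Nat.cast_pos.mpr (NeZero.pos N)
  have hqpos : 0 < q := NeZero.pos q
  have h1 : IsMeroAtInfty ((N : ℝ) * 1) (N * m₂) f' :=
    isMeroAtInfty_period_mul one_pos (NeZero.pos N) hf'
  rw [mul_one] at h1
  set m := max m₁ (N * m₂) with hm
  have hfm : IsMeroAtInfty (N : ℝ) m f := hf.mono hNpos (le_max_left _ _)
  have hf'm : IsMeroAtInfty (N : ℝ) (q * m) f' := by
    refine h1.mono hNpos ((le_max_right m₁ _).trans ?_)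
    exact Nat.le_mul_of_pos_left m hqpos
  have h2 := laurentExp_comp_of_qParam_pow hNpos hNpos hfm hf'm ψ hff
    (fun τ => by rw [hψ, qParam_nat_mul])
  have h3 := laurentExp_period_mul (n := N) one_pos hf'
  rw [mul_one] at h3
  rw [← h3, h2]

/-! ### the setting -/

section Setting

variable (q : ℕ) [NeZero q] (M : ℕ) [NeZero M] {g : SL(2, ℤ)}
  (hgM : (M : ℤ) ∣ g 1 0) (hgq : (q : ℤ) ∣ g 1 1) (hcop : Nat.Coprime M q)

/-- `j ∘ W = j(q ·)` in `q`-expansions -/
theorem qExpFFW_glFF_j {L : Type*} [Field L] (e : L →+* ℂ) :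
    qExpFFW (pmGamma1 (M * q)) 1 T_mem_pmGamma1
        (glFF (wMat q g) (isIntMat_wMat q g) (wMat_normalises q M hgM hgq hcop)
          (algebraMap _ _ (WH0.j (pmGamma1 (M * q))))) =
      coeffMap e (qExpand L q (jqModC L)) := by
  rw [glFF_algebraMap, qExpFFW_algebraMap, Nat.cast_one, coeffMap_qExpand, coeffMap_jqModC,
    ← laurentExp_jInv]
  have h : ((glWH0 (wMat q g) (isIntMat_wMat q g) (wMat_normalises q M hgM hgq hcop)
      (WH0.j (pmGamma1 (M * q))) : WH0 (pmGamma1 (M * q))) : ℍ → ℂ) =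
      jInv ∘ fun z : ℍ => heckeDiagMatrix q • z := by
    funext z
    show jInv (wMat q g • z) = jInv (heckeDiagMatrix q • z)
    rw [wMat_smul, jInv_smul]
  rw [h]
  exact laurentExp_scale isMeroAtInfty_jInv _ (coe_heckeDiag_smul q)

/-- `τ_(0,b) ∘ W = τ_(b g₁₀, b g₁₁)(q ·)`, in `Q`-expansions, `Q = q^{1/N}` -/
theorem qExpand_qExpFFW_glFF_tau {b : ℤ} (hb : ¬ ((M * q : ℕ) : ℤ) ∣ b) :
    qExpand ℂ (M * q) (qExpFFW (pmGamma1 (M * q)) 1 T_mem_pmGamma1
        (glFF (wMat q g) (isIntMat_wMat q g) (wMat_normalises q M hgM hgq hcop)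
          (algebraMap _ _ (tauWH0 hb)))) =
      qExpand ℂ q (tauK (M * q) (zC (M * q)) (b * g 1 0) (b * g 1 1)) := by
  rw [glFF_algebraMap, qExpFFW_algebraMap, Nat.cast_one]
  have hv : NZ (M * q) (rowMul (e0 b) g) := (nz_rowMul g).2 (nz_e0 hb)
  have hf := mem_merRing.mp (mem_merRing_of_mem_WH0_width (Gamma (M * q)) (M * q)
    T_pow_mem_Gamma (mem_WH0.mpr (isWH0_tauAn hv)))
  obtain ⟨m₁, hm₁⟩ := hf
  have hf' := mem_merRing.mp (mem_merRing_of_mem_WH0_width (pmGamma1 (M * q)) 1 T_mem_pmGamma1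
    (glWH0 (wMat q g) (isIntMat_wMat q g) (wMat_normalises q M hgM hgq hcop) (tauWH0 hb)).2)
  obtain ⟨m₂, hm₂⟩ := hf'
  rw [Nat.cast_one] at hm₂
  have key := laurentExp_one_scale_of_width (M * q) q hm₁ hm₂
    (fun z : ℍ => heckeDiagMatrix q • z) (coe_heckeDiag_smul q) (fun z => by
      show tauAn (M * q) (e0 b) (wMat q g • z) = _
      rw [wMat_smul, tauAn_smul])
  rw [key, laurentExp_tauAn' hv, rowMul_e0_zero, rowMul_e0_one]

end Setting

end Fermat.Agent.S43lib.Igusa
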