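/-
S43lib / Igusa / Wtilde  (helper9)

**The Atkin–Lehner operator at `q ∥ N = M q` on the function field `FBar₁(N)` of `X₁(N)`.**

For `g ∈ SL(2,ℤ)` with `M ∣ g₁₀`, `q ∣ g₁₁` and `W = g · diag(q,1)`:

* `glStable_wMat` : the image of `Φ` is stable under `W` (`q`-expansion principle);
* `wF1Hom : FBar₁(N) →ₐ[ℚ̄] FBar₁(N)` with `Φ (w x) = (Φ x) ∘ W` (`toFunField_wF1Hom`);
* `coe_wF1Hom_jBq : w j = j(q^q)`;
  `qExpand_wF1Hom_tauB : (w τ_(0,b))(Q^N) = τ_(c b g₁₀, c b g₁₁)(Q^q)` (`c = cEmb N`);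
* `wF1Hom_wF1Hom : w ∘ w = ⟨δ⟩`, `δ = wSqDelta`, hence `wF1 : FBar₁(N) ≃ₐ[ℚ̄] FBar₁(N)`;
* `diaF1_wF1Hom : ⟨δ⟩ ∘ w = w ∘ ⟨δ'⟩`, `δ' = W δ W⁻¹` (`δ'₁₁ ≡ δ₁₁ mod M`, `≡ δ₁₁⁻¹ mod q`);
* `galois_wF1Hom : σ ∘ w = w ∘ ⟨u⟩ ∘ σ` with `u ≡ 1 (mod M)`, `u ≡ cyc(σ)⁻¹ (mod q)`.
-/
import Mathlib
import Fermat.Agent.S43lib.Igusa.WGen

set_option autoImplicit false
set_option linter.unusedSectionVars false
set_option linter.unusedVariables false
set_option linter.style.haveILetI false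

noncomputable section

namespace Fermat.Agent.S43lib.Igusa

open UpperHalfPlane hiding I
open Matrix.SpecialLinearGroup Fermat.Agent.ProgramR CongruenceSubgroup ModularForm
open ModularCurve IntermediateField Fermat.Agent.ProgramR.BarField Fermat.Agent.ProgramR.QExp
open Fermat.Agent.ProgramR.LevelOne
open Fermat.Agent.S29lib.H Fermat.Agent.S28lib
open Fermat.Agent.S48lib.X1 Fermat.Agent.S48lib.X1.Wp Fermat.Agent.S48lib.X1.HeckeJ
open scoped MatrixGroups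

local notation "Qb" => AlgebraicClosure ℚ

variable (q : ℕ) [NeZero q] (M : ℕ) [NeZero M] {g : SL(2, ℤ)}

theorem coeffMap_qbarEmb_injective :
    Function.Injective (coeffMap (qbarEmb : Qb →+* ℂ)) := (coeffMap (qbarEmb : Qb →+* ℂ)).injective

/-! ### formal generators: change of the root of unity, functoriality -/

section FormalGen

theorem Xser_zpow {R : Type*} [CommRing R] (N : ℕ) (ζ : Rˣ) (c : ℤ) (κ : R) (a b : ℤ) :
    Xser N (ζ ^ c) κ a b = Xser N ζ κ a (c * b) := by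
  unfold Xser
  congr 1
  funext n
  rw [cX_zpow]

theorem tau_zpow {R : Type*} [CommRing R] (N : ℕ) [NeZero N] (ζ : Rˣ) (c : ℤ) (κ : R) (a b : ℤ) :
    tau N (ζ ^ c) κ a b = tau N ζ κ a (c * b) := by
  unfold tau tauSer
  rw [Xser_zpow]

theorem tauK_zpow {k : Type*} [Field k] (N : ℕ) [NeZero N] (ζ : kˣ) (c : ℤ) (a b : ℤ) :
    tauK N (ζ ^ c) a b = tauK N ζ a (c * b) := by
  unfold tauK
  rw [tau_zpow, ← zpow_mul]

theorem coeffMap_tauK {k k' : Type*} [Field k] [Field k'] (φ : k →+* k') (N : ℕ) [NeZero N]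
    (ζ : kˣ) (a b : ℤ) :
    coeffMap φ (tauK N ζ a b) = tauK N (Units.map (φ : k →* k') ζ) a b := by
  rw [tauK, coeffMap_tau, map_kap, tauK]
  congr 2
  rw [← map_zpow, Units.coe_map]
  rfl

/-- the cyclotomic exponent of `σ` is the same on `ζ̄_N` and on `zq N` -/
theorem map_zq_of_map_zbar (N : ℕ) [NeZero N] (σ : Qb ≃ₐ[ℚ] Qb) {s : ℤ}
    (hs : Units.map ((σ : Qb →+* Qb) : Qb →* Qb) (zbar N) = zbar N ^ s) :
    Units.map ((σ : Qb →+* Qb) : Qb →* Qb) (zq N) = zq N ^ s := by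
  obtain ⟨c, hc, -⟩ := exists_zpow_eq_of_isPrimitiveRoot (zbar_spec N) (zq_isPrimitiveRoot N)
  rw [hc, map_zpow, hs, ← zpow_mul, ← zpow_mul, mul_comm]

end FormalGen

/-- **stability of the image of `Φ` under `W`** -/
theorem glStable_wMat (hgM : (M : ℤ) ∣ g 1 0) (hgq : (q : ℤ) ∣ g 1 1) (hcop : Nat.Coprime M q)
    (hN : 1 < M * q) :
    GlStable (isAnModel_F1 (M := M * q)) (qbarEmb : Qb →+* ℂ) (wMat q g) (isIntMat_wMat q g)
      (wMat_normalises q M hgM hgq hcop) := by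
  refine glStable_of_qExp _ _ _ _ _ (HeckeJ.generates_F1 hN) (jq_mem_F1 (M * q))
    (genSet Qb (M * q) (zbar (M * q))) (FBar1_le_genL (M * q)) ?_
  rintro x (rfl | ⟨b, hb, rfl⟩)
  · refine ⟨jqModC_mem (F1 (M * q)) (jq_mem_F1 (M * q)), qExpand Qb q (jqModC Qb), ?_⟩
    have hj := (isAnModel_F1 (M := M * q)).toFunField_j (qbarEmb : Qb →+* ℂ)
      (jBq (F1 (M * q)) (jq_mem_F1 (M * q))) rfl
    show qExpFFW _ 1 _ (glFF _ _ _ ((isAnModel_F1 (M := M * q)).toFunField (qbarEmb : Qb →+* ℂ)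
      (jBq (F1 (M * q)) (jq_mem_F1 (M * q))))) = _
    rw [hj]
    exact qExpFFW_glFF_j q M hgM hgq hcop qbarEmb
  · refine ⟨tauqL_mem_FBar1 (M * q) hb,
      contract (M * q) (qExpand Qb q (tauK (M * q) (zq (M * q))
        (cEmb (M * q) * b * g 1 0) (cEmb (M * q) * b * g 1 1))), ?_⟩
    show qExpFFW _ 1 _ (glFF _ _ _ ((isAnModel_F1 (M := M * q)).toFunField (qbarEmb : Qb →+* ℂ)
      (tauB hb))) = _
    rw [toFunField_tauB, coeffMap_contract, coeffMap_qExpand, coeffMap_tauK_zq,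
      ← qExpand_qExpFFW_glFF_tau q M hgM hgq hcop, contract_qExpand]

section Hom

variable (hgM : (M : ℤ) ∣ g 1 0) (hgq : (q : ℤ) ∣ g 1 1) (hcop : Nat.Coprime M q)
  (hN : 1 < M * q)

/-- **the Atkin–Lehner operator on `FBar₁(M q)`**, as an algebra endomorphism -/
def wF1Hom : ↥(laurentBaseChange Qb (F1 (M * q))) →ₐ[Qb] ↥(laurentBaseChange Qb (F1 (M * q))) :=
  glAlg (isAnModel_F1 (M := M * q)) (qbarEmb : Qb →+* ℂ) (wMat q g) (isIntMat_wMat q g)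
    (wMat_normalises q M hgM hgq hcop) (glStable_wMat q M hgM hgq hcop hN)

/-- characterisation: `Φ (w x) = (Φ x) ∘ W` -/
theorem toFunField_wF1Hom (x : ↥(laurentBaseChange Qb (F1 (M * q)))) :
    (isAnModel_F1 (M := M * q)).toFunField (qbarEmb : Qb →+* ℂ) (wF1Hom q M hgM hgq hcop hN x) =
      glFF (wMat q g) (isIntMat_wMat q g) (wMat_normalises q M hgM hgq hcop)
        ((isAnModel_F1 (M := M * q)).toFunField (qbarEmb : Qb →+* ℂ) x) :=
  toFunField_glHom _ _ _ _ _ (glStable_wMat q M hgM hgq hcop hN) x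

theorem wF1Hom_eq_iff (x y : ↥(laurentBaseChange Qb (F1 (M * q)))) :
    wF1Hom q M hgM hgq hcop hN x = y ↔
      (isAnModel_F1 (M := M * q)).toFunField (qbarEmb : Qb →+* ℂ) y =
        glFF (wMat q g) (isIntMat_wMat q g) (wMat_normalises q M hgM hgq hcop)
          ((isAnModel_F1 (M := M * q)).toFunField (qbarEmb : Qb →+* ℂ) x) :=
  glHom_eq_iff _ _ _ _ _ (glStable_wMat q M hgM hgq hcop hN) x y

theorem toMer_toFunField_wF1Hom (x : ↥(laurentBaseChange Qb (F1 (M * q)))) :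
    toMer (pmGamma1 (M * q)) ((isAnModel_F1 (M := M * q)).toFunField (qbarEmb : Qb →+* ℂ)
        (wF1Hom q M hgM hgq hcop hN x)) =
      merComp (wMat q g) (isIntMat_wMat q g).det_pos
        (toMer (pmGamma1 (M * q))
          ((isAnModel_F1 (M := M * q)).toFunField (qbarEmb : Qb →+* ℂ) x)) :=
  toMer_toFunField_glHom _ _ _ _ _ (glStable_wMat q M hgM hgq hcop hN) x

/-- the `q`-expansion of `w x`, over `ℂ` -/
theorem coeffMap_wF1Hom (x : ↥(laurentBaseChange Qb (F1 (M * q)))) :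
    coeffMap (qbarEmb : Qb →+* ℂ)
        ((wF1Hom q M hgM hgq hcop hN x : ↥(laurentBaseChange Qb (F1 (M * q)))) :
          LaurentSeries Qb) =
      qExpFFW (pmGamma1 (M * q)) 1 T_mem_pmGamma1
        (glFF (wMat q g) (isIntMat_wMat q g) (wMat_normalises q M hgM hgq hcop)
          ((isAnModel_F1 (M := M * q)).toFunField (qbarEmb : Qb →+* ℂ) x)) := by
  rw [← toFunField_wF1Hom, IsAnModel.qExpFFW_toFunField]

/-- **`w j = j(q^q)`** -/
theorem coe_wF1Hom_jBq :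
    ((wF1Hom q M hgM hgq hcop hN (jBq (F1 (M * q)) (jq_mem_F1 (M * q))) :
        ↥(laurentBaseChange Qb (F1 (M * q)))) : LaurentSeries Qb) = qExpand Qb q (jqModC Qb) := by
  apply coeffMap_qbarEmb_injective
  rw [coeffMap_wF1Hom, (isAnModel_F1 (M := M * q)).toFunField_j (qbarEmb : Qb →+* ℂ)
    (jBq (F1 (M * q)) (jq_mem_F1 (M * q))) rfl]
  exact qExpFFW_glFF_j q M hgM hgq hcop qbarEmb

/-- **`(w τ_(0,b))(Q^N) = τ_(c b g₁₀, c b g₁₁)(Q^q)`** -/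
theorem qExpand_wF1Hom_tauB {b : ℤ} (hb : ¬ ((M * q : ℕ) : ℤ) ∣ b) :
    qExpand Qb (M * q) ((wF1Hom q M hgM hgq hcop hN (tauB hb) :
        ↥(laurentBaseChange Qb (F1 (M * q)))) : LaurentSeries Qb) =
      qExpand Qb q (tauK (M * q) (zq (M * q))
        (cEmb (M * q) * b * g 1 0) (cEmb (M * q) * b * g 1 1)) := by
  apply coeffMap_qbarEmb_injective
  rw [coeffMap_qExpand, coeffMap_qExpand, coeffMap_wF1Hom, toFunField_tauB, coeffMap_tauK_zq]
  exact qExpand_qExpFFW_glFF_tau q M hgM hgq hcop _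

/-! ### the square, bijectivity -/

/-- **`w ∘ w = ⟨δ⟩`** -/
theorem wF1Hom_wF1Hom (ν₁ : ℤ) (hν : g 1 1 = q * ν₁) (x : ↥(laurentBaseChange Qb (F1 (M * q)))) :
    wF1Hom q M hgM hgq hcop hN (wF1Hom q M hgM hgq hcop hN x) =
      diaF1 (wSqDelta q g ν₁ hν) (dvd_wSqDelta_one_zero q M hgM ν₁ hν) x := by
  rw [wF1Hom_eq_iff, toFunField_diaF1, toFunField_wF1Hom,
    glFF_glFF (wMat q g) (isIntMat_wMat q g) (wMat_normalises q M hgM hgq hcop)
      (isIntMat_wMat q g) (wMat_normalises q M hgM hgq hcop)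
      (isIntMat_mapGL (wSqDelta q g ν₁ hν))
      (mapGL_normalises _ (normalises_pmGamma1 (dvd_wSqDelta_one_zero q M hgM ν₁ hν)))
      (wMat_smul_wMat_smul q g ν₁ hν),
    glFF_mapGL _ (normalises_pmGamma1 (dvd_wSqDelta_one_zero q M hgM ν₁ hν))]

include hgq in
theorem wF1Hom_bijective : Function.Bijective (wF1Hom q M hgM hgq hcop hN) := by
  obtain ⟨ν₁, hν⟩ := hgq
  refine ⟨(wF1Hom q M hgM ⟨ν₁, hν⟩ hcop hN).toRingHom.injective, fun y => ?_⟩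
  refine ⟨wF1Hom q M hgM ⟨ν₁, hν⟩ hcop hN
    ((diaF1 (wSqDelta q g ν₁ hν) (dvd_wSqDelta_one_zero q M hgM ν₁ hν)).symm y), ?_⟩
  rw [wF1Hom_wF1Hom q M hgM ⟨ν₁, hν⟩ hcop hN ν₁ hν, AlgEquiv.apply_symm_apply]

/-- **the Atkin–Lehner operator on `FBar₁(M q)`**, as an algebra automorphism -/
def wF1 : ↥(laurentBaseChange Qb (F1 (M * q))) ≃ₐ[Qb] ↥(laurentBaseChange Qb (F1 (M * q))) :=
  AlgEquiv.ofBijective (wF1Hom q M hgM hgq hcop hN) (wF1Hom_bijective q M hgM hgq hcop hN)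

@[simp] theorem wF1_apply (x : ↥(laurentBaseChange Qb (F1 (M * q)))) :
    wF1 q M hgM hgq hcop hN x = wF1Hom q M hgM hgq hcop hN x := rfl

/-! ### the diamonds -/

/-- **`⟨δ⟩ ∘ w = w ∘ ⟨W δ W⁻¹⟩`** -/
theorem diaF1_wF1Hom {δ : SL(2, ℤ)} (hδ : ((M * q : ℕ) : ℤ) ∣ δ 1 0) (c₁ : ℤ)
    (hc : δ 1 0 = q * c₁) (hM : (M : ℤ) ∣ c₁) (x : ↥(laurentBaseChange Qb (F1 (M * q)))) :
    diaF1 δ hδ (wF1Hom q M hgM hgq hcop hN x) =
      wF1Hom q M hgM hgq hcop hN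
        (diaF1 (wConj q g δ c₁ hc) (dvd_wConj_one_zero q M hgM hgq c₁ hc hM) x) := by
  symm
  rw [wF1Hom_eq_iff, toFunField_diaF1, toFunField_diaF1, toFunField_wF1Hom,
    ← glFF_mapGL δ (normalises_pmGamma1 hδ) (mapGL_normalises _ (normalises_pmGamma1 hδ)),
    ← glFF_mapGL (wConj q g δ c₁ hc)
      (normalises_pmGamma1 (dvd_wConj_one_zero q M hgM hgq c₁ hc hM))
      (mapGL_normalises _ (normalises_pmGamma1 (dvd_wConj_one_zero q M hgM hgq c₁ hc hM)))]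
  refine glFF_glFF_eq _ _ _ _ _ _ _ _ _ (fun z => ?_) _
  rw [← mul_smul, ← mul_smul, wMat_mul_mapGL q g δ c₁ hc]

include hcop in
theorem modEq_mul_of_modEq {a b : ℤ} (h1 : a ≡ b [ZMOD (M : ℤ)]) (h2 : a ≡ b [ZMOD (q : ℤ)]) :
    a ≡ b [ZMOD ((M * q : ℕ) : ℤ)] := by
  have h := (Int.modEq_and_modEq_iff_modEq_mul (m := (M : ℤ)) (n := (q : ℤ))
    (by simpa using hcop)).mp ⟨h1, h2⟩
  have e : ((M * q : ℕ) : ℤ) = (M : ℤ) * q := by push_cast; ring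
  rwa [e]

/-- **`⟨u⟩ ∘ w = w ∘ ⟨u'⟩`** for `u' ≡ u (mod M)`, `u' ≡ u⁻¹ (mod q)` -/
theorem diaU_wF1Hom (u u' : (ZMod (M * q))ˣ)
    (hM : (((u' : ZMod (M * q)).val : ℕ) : ℤ) ≡ (((u : ZMod (M * q)).val : ℕ) : ℤ) [ZMOD (M : ℤ)])
    (hq : (((u' : ZMod (M * q)).val : ℕ) : ℤ) * (((u : ZMod (M * q)).val : ℕ) : ℤ) ≡ 1
      [ZMOD (q : ℤ)])
    (x : ↥(laurentBaseChange Qb (F1 (M * q)))) :
    diaU u (wF1Hom q M hgM hgq hcop hN x) = wF1Hom q M hgM hgq hcop hN (diaU u' x) := by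
  have hc : deltaOf u 1 0 = q * (M : ℤ) := by
    rw [deltaOf_one_zero]; push_cast; ring
  rw [diaU_apply, diaF1_wF1Hom q M hgM hgq hcop hN (dvd_deltaOf u) M hc dvd_rfl]
  congr 1
  have key : diaF1 (wConj q g (deltaOf u) M hc)
      (dvd_wConj_one_zero q M hgM hgq M hc dvd_rfl) = diaU u' := by
    refine diaF1_eq_diaU _ u' ?_
    have e : (u' : ZMod (M * q)) = (((((u' : ZMod (M * q)).val : ℕ) : ℤ)) : ZMod (M * q)) := by
      rw [Int.cast_natCast, ZMod.natCast_zmod_val]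
    rw [e]
    refine (ZMod.intCast_eq_intCast_iff _ _ _).mpr ?_
    refine modEq_mul_of_modEq q M hcop ?_ ?_
    · refine (wConj_one_one_modEq_M q M hgM hgq M hc dvd_rfl).trans ?_
      rw [deltaOf_one_one]
      exact hM.symm
    · refine (wConj_one_one_modEq_q q M hgM hgq M hc).trans ?_
      have h1 : deltaOf u 0 0 * deltaOf u 1 1 ≡ 1 [ZMOD (q : ℤ)] := by
        have h := zero_zero_mul_one_one (dvd_deltaOf u)
        have e : ((M * q : ℕ) : ℤ) = (q : ℤ) * M := by push_cast; ring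
        rw [e] at h
        exact h.of_mul_right _
      rw [deltaOf_one_one] at h1
      set A := deltaOf u 0 0
      set U := (((u : ZMod (M * q)).val : ℕ) : ℤ)
      set U' := (((u' : ZMod (M * q)).val : ℕ) : ℤ)
      calc A = A * 1 := (mul_one A).symm
        _ ≡ A * (U' * U) [ZMOD (q : ℤ)] := (hq.symm.mul_left A)
        _ = A * U * U' := by ring
        _ ≡ 1 * U' [ZMOD (q : ℤ)] := h1.mul_right U'
        _ = U' := one_mul U'
  rw [key]

omit [NeZero M] in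
include hgM hgq in
theorem tauK_galois_congr [NeZero (M * q)] {s a : ℤ} (haM : a ≡ 1 [ZMOD (M : ℤ)])
    (haq : a * s ≡ 1 [ZMOD (q : ℤ)]) (b : ℤ) :
    tauK (M * q) (zq (M * q)) (cEmb (M * q) * b * g 1 0) (s * (cEmb (M * q) * b * g 1 1)) =
      tauK (M * q) (zq (M * q)) (cEmb (M * q) * (a * (s * b)) * g 1 0)
        (cEmb (M * q) * (a * (s * b)) * g 1 1) := by
  obtain ⟨μ, hμ⟩ := hgM
  obtain ⟨ν, hν⟩ := hgq
  obtain ⟨t, ht⟩ := haq.symm.dvd
  obtain ⟨t', ht'⟩ := haM.symm.dvd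
  refine tauK_congr (zq_pow (M * q)) ?_ ?_
  · refine Int.modEq_iff_dvd.mpr ⟨cEmb (M * q) * b * μ * t, ?_⟩
    rw [hμ]
    push_cast
    linear_combination (cEmb (M * q) * b * M * μ) * ht
  · refine Int.modEq_iff_dvd.mpr ⟨cEmb (M * q) * s * b * ν * t', ?_⟩
    rw [hν]
    push_cast
    linear_combination (cEmb (M * q) * s * b * q * ν) * ht'

/-! ### the Galois action -/

/-- **`σ ∘ w = w ∘ ⟨u⟩ ∘ σ`** with `u ≡ 1 (mod M)`, `u ≡ cyc(σ)⁻¹ (mod q)`: the operator `w` is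
defined over `ℚ(μ_q)` only -/
theorem galois_wF1Hom (σ : Qb ≃ₐ[ℚ] Qb) {s : ℤ}
    (hs : Units.map ((σ : Qb →+* Qb) : Qb →* Qb) (zbar (M * q)) = zbar (M * q) ^ s)
    (hscop : IsCoprime s ((M * q : ℕ) : ℤ)) (u : (ZMod (M * q))ˣ) {a : ℤ}
    (ha : (a : ZMod (M * q)) = (u : ZMod (M * q))) (haM : a ≡ 1 [ZMOD (M : ℤ)])
    (haq : a * s ≡ 1 [ZMOD (q : ℤ)]) (x : ↥(laurentBaseChange Qb (F1 (M * q)))) :
    arithmeticRingAut (F1 (M * q)) σ (wF1Hom q M hgM hgq hcop hN x) =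
      wF1Hom q M hgM hgq hcop hN (diaU u (arithmeticRingAut (F1 (M * q)) σ x)) := by
  have hacop : IsCoprime a ((M * q : ℕ) : ℤ) := by
    have h1 : IsUnit ((a : ℤ) : ZMod (M * q)) := by rw [ha]; exact u.isUnit
    exact ((ZMod.coe_int_isUnit_iff_isCoprime a (M * q)).mp h1).symm
  let f₁ : ↥(laurentBaseChange Qb (F1 (M * q))) →+* ↥(laurentBaseChange Qb (F1 (M * q))) :=
    (arithmeticRingAut (F1 (M * q)) σ).toRingHom.comp
      (wF1Hom q M hgM hgq hcop hN).toRingHom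
  let f₂ : ↥(laurentBaseChange Qb (F1 (M * q))) →+* ↥(laurentBaseChange Qb (F1 (M * q))) :=
    (wF1Hom q M hgM hgq hcop hN).toRingHom.comp
      ((diaU u : ↥(laurentBaseChange Qb (F1 (M * q))) ≃ₐ[Qb]
          ↥(laurentBaseChange Qb (F1 (M * q)))).toAlgHom.toRingHom.comp
        (arithmeticRingAut (F1 (M * q)) σ).toRingHom)
  refine ringHom_ext_gen f₁ f₂ ?_ ?_ ?_ x
  · intro c
    show arithmeticRingAut (F1 (M * q)) σ (wF1Hom q M hgM hgq hcop hN (algebraMap Qb _ c)) =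
      wF1Hom q M hgM hgq hcop hN (diaU u (arithmeticRingAut (F1 (M * q)) σ (algebraMap Qb _ c)))
    rw [AlgHom.commutes, arithmeticRingAut_algebraMap, AlgEquiv.commutes, AlgHom.commutes]
  · show arithmeticRingAut (F1 (M * q)) σ
        (wF1Hom q M hgM hgq hcop hN (jBq (F1 (M * q)) (jq_mem_F1 (M * q)))) =
      wF1Hom q M hgM hgq hcop hN
        (diaU u (arithmeticRingAut (F1 (M * q)) σ (jBq (F1 (M * q)) (jq_mem_F1 (M * q)))))
    have hσj : arithmeticRingAut (F1 (M * q)) σ (jBq (F1 (M * q)) (jq_mem_F1 (M * q))) =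
        jBq (F1 (M * q)) (jq_mem_F1 (M * q)) := by
      apply Subtype.ext
      rw [coe_arithmeticRingAut_apply, coe_jBq, coeffMap_jqModC]
    rw [hσj, diaU_jBq]
    apply Subtype.ext
    rw [coe_arithmeticRingAut_apply, coe_wF1Hom_jBq, coeffMap_qExpand, coeffMap_jqModC]
  · intro b hb
    show arithmeticRingAut (F1 (M * q)) σ (wF1Hom q M hgM hgq hcop hN (tauB hb)) =
      wF1Hom q M hgM hgq hcop hN (diaU u (arithmeticRingAut (F1 (M * q)) σ (tauB hb)))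
    have hb₁ : ¬ ((M * q : ℕ) : ℤ) ∣ s * b := not_dvd_mul_of_isCoprime hscop hb
    have hb₂ : ¬ ((M * q : ℕ) : ℤ) ∣ a * (s * b) := not_dvd_mul_of_isCoprime hacop hb₁
    have e1 : arithmeticRingAut (F1 (M * q)) σ (tauB hb) = tauB hb₁ :=
      arithmeticRingAut_tauB σ hs hscop hb
    have e2 : diaU u (tauB hb₁ : ↥(laurentBaseChange Qb (F1 (M * q)))) = tauB hb₂ := by
      refine diaU_tauB u hb₁ hb₂ ?_
      rw [← ha]
      push_cast
      ring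
    rw [e1, e2]
    apply Subtype.ext
    apply qExpand_injective (R := Qb) (M * q)
    rw [coe_arithmeticRingAut_apply, ← coeffMap_qExpand, qExpand_wF1Hom_tauB,
      qExpand_wF1Hom_tauB, coeffMap_qExpand, coeffMap_tauK,
      map_zq_of_map_zbar (M * q) σ hs, tauK_zpow]
    exact congrArg (qExpand Qb q) (tauK_galois_congr q M hgM hgq haM haq b)

end Hom

end Fermat.Agent.S43lib.Igusa
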