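/-
S43lib / Igusa / WtildeX0  (helper9)

**The Atkin–Lehner operator of `FBar₁(M q)` restricts to `w_q` on `FBar(M q)`.**

* `gAL hq hqM : SL(2,ℤ)` : the matrix `(x, y; M, q)` with `q x - M y = 1`, the SAME Bezout pair as in
  `LSb.Val.wq`; `wMat q (gAL hq hqM) = alW M q x y h`;
* `wAL hq hqM : FBar₁(M q) ≃ₐ[ℚ̄] FBar₁(M q)`;
* **`wAL_inclusion : wAL (ι f) = ι (wq f)`** for `f ∈ FBar(M q)`.
-/
import Mathlib
import Fermat.Agent.S43lib.Igusa.Wtilde
import Fermat.Agent.S43lib.Igusa.FixedX0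
import Fermat.Agent.LSb.Val.Wq

set_option autoImplicit false
set_option linter.unusedSectionVars false
set_option linter.unusedVariables false
set_option linter.style.haveILetI false

noncomputable section

namespace Fermat.Agent.S43lib.Igusa

open UpperHalfPlane hiding I
open Matrix.SpecialLinearGroup Fermat.Agent.ProgramR CongruenceSubgroup ModularForm
open ModularCurve IntermediateField Fermat.Agent.ProgramR.BarField Fermat.Agent.ProgramR.QExp
open Fermat.Agent.ProgramR.LevelOne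
open Fermat.Agent.S29lib.H Fermat.Agent.S28lib
open Fermat.Agent.S48lib.X1 Fermat.Agent.S48lib.X1.Wp Fermat.Agent.S48lib.X1.HeckeJ
open scoped MatrixGroups

local notation "Qb" => AlgebraicClosure ℚ

/-! ### the two copies of `merComp`, `toMer` -/

theorem lsb_merComp_eq (A : GL (Fin 2) ℝ) (hA : 0 < A.det.val) :
    Fermat.Agent.LSb.Val.merComp A hA = merComp A hA := by
  apply mer_ringHom_ext
  intro f
  rw [Fermat.Agent.LSb.Val.merComp_algebraMap, merComp_algebraMap]

theorem lsb_ffEmb_eq (N : ℕ) : Fermat.Agent.LSb.Val.ffEmb N = toMer (Gamma0 N) := by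
  apply funField_ringHom_ext
  intro a
  rw [Fermat.Agent.LSb.Val.ffEmb_algebraMap, toMer_algebraMap]

theorem toFunField_full_eq (N : ℕ) [NeZero N]
    (x : ↥(laurentBaseChange Qb (modularFunctionFieldFull N))) :
    (isAnModel_full N).toFunField (qbarEmb : Qb →+* ℂ) x = ΦBar N (qbarEmb : Qb →+* ℂ) x := by
  rw [IsAnModel.toFunField_eq_iff, qExpFFW_Gamma0]
  exact (qExpFF_toFunField N qbarEmb x).symm

theorem lsb_toMer_eq (N : ℕ) [NeZero N]
    (x : ↥(laurentBaseChange Qb (modularFunctionFieldFull N))) :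
    Fermat.Agent.LSb.Val.toMer N (qbarEmb : Qb →+* ℂ) x =
      toMer (Gamma0 N) ((isAnModel_full N).toFunField (qbarEmb : Qb →+* ℂ) x) := by
  rw [toFunField_full_eq, ← lsb_ffEmb_eq]
  rfl

theorem toMer_inclFF (N : ℕ) [NeZero N] (k : WH0.FunField (Gamma0 N)) :
    toMer (pmGamma1 N) (inclFF N k) = toMer (Gamma0 N) k := by
  have : (toMer (pmGamma1 N)).comp (inclFF N) = toMer (Gamma0 N) := by
    apply funField_ringHom_ext
    intro a
    rw [RingHom.comp_apply, inclFF_algebraMap, toMer_algebraMap, toMer_algebraMap]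
    rfl
  exact congrArg (fun φ : WH0.FunField (Gamma0 N) →+* Mer => φ k) this

/-! ### the matrix -/

section Mat

variable (M q : ℕ) [NeZero M] [NeZero q]

/-- the matrix `(x, y; M, q)` -/
def gW (x y : ℤ) (h : (q : ℤ) * x - (M : ℤ) * y = 1) : SL(2, ℤ) :=
  ⟨!![x, y; (M : ℤ), (q : ℤ)], by
    rw [Matrix.det_fin_two_of]
    linear_combination h⟩

@[simp] theorem gW_one_zero (x y : ℤ) (h : (q : ℤ) * x - (M : ℤ) * y = 1) :
    gW M q x y h 1 0 = (M : ℤ) := rfl

@[simp] theorem gW_one_one (x y : ℤ) (h : (q : ℤ) * x - (M : ℤ) * y = 1) :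
    gW M q x y h 1 1 = (q : ℤ) := rfl

theorem wMat_gW (x y : ℤ) (h : (q : ℤ) * x - (M : ℤ) * y = 1) :
    wMat q (gW M q x y h) = Fermat.Agent.LSb.Val.alW M q x y h := by
  apply Matrix.GeneralLinearGroup.ext
  intro i j
  rw [val_wMat]
  fin_cases i <;> fin_cases j <;>
    simp [gW, Fermat.Agent.LSb.Val.alW, Matrix.GeneralLinearGroup.mkOfDetNeZero, mul_comm]

end Mat

/-! ### the operator -/

section Op

variable (M q : ℕ) [NeZero M] [NeZero q] (hq : q.Prime) (hqM : ¬ q ∣ M)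

/-- the Bezout pair of `LSb.Val.wq` -/
def bezX : ℤ := (Fermat.Agent.LSb.Val.exists_bezout hq hqM).choose

def bezY : ℤ := (Fermat.Agent.LSb.Val.exists_bezout hq hqM).choose_spec.choose

theorem bez_spec : (q : ℤ) * bezX M q hq hqM - (M : ℤ) * bezY M q hq hqM = 1 :=
  (Fermat.Agent.LSb.Val.exists_bezout hq hqM).choose_spec.choose_spec

/-- the Atkin–Lehner matrix `g` of `LSb.Val.wq` -/
def gAL : SL(2, ℤ) := gW M q (bezX M q hq hqM) (bezY M q hq hqM) (bez_spec M q hq hqM)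

theorem gAL_dvd_M : (M : ℤ) ∣ gAL M q hq hqM 1 0 := dvd_rfl

theorem gAL_dvd_q : (q : ℤ) ∣ gAL M q hq hqM 1 1 := dvd_rfl

include hq hqM in
theorem coprime_of_prime : Nat.Coprime M q :=
  ((Nat.Prime.coprime_iff_not_dvd hq).mpr hqM).symm

include hq in
theorem one_lt_mul_of_prime : 1 < M * q := by
  have h1 : 1 ≤ M := Nat.one_le_iff_ne_zero.mpr (NeZero.ne M)
  have h2 := hq.one_lt
  nlinarith

/-- **the Atkin–Lehner automorphism `w̃_q` of `FBar₁(M q)`** -/
def wAL : ↥(laurentBaseChange Qb (F1 (M * q))) ≃ₐ[Qb] ↥(laurentBaseChange Qb (F1 (M * q))) :=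
  wF1 q M (gAL_dvd_M M q hq hqM) (gAL_dvd_q M q hq hqM) (coprime_of_prime M q hq hqM)
    (one_lt_mul_of_prime M q hq)

theorem wAL_apply (x : ↥(laurentBaseChange Qb (F1 (M * q)))) :
    wAL M q hq hqM x = wF1Hom q M (gAL_dvd_M M q hq hqM) (gAL_dvd_q M q hq hqM)
      (coprime_of_prime M q hq hqM) (one_lt_mul_of_prime M q hq) x := rfl

/-- **`w̃_q` restricts to `w_q` on `FBar(M q)`** -/
theorem wAL_inclusion (f : ↥(laurentBaseChange Qb (modularFunctionFieldFull (M * q)))) :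
    wAL M q hq hqM (IntermediateField.inclusion
        (fullBar_le_FBar1 (one_lt_mul_of_prime M q hq)) f) =
      IntermediateField.inclusion (fullBar_le_FBar1 (one_lt_mul_of_prime M q hq))
        (Fermat.Agent.LSb.Val.wq M q hq hqM f) := by
  rw [wAL_apply, wF1Hom_eq_iff, toFunField_full (one_lt_mul_of_prime M q hq),
    toFunField_full (one_lt_mul_of_prime M q hq)]
  apply toMer_injective (pmGamma1 (M * q))
  rw [toMer_glFF, toMer_inclFF, toMer_inclFF, ← lsb_toMer_eq, ← lsb_toMer_eq,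
    ← lsb_merComp_eq]
  have h := Fermat.Agent.LSb.Val.toMer_wqHom (qbarEmb : Qb →+* ℂ) M q (bezX M q hq hqM)
    (bezY M q hq hqM) (bez_spec M q hq hqM) hq f
  rw [Fermat.Agent.LSb.Val.wMer] at h
  have e1 : Fermat.Agent.LSb.Val.wq M q hq hqM f =
      Fermat.Agent.LSb.Val.wqHom (qbarEmb : Qb →+* ℂ) M q (bezX M q hq hqM) (bezY M q hq hqM)
        (bez_spec M q hq hqM) hq f := rfl
  have hW : wMat q (gAL M q hq hqM) =
      Fermat.Agent.LSb.Val.alW M q (bezX M q hq hqM) (bezY M q hq hqM) (bez_spec M q hq hqM) :=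
    wMat_gW M q _ _ _
  rw [e1, h]
  simp only [hW]

end Op

end Fermat.Agent.S43lib.Igusa
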