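/-
S43lib / Igusa / WtildeH  (helper9)

**The lift `w̃` of the Atkin–Lehner involution `w_q` to `F_H`**, `N = M q`, `q ∤ M` prime,
`H = ker ψ` for a character `ψ` of `(ℤ/N)ˣ` factoring through `(ℤ/q)ˣ` (`IsQPart ψ`).

* `wH ψ hq hqM hψ : FBH ψ ≃ₐ[ℚ̄] FBH ψ`, `inclH_wH : ι (w̃ y) = w̃_q (ι y)`;
* **(i)**  `wH_inclFH : w̃ (FBar(N) ↪ F_H) = (↪) ∘ LSb.Val.wq M q`;
* **(ii)** `diaH_wH : ⟨u⟩ w̃ = w̃ ⟨u⟩⁻¹`;
* **(iii)** `galois_wH : σ w̃ = w̃ ⟨cyc σ⟩⁻¹ σ` for `σ ∈ G_ℚ` (`w̃` is defined over `ℚ(μ_q)`).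
-/
import Mathlib
import Fermat.Agent.S43lib.Igusa.WtildeX0
import Fermat.Agent.S43lib.Igusa.KummerInst

set_option autoImplicit false
set_option linter.unusedSectionVars false
set_option linter.unusedVariables false
set_option linter.style.haveILetI false

noncomputable section

namespace Fermat.Agent.S43lib.Igusa

open Polynomial ModularCurve IntermediateField
open Fermat.Agent.ProgramR.BarField
open Fermat.Agent.S48lib.X1 Fermat.Agent.S48lib.X1.HeckeJ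

local notation "Qb" => AlgebraicClosure ℚ

variable (M q : ℕ) [NeZero M] [NeZero q]

/-! ### units of `ℤ/(M q)` -/

/-- `u'` is the image of `u` under `(u_M, u_q) ↦ (u_M, u_q⁻¹)` -/
def IsALPartner (u u' : (ZMod (M * q))ˣ) : Prop :=
  (((u' : ZMod (M * q)).val : ℕ) : ℤ) ≡ (((u : ZMod (M * q)).val : ℕ) : ℤ) [ZMOD (M : ℤ)] ∧
  (((u' : ZMod (M * q)).val : ℕ) : ℤ) * (((u : ZMod (M * q)).val : ℕ) : ℤ) ≡ 1 [ZMOD (q : ℤ)]

theorem IsALPartner.symm {u u' : (ZMod (M * q))ˣ} (h : IsALPartner M q u u') :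
    IsALPartner M q u' u :=
  ⟨h.1.symm, by rw [mul_comm]; exact h.2⟩

theorem intCast_val_unit (N : ℕ) [NeZero N] (u : (ZMod N)ˣ) :
    ((((u : ZMod N).val : ℕ) : ℤ) : ZMod N) = (u : ZMod N) := by
  rw [Int.cast_natCast, ZMod.natCast_zmod_val]

theorem val_mul_modEq (N : ℕ) [NeZero N] (u v : (ZMod N)ˣ) :
    ((((u * v : (ZMod N)ˣ) : ZMod N).val : ℕ) : ℤ) ≡
      (((u : ZMod N).val : ℕ) : ℤ) * (((v : ZMod N).val : ℕ) : ℤ) [ZMOD (N : ℤ)] := by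
  refine (ZMod.intCast_eq_intCast_iff _ _ _).mp ?_
  rw [intCast_val_unit, Int.cast_mul, intCast_val_unit, intCast_val_unit, Units.val_mul]

theorem modEq_q_of_modEq {a b : ℤ} (h : a ≡ b [ZMOD ((M * q : ℕ) : ℤ)]) : a ≡ b [ZMOD (q : ℤ)] := by
  have e : ((M * q : ℕ) : ℤ) = (q : ℤ) * M := by push_cast; ring
  rw [e] at h
  exact h.of_mul_right _

theorem modEq_M_of_modEq {a b : ℤ} (h : a ≡ b [ZMOD ((M * q : ℕ) : ℤ)]) : a ≡ b [ZMOD (M : ℤ)] := by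
  have e : ((M * q : ℕ) : ℤ) = (M : ℤ) * q := by push_cast; ring
  rw [e] at h
  exact h.of_mul_right _

theorem val_inv_mul_modEq (u : (ZMod (M * q))ˣ) :
    ((((u⁻¹ : (ZMod (M * q))ˣ) : ZMod (M * q)).val : ℕ) : ℤ) *
      (((u : ZMod (M * q)).val : ℕ) : ℤ) ≡ 1 [ZMOD ((M * q : ℕ) : ℤ)] := by
  refine (ZMod.intCast_eq_intCast_iff _ _ _).mp ?_
  rw [Int.cast_mul, intCast_val_unit, intCast_val_unit, Int.cast_one, ← Units.val_mul,
    inv_mul_cancel, Units.val_one]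

/-- Chinese remainder theorem for units of `ℤ/(M q)` -/
theorem exists_unit_crt (hcop : Nat.Coprime M q) {a₁ a₂ : ℤ} (h₁ : IsCoprime a₁ (M : ℤ))
    (h₂ : IsCoprime a₂ (q : ℤ)) :
    ∃ u : (ZMod (M * q))ˣ, (((u : ZMod (M * q)).val : ℕ) : ℤ) ≡ a₁ [ZMOD (M : ℤ)] ∧
      (((u : ZMod (M * q)).val : ℕ) : ℤ) ≡ a₂ [ZMOD (q : ℤ)] := by
  have hMq : IsCoprime (q : ℤ) (M : ℤ) := Nat.isCoprime_iff_coprime.mpr hcop.symm
  obtain ⟨x, y, hxy⟩ := hMq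
  -- `x q + y M = 1`
  set t : ℤ := a₁ * (x * q) + a₂ * (y * M) with ht
  have htM : t ≡ a₁ [ZMOD (M : ℤ)] := by
    refine Int.modEq_iff_dvd.mpr ⟨a₁ * y - a₂ * y, ?_⟩
    rw [ht]
    linear_combination (-a₁) * hxy
  have htq : t ≡ a₂ [ZMOD (q : ℤ)] := by
    refine Int.modEq_iff_dvd.mpr ⟨a₂ * x - a₁ * x, ?_⟩
    rw [ht]
    linear_combination (-a₂) * hxy
  have hcoptM : IsCoprime t (M : ℤ) := by
    obtain ⟨k, hk⟩ := htM.symm.dvd
    have e : t = a₁ + (M : ℤ) * k := by linarith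
    rw [e]
    exact h₁.add_mul_left_left k
  have hcoptq : IsCoprime t (q : ℤ) := by
    obtain ⟨k, hk⟩ := htq.symm.dvd
    have e : t = a₂ + (q : ℤ) * k := by linarith
    rw [e]
    exact h₂.add_mul_left_left k
  have hcopt : IsCoprime t ((M * q : ℕ) : ℤ) := by
    have e : ((M * q : ℕ) : ℤ) = (M : ℤ) * q := by push_cast; ring
    rw [e]
    exact hcoptM.mul_right hcoptq
  have h1 : ((((ZMod.unitOfIsCoprime t hcopt : (ZMod (M * q))ˣ) : ZMod (M * q)).val : ℕ) : ℤ) ≡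
      t [ZMOD ((M * q : ℕ) : ℤ)] := by
    refine (ZMod.intCast_eq_intCast_iff _ _ _).mp ?_
    rw [intCast_val_unit, ZMod.coe_unitOfIsCoprime]
  exact ⟨ZMod.unitOfIsCoprime t hcopt, (modEq_M_of_modEq M q h1).trans htM,
    (modEq_q_of_modEq M q h1).trans htq⟩

theorem isCoprime_val_unit' (N : ℕ) [NeZero N] (u : (ZMod N)ˣ) :
    IsCoprime ((((u : ZMod N).val : ℕ) : ℤ)) (N : ℤ) := by
  have h1 : IsUnit ((((((u : ZMod N).val : ℕ) : ℤ)) : ℤ) : ZMod N) := by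
    rw [intCast_val_unit]; exact u.isUnit
  exact ((ZMod.coe_int_isUnit_iff_isCoprime _ N).mp h1).symm

/-- existence of the partner -/
theorem exists_isALPartner (hcop : Nat.Coprime M q) (u : (ZMod (M * q))ˣ) :
    ∃ u' : (ZMod (M * q))ˣ, IsALPartner M q u u' := by
  have hM : IsCoprime ((((u : ZMod (M * q)).val : ℕ) : ℤ)) (M : ℤ) := by
    have h := isCoprime_val_unit' (M * q) u
    have e : ((M * q : ℕ) : ℤ) = (M : ℤ) * q := by push_cast; ring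
    rw [e] at h
    exact h.of_mul_right_left
  have hq' : IsCoprime (((((u⁻¹ : (ZMod (M * q))ˣ) : ZMod (M * q)).val : ℕ) : ℤ)) (q : ℤ) := by
    have h := isCoprime_val_unit' (M * q) u⁻¹
    have e : ((M * q : ℕ) : ℤ) = (q : ℤ) * M := by push_cast; ring
    rw [e] at h
    exact h.of_mul_right_left
  obtain ⟨u', h1, h2⟩ := exists_unit_crt M q hcop hM hq'
  exact ⟨u', h1, (h2.mul_right _).trans (modEq_q_of_modEq M q (val_inv_mul_modEq M q u))⟩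

/-! ### characters of `(ℤ/M q)ˣ` factoring through `(ℤ/q)ˣ` -/

variable (ψ : (ZMod (M * q))ˣ →* Qbˣ)

/-- `ψ` factors through `(ℤ/q)ˣ` -/
def IsQPart : Prop :=
  ∀ u : (ZMod (M * q))ˣ, (((u : ZMod (M * q)).val : ℕ) : ℤ) ≡ 1 [ZMOD (q : ℤ)] → ψ u = 1

variable {M q ψ}

theorem IsQPart.mul_mem_ker (hψ : IsQPart M q ψ) {u u' : (ZMod (M * q))ˣ}
    (h : (((u' : ZMod (M * q)).val : ℕ) : ℤ) * (((u : ZMod (M * q)).val : ℕ) : ℤ) ≡ 1
      [ZMOD (q : ℤ)]) : u' * u ∈ ψ.ker := by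
  rw [MonoidHom.mem_ker]
  exact hψ _ ((modEq_q_of_modEq M q (val_mul_modEq (M * q) u' u)).trans h)

theorem IsQPart.partner_mem_ker (hψ : IsQPart M q ψ) {u u' : (ZMod (M * q))ˣ}
    (h : IsALPartner M q u u') (hu : u ∈ ψ.ker) : u' ∈ ψ.ker := by
  have h1 := hψ.mul_mem_ker h.2
  rw [MonoidHom.mem_ker] at h1 hu ⊢
  rwa [map_mul, hu, mul_one] at h1

/-! ### the operator on `F_H` -/

section WH

variable (hq : q.Prime) (hqM : ¬ q ∣ M) (hψ : IsQPart M q ψ)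

/-- **`⟨u⟩ ∘ w̃_q = w̃_q ∘ ⟨u'⟩`** on `FBar₁(M q)`, `u'` the partner of `u` -/
theorem diaU_wAL {u u' : (ZMod (M * q))ˣ} (h : IsALPartner M q u u')
    (x : ↥(laurentBaseChange Qb (F1 (M * q)))) :
    diaU u (wAL M q hq hqM x) = wAL M q hq hqM (diaU u' x) :=
  diaU_wF1Hom q M (gAL_dvd_M M q hq hqM) (gAL_dvd_q M q hq hqM) (coprime_of_prime M q hq hqM)
    (one_lt_mul_of_prime M q hq) u u' h.1 h.2 x

include hψ in
theorem wAL_inclH_mem (y : FBH ψ) :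
    ((wAL M q hq hqM (inclH ψ.ker y) : ↥(laurentBaseChange Qb (F1 (M * q)))) :
      LaurentSeries Qb) ∈ laurentBaseChange Qb (FH0 ψ.ker) := by
  refine (mem_laurentBaseChange_FH0_iff _).mpr
    ⟨(wAL M q hq hqM (inclH ψ.ker y)).2, fun v hv => ?_⟩
  obtain ⟨v', hv'⟩ := exists_isALPartner M q (coprime_of_prime M q hq hqM) v
  show diaU v (wAL M q hq hqM (inclH ψ.ker y)) = wAL M q hq hqM (inclH ψ.ker y)
  rw [diaU_wAL hq hqM hv', diaU_inclH _ (hψ.partner_mem_ker hv' hv)]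

/-- **the lift `w̃` of `w_q` to `F_H`**, as an algebra endomorphism -/
def wHHom : FBH ψ →ₐ[Qb] FBH ψ where
  toFun y := ⟨_, wAL_inclH_mem hq hqM hψ y⟩
  map_one' := Subtype.ext (by simp)
  map_mul' a b := Subtype.ext (by simp)
  map_zero' := Subtype.ext (by simp)
  map_add' a b := Subtype.ext (by simp)
  commutes' c := Subtype.ext (by
    show ((wAL M q hq hqM (inclH ψ.ker (algebraMap Qb (FBH ψ) c)) :
      ↥(laurentBaseChange Qb (F1 (M * q)))) : LaurentSeries Qb) = _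
    rw [AlgHom.commutes, AlgEquiv.commutes]
    rfl)

theorem inclH_wHHom (y : FBH ψ) :
    inclH ψ.ker (wHHom hq hqM hψ y) = wAL M q hq hqM (inclH ψ.ker y) := Subtype.ext rfl

/-- the unit of the square of `w̃_q` -/
def uSq : (ZMod (M * q))ˣ :=
  unitOfDelta (dvd_wSqDelta_one_zero q M (gAL_dvd_M M q hq hqM) 1
    (show gAL M q hq hqM 1 1 = (q : ℤ) * 1 by rw [mul_one]; rfl))

theorem wAL_wAL (x : ↥(laurentBaseChange Qb (F1 (M * q)))) :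
    wAL M q hq hqM (wAL M q hq hqM x) = diaU (uSq hq hqM) x := by
  rw [wAL_apply, wAL_apply,
    wF1Hom_wF1Hom q M _ _ _ _ 1 (show gAL M q hq hqM 1 1 = (q : ℤ) * 1 by rw [mul_one]; rfl),
    diaF1_eq_diaU_unitOfDelta]
  rfl

theorem wHHom_wHHom (y : FBH ψ) :
    wHHom hq hqM hψ (wHHom hq hqM hψ y) = diaHHom ψ (uSq hq hqM) y := by
  apply inclH_injective
  rw [inclH_wHHom, inclH_wHHom, inclH_diaHHom, wAL_wAL]

theorem wHHom_bijective : Function.Bijective (wHHom hq hqM hψ) := by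
  refine ⟨(wHHom hq hqM hψ).toRingHom.injective, fun y => ?_⟩
  refine ⟨wHHom hq hqM hψ (diaHHom ψ (uSq hq hqM)⁻¹ y), ?_⟩
  rw [wHHom_wHHom, ← diaHHom_mul, mul_inv_cancel, diaHHom_one]

/-- **the lift `w̃` of `w_q` to `F_H`** -/
def wH : FBH ψ ≃ₐ[Qb] FBH ψ :=
  AlgEquiv.ofBijective (wHHom hq hqM hψ) (wHHom_bijective hq hqM hψ)

theorem inclH_wH (y : FBH ψ) :
    inclH ψ.ker (wH hq hqM hψ y) = wAL M q hq hqM (inclH ψ.ker y) := inclH_wHHom hq hqM hψ y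

/-- **(i)** `w̃` restricts to `w_q` on `FBar(M q)` -/
theorem wH_inclFH (f : ↥(laurentBaseChange Qb (modularFunctionFieldFull (M * q)))) :
    wH hq hqM hψ (inclFH ψ (one_lt_mul_of_prime M q hq) f) =
      inclFH ψ (one_lt_mul_of_prime M q hq) (Fermat.Agent.LSb.Val.wq M q hq hqM f) := by
  apply inclH_injective
  rw [inclH_wH, inclH_inclFH, inclH_inclFH, wAL_inclusion]

/-- **(ii)** `⟨u⟩ w̃ = w̃ ⟨u⟩⁻¹` -/
theorem diaHHom_wH (u : (ZMod (M * q))ˣ) (y : FBH ψ) :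
    diaHHom ψ u (wH hq hqM hψ y) = wH hq hqM hψ (diaHHom ψ u⁻¹ y) := by
  obtain ⟨u', hu'⟩ := exists_isALPartner M q (coprime_of_prime M q hq hqM) u
  apply inclH_injective
  rw [inclH_diaHHom, inclH_wH, inclH_wH, inclH_diaHHom, diaU_wAL hq hqM hu']
  congr 1
  -- `⟨u'⟩ = ⟨u⁻¹⟩` on `F_H`
  have hker : u' * u ∈ ψ.ker := hψ.mul_mem_ker hu'.2
  have e : u' = (u' * u) * u⁻¹ := by group
  rw [e, map_mul, AlgEquiv.mul_apply]
  have h1 : diaU u⁻¹ (inclH ψ.ker y) = inclH ψ.ker (diaHHom ψ u⁻¹ y) := (inclH_diaHHom ψ u⁻¹ y).symm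
  rw [h1, diaU_inclH _ hker]

theorem diaH_wH (u : (ZMod (M * q))ˣ) (y : FBH ψ) :
    letI := algebraFH ψ (one_lt_mul_of_prime M q hq)
    diaH ψ (one_lt_mul_of_prime M q hq) u (wH hq hqM hψ y) =
      wH hq hqM hψ (diaH ψ (one_lt_mul_of_prime M q hq) u⁻¹ y) :=
  diaHHom_wH hq hqM hψ u y

theorem inclH_arithmeticRingAut {N : ℕ} [NeZero N] (H : Subgroup (ZMod N)ˣ) (σ : Qb ≃ₐ[ℚ] Qb)
    (y : ↥(laurentBaseChange Qb (FH0 H))) :
    inclH H (arithmeticRingAut (FH0 H) σ y) = arithmeticRingAut (F1 N) σ (inclH H y) := by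
  apply Subtype.ext
  rw [coe_inclH, coe_arithmeticRingAut_apply, coe_arithmeticRingAut_apply, coe_inclH]

/-- the Galois action on `w̃_q`, on `FBar₁(M q)` -/
theorem galois_wAL (σ : Qb ≃ₐ[ℚ] Qb) {s : ℤ}
    (hs : Units.map ((σ : Qb →+* Qb) : Qb →* Qb) (zbar (M * q)) = zbar (M * q) ^ s)
    (hscop : IsCoprime s ((M * q : ℕ) : ℤ)) (u : (ZMod (M * q))ˣ)
    (huM : (((u : ZMod (M * q)).val : ℕ) : ℤ) ≡ 1 [ZMOD (M : ℤ)])
    (huq : (((u : ZMod (M * q)).val : ℕ) : ℤ) * s ≡ 1 [ZMOD (q : ℤ)])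
    (x : ↥(laurentBaseChange Qb (F1 (M * q)))) :
    arithmeticRingAut (F1 (M * q)) σ (wAL M q hq hqM x) =
      wAL M q hq hqM (diaU u (arithmeticRingAut (F1 (M * q)) σ x)) :=
  galois_wF1Hom q M (gAL_dvd_M M q hq hqM) (gAL_dvd_q M q hq hqM)
    (coprime_of_prime M q hq hqM) (one_lt_mul_of_prime M q hq) σ hs hscop u
    (intCast_val_unit (M * q) u) huM huq x

/-- **(iii)** `σ w̃ = w̃ ⟨cyc σ⟩⁻¹ σ`: for `σ ∈ G_ℚ` with `σ ζ̄_N = ζ̄_N ^ s` and a unit `us ≡ s (mod q)` -/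
theorem arithmeticRingAut_wH (σ : Qb ≃ₐ[ℚ] Qb) {s : ℤ}
    (hs : Units.map ((σ : Qb →+* Qb) : Qb →* Qb) (zbar (M * q)) = zbar (M * q) ^ s)
    (hscop : IsCoprime s ((M * q : ℕ) : ℤ)) (us : (ZMod (M * q))ˣ)
    (hus : (((us : ZMod (M * q)).val : ℕ) : ℤ) ≡ s [ZMOD (q : ℤ)]) (y : FBH ψ) :
    arithmeticRingAut (FH0 ψ.ker) σ (wH hq hqM hψ y) =
      wH hq hqM hψ (diaHHom ψ us⁻¹ (arithmeticRingAut (FH0 ψ.ker) σ y)) := by
  -- an inverse of `s` modulo `q`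
  obtain ⟨x₀, y₀, hxy⟩ := id hscop
  have hs' : IsCoprime x₀ (q : ℤ) := by
    refine ⟨s, y₀ * M, ?_⟩
    rw [← hxy]; push_cast; ring
  obtain ⟨u, hu1, hu2⟩ := exists_unit_crt M q (coprime_of_prime M q hq hqM)
    (isCoprime_one_left (x := (M : ℤ))) hs'
  have hx₀s : x₀ * s ≡ 1 [ZMOD (q : ℤ)] := by
    refine Int.modEq_iff_dvd.mpr ⟨y₀ * M, ?_⟩
    rw [← hxy]; push_cast; ring
  have hg := galois_wAL hq hqM σ hs hscop u hu1 ((hu2.mul_right s).trans hx₀s) (inclH ψ.ker y)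
  -- `⟨u⟩ = ⟨us⁻¹⟩` on `F_H`
  have hker : u * us ∈ ψ.ker :=
    hψ.mul_mem_ker (((hu2.mul_right _).trans (hus.mul_left _)).trans hx₀s)
  have e : u = (u * us) * us⁻¹ := by group
  have h1 : diaU u (arithmeticRingAut (F1 (M * q)) σ (inclH ψ.ker y)) =
      inclH ψ.ker (diaHHom ψ us⁻¹ (arithmeticRingAut (FH0 ψ.ker) σ y)) := by
    rw [e, map_mul, AlgEquiv.mul_apply, ← inclH_arithmeticRingAut, ← inclH_diaHHom,
      diaU_inclH _ hker]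
  apply inclH_injective
  rw [inclH_arithmeticRingAut, inclH_wH, inclH_wH, hg, h1]

theorem galois_wH (σ : Qb ≃ₐ[ℚ] Qb) {s : ℤ}
    (hs : Units.map ((σ : Qb →+* Qb) : Qb →* Qb) (zbar (M * q)) = zbar (M * q) ^ s)
    (hscop : IsCoprime s ((M * q : ℕ) : ℤ)) (us : (ZMod (M * q))ˣ)
    (hus : (((us : ZMod (M * q)).val : ℕ) : ℤ) ≡ s [ZMOD (q : ℤ)]) (y : FBH ψ) :
    arithmeticGalois (FH0 ψ.ker) σ • wH hq hqM hψ y =
      wH hq hqM hψ (diaHHom ψ us⁻¹ (arithmeticGalois (FH0 ψ.ker) σ • y)) :=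
  arithmeticRingAut_wH hq hqM hψ σ hs hscop us hus y

end WH

end Fermat.Agent.S43lib.Igusa
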