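/-
S43lib / Igusa / NodeAct  (helper9)

**LGC-C, modular part: the inertia group and the diamonds act on the Kummer generators of
`F_H / FBar(N)` through roots of unity.**  `N = M q`, `q ∤ M` prime, `ψ` a character of `(ℤ/N)ˣ`
factoring through `(ℤ/q)ˣ`, `F_H = FBH ψ`, `w̃ = wH` (Igusa/WtildeH).

* `inertia_fixes_root_of_unity`: an element of the inertia group of `A ∣ q` fixes the roots of unity
  of order prime to `q`;
* `cycU N σ : (ℤ/N)ˣ`, `cycU_spec : σ ζ̄_N = ζ̄_N ^ (cycU σ)`, `cycU_mul` (the cyclotomic character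
  mod `N` in the normalisation of `zbar N`);
* `galois_inclFH`: the coefficientwise Galois action commutes with `FBar(N) ↪ F_H`;
* `galois_wH_eigen`: for `g ∈ F_H` fixed by `σ` which is a `ψ⁻¹`-eigenvector of the diamonds,
  `σ (w̃ g) = ψ(cyc σ) · w̃ g`;
* `diaHHom_wH_eigen`: `⟨v⟩ (w̃ g) = ψ(v) · w̃ g`.
-/
import Mathlib
import Fermat.Agent.S43lib.Igusa.WtildeH
import Fermat.Agent.LSb.Kum.Teich

set_option autoImplicit false
set_option linter.unusedSectionVars false
set_option linter.unusedVariables false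
set_option linter.style.haveILetI false

noncomputable section

namespace Fermat.Agent.S43lib.Igusa

open Polynomial ModularCurve IntermediateField
open Fermat.Agent.ProgramR.BarField
open Fermat.Agent.S48lib.X1 Fermat.Agent.S48lib.X1.HeckeJ

local notation "Qb" => AlgebraicClosure ℚ

/-! ### inertia and roots of unity -/

section Roots

variable {A : ValuationSubring (AlgebraicClosure ℚ)}

local notation "kA" => IsLocalRing.ResidueField A

/-- **an element of the inertia group fixes the roots of unity of order invertible in the residue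
field** -/
theorem inertia_fixes_root_of_unity {τ : Qb ≃ₐ[ℚ] Qb} (hτ : τ ∈ A.inertiaSubgroupIn ℚ) {e : ℕ}
    (he : (e : kA) ≠ 0) {z : Qb} (hz : z ^ e = 1) : τ z = z := by
  have he0 : e ≠ 0 := by
    rintro rfl
    exact he (by simp)
  have hzA : z ∈ A := Fermat.Agent.LSb.Kum.mem_of_pow_eq_one A he0 hz
  set a : A := ⟨z, hzA⟩ with ha
  obtain ⟨hb, hres⟩ := Fermat.Agent.LSb.Kum.residue_eq_of_mem_inertia A hτ a
  set b : A := ⟨τ z, hb⟩ with hbdef
  have hae : a ^ e = 1 := Subtype.ext (by simpa using hz)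
  have hbe : b ^ e = 1 := by
    apply Subtype.ext
    show (τ z) ^ e = 1
    rw [← map_pow, hz, map_one]
  -- the residue of `a` is a unit
  have hr0 : IsLocalRing.residue A a ≠ 0 := by
    intro h0
    have := congrArg (IsLocalRing.residue A) hae
    rw [map_pow, h0, zero_pow he0, map_one] at this
    exact zero_ne_one this
  have hgeom := Commute.geom_sum₂_mul (Commute.all b a) e
  rw [hbe, hae, sub_self] at hgeom
  rcases mul_eq_zero.1 hgeom with h0 | h0
  · exfalso
    have h1 := congrArg (IsLocalRing.residue A) h0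
    rw [map_sum, map_zero] at h1
    have h2 : ∀ i ∈ Finset.range e, IsLocalRing.residue A (b ^ i * a ^ (e - 1 - i)) =
        IsLocalRing.residue A a ^ (e - 1) := by
      intro i hi
      have hi' : i ≤ e - 1 := by
        have := Finset.mem_range.1 hi
        omega
      rw [map_mul, map_pow, map_pow, hres, ← pow_add]
      congr 1
      omega
    rw [Finset.sum_congr rfl h2, Finset.sum_const, Finset.card_range, nsmul_eq_mul] at h1
    rcases mul_eq_zero.1 h1 with h3 | h3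
    · exact he h3
    · exact pow_ne_zero (e - 1) hr0 h3
  · have : b = a := sub_eq_zero.1 h0
    exact congrArg Subtype.val this

end Roots

/-! ### the cyclotomic character mod `N` -/

section Cyc

variable (N : ℕ) [NeZero N]

theorem exists_cycU (σ : Qb ≃ₐ[ℚ] Qb) :
    ∃ u : (ZMod N)ˣ, Units.map ((σ : Qb →+* Qb) : Qb →* Qb) (zbar N) =
      zbar N ^ (u : ZMod N).val := by
  obtain ⟨s, hs, hcop⟩ := exists_galois_zbar (M := N) σ
  have hN0 : (N : ℤ) ≠ 0 := Int.natCast_ne_zero.2 (NeZero.ne N)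
  have hNpos : (0 : ℤ) < N := by exact_mod_cast NeZero.pos N
  set r : ℤ := s % N with hr
  have hr0 : 0 ≤ r := Int.emod_nonneg s hN0
  have hrN : r < N := Int.emod_lt_of_pos s hNpos
  set n : ℕ := r.toNat with hn
  have hnr : (n : ℤ) = r := Int.toNat_of_nonneg hr0
  have hnN : n < N := by
    have : (n : ℤ) < N := by rw [hnr]; exact hrN
    exact_mod_cast this
  -- `n` is coprime to `N`
  have hcopr : IsCoprime r (N : ℤ) := by
    have e : s = r + (N : ℤ) * (s / N) := by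
      rw [hr]
      exact (Int.emod_add_mul_ediv s N).symm
    rw [e] at hcop
    exact (IsCoprime.add_mul_left_left_iff).1 hcop
  have hcopn : Nat.Coprime n N := by
    rw [← hnr] at hcopr
    exact Int.isCoprime_iff_gcd_eq_one.1 hcopr
  refine ⟨ZMod.unitOfCoprime n hcopn, ?_⟩
  rw [ZMod.coe_unitOfCoprime, ZMod.val_natCast_of_lt hnN, hs]
  -- `ζ ^ s = ζ ^ (s % N)`
  have hz : zbar N ^ (N : ℤ) = 1 := by
    rw [zpow_natCast]
    exact (zbar_spec N).pow_eq_one
  have e : s = (N : ℤ) * (s / N) + r := by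
    rw [hr]
    exact (Int.mul_ediv_add_emod s N).symm
  rw [e, zpow_add, zpow_mul, hz, one_zpow, one_mul, ← hnr, zpow_natCast]

/-- **the cyclotomic character mod `N`**: `σ ζ̄_N = ζ̄_N ^ (cycU N σ)` -/
def cycU (σ : Qb ≃ₐ[ℚ] Qb) : (ZMod N)ˣ := (exists_cycU N σ).choose

theorem cycU_spec (σ : Qb ≃ₐ[ℚ] Qb) :
    Units.map ((σ : Qb →+* Qb) : Qb →* Qb) (zbar N) = zbar N ^ (cycU N σ : ZMod N).val :=
  (exists_cycU N σ).choose_spec

/-- the integer form used by `galois_wH` -/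
theorem cycU_spec_zpow (σ : Qb ≃ₐ[ℚ] Qb) :
    Units.map ((σ : Qb →+* Qb) : Qb →* Qb) (zbar N) =
      zbar N ^ (((cycU N σ : ZMod N).val : ℕ) : ℤ) := by
  rw [zpow_natCast]
  exact cycU_spec N σ

theorem isCoprime_val_cycU (σ : Qb ≃ₐ[ℚ] Qb) :
    IsCoprime ((((cycU N σ : ZMod N).val : ℕ) : ℤ)) ((N : ℕ) : ℤ) := by
  have h := ZMod.val_coe_unit_coprime (cycU N σ)
  exact Int.isCoprime_iff_gcd_eq_one.2 h

/-- uniqueness -/
theorem cycU_eq_of_spec (σ : Qb ≃ₐ[ℚ] Qb) (u : (ZMod N)ˣ)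
    (hu : Units.map ((σ : Qb →+* Qb) : Qb →* Qb) (zbar N) = zbar N ^ (u : ZMod N).val) :
    cycU N σ = u := by
  have h1 := cycU_spec N σ
  rw [hu] at h1
  have h2 := (zbar_spec N).pow_inj (ZMod.val_lt _) (ZMod.val_lt _) h1
  apply Units.ext
  exact ZMod.val_injective N h2.symm

theorem cycU_one : cycU N (1 : Qb ≃ₐ[ℚ] Qb) = 1 := by
  apply cycU_eq_of_spec
  rcases Nat.lt_or_ge 1 N with h | h
  · haveI : Fact (1 < N) := ⟨h⟩
    rw [Units.val_one, ZMod.val_one, pow_one]
    exact Units.ext rfl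
  · have hN1 : N = 1 := le_antisymm h (NeZero.pos N)
    have hz1 : zbar N = 1 := by
      have h1 := (zbar_spec N).pow_eq_one
      have h2 : zbar N ^ 1 = 1 := by
        rw [← h1]
        exact congrArg (fun n => zbar N ^ n) hN1.symm
      rwa [pow_one] at h2
    rw [hz1, one_pow, map_one]

theorem cycU_mul (σ τ : Qb ≃ₐ[ℚ] Qb) : cycU N (σ * τ) = cycU N σ * cycU N τ := by
  apply cycU_eq_of_spec
  have h1 : Units.map (((σ * τ : Qb ≃ₐ[ℚ] Qb) : Qb →+* Qb) : Qb →* Qb) (zbar N) =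
      Units.map ((σ : Qb →+* Qb) : Qb →* Qb)
        (Units.map ((τ : Qb →+* Qb) : Qb →* Qb) (zbar N)) := Units.ext rfl
  rw [h1, cycU_spec N τ, map_pow, cycU_spec N σ, ← pow_mul]
  -- exponents agree mod `N`
  have hz : zbar N ^ N = 1 := (zbar_spec N).pow_eq_one
  have key : ∀ a b : ℕ, a ≡ b [MOD N] → zbar N ^ a = zbar N ^ b := by
    intro a b hab
    rw [← Nat.mod_add_div a N, ← Nat.mod_add_div b N, pow_add, pow_add, pow_mul, pow_mul, hz,
      one_pow, one_pow, mul_one, mul_one]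
    exact congrArg _ hab
  apply key
  rw [Units.val_mul, ZMod.val_mul]
  exact (Nat.mod_modEq _ _).symm

/-- the cyclotomic character as a group homomorphism -/
def cycHom : (Qb ≃ₐ[ℚ] Qb) →* (ZMod N)ˣ where
  toFun := cycU N
  map_one' := cycU_one N
  map_mul' := cycU_mul N

@[simp] theorem cycHom_apply (σ : Qb ≃ₐ[ℚ] Qb) : cycHom N σ = cycU N σ := rfl

end Cyc

/-! ### the Galois action and the inclusion `FBar(N) ↪ F_H` -/

section Gal

variable {N : ℕ} [NeZero N] (ψ : (ZMod N)ˣ →* Qbˣ)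

theorem galois_inclFH (hN : 1 < N) (σ : Qb ≃ₐ[ℚ] Qb)
    (x : ↥(laurentBaseChange Qb (modularFunctionFieldFull N))) :
    arithmeticGalois (FH0 ψ.ker) σ • inclFH ψ hN x =
      inclFH ψ hN (arithmeticGalois (modularFunctionFieldFull N) σ • x) := by
  apply Subtype.ext
  rw [coe_arithmeticGalois_smul, coe_inclFH, coe_inclFH, coe_arithmeticGalois_smul]

/-- a series with coefficients fixed by `σ` is fixed by `σ` -/
theorem galois_smul_eq_self_of_coeff (σ : Qb ≃ₐ[ℚ] Qb) (y : FBH ψ)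
    (hy : ∀ n : ℤ, σ (((y : FBH ψ) : LaurentSeries Qb).coeff n) =
      ((y : FBH ψ) : LaurentSeries Qb).coeff n) :
    arithmeticGalois (FH0 ψ.ker) σ • y = y := by
  apply Subtype.ext
  rw [coe_arithmeticGalois_smul]
  ext n
  rw [coeffMap_coeff]
  exact hy n

end Gal

/-! ### the two generators -/

section W

variable {M q : ℕ} [NeZero M] [NeZero q] (hq : q.Prime) (hqM : ¬ q ∣ M)
variable {ψ : (ZMod (M * q))ˣ →* Qbˣ} (hψ : IsQPart M q ψ)

/-- **`⟨v⟩ (w̃ g) = ψ(v) w̃ g`** for a `ψ⁻¹`-eigenvector `g` -/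
theorem diaHHom_wH_eigen (g : FBH ψ)
    (heig : ∀ v, diaHHom ψ v g = algebraMap Qb (FBH ψ) (((ψ v)⁻¹ : Qbˣ) : Qb) * g)
    (v : (ZMod (M * q))ˣ) :
    diaHHom ψ v (wH hq hqM hψ g) =
      algebraMap Qb (FBH ψ) ((ψ v : Qbˣ) : Qb) * wH hq hqM hψ g := by
  rw [diaHHom_wH, heig, map_mul, AlgEquiv.commutes, map_inv, inv_inv]

/-- **`σ (w̃ g) = ψ(cyc σ) w̃ g`** for a `σ`-fixed `ψ⁻¹`-eigenvector `g` -/
theorem galois_wH_eigen (σ : Qb ≃ₐ[ℚ] Qb) (g : FBH ψ)
    (hfix : arithmeticGalois (FH0 ψ.ker) σ • g = g)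
    (heig : ∀ v, diaHHom ψ v g = algebraMap Qb (FBH ψ) (((ψ v)⁻¹ : Qbˣ) : Qb) * g) :
    arithmeticGalois (FH0 ψ.ker) σ • wH hq hqM hψ g =
      algebraMap Qb (FBH ψ) ((ψ (cycU (M * q) σ) : Qbˣ) : Qb) * wH hq hqM hψ g := by
  rw [galois_wH hq hqM hψ σ (cycU_spec_zpow (M * q) σ) (isCoprime_val_cycU (M * q) σ)
    (cycU (M * q) σ) (Int.ModEq.refl _), hfix, heig, map_mul, AlgEquiv.commutes, map_inv, inv_inv]

end W

end Fermat.Agent.S43lib.Igusa
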