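/-
S43lib / Igusa / NodeActCover  (helper9)

**LGC-C, modular instance.**  `N = M q`, `q ∤ M` prime, `A` a valuation ring of `ℚ̄` above `q`,
`ψ` a character of `(ℤ/N)ˣ` factoring through `(ℤ/q)ˣ` with values of order dividing `e`,
`F_H = FBH ψ ⊇ FBar(N)`; Kummer lifts `H₁ : KummerLift D1 e u₁ h₁ ȳ₁`,
`H₂ : KummerLift D2 e u₂ (w̃ g₂) ȳ₂` where `h₁` is a `ψ`-eigenvector and `g₂` a `ψ⁻¹`-eigenvector of
the diamonds, both with coefficients fixed by the inertia group (helper2's KC-Mod datum: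
`h₁ = h^♯_ψ`, `g₂ = h^♯_{ψ⁻¹}`).

* `coverAct₂_galois`: for `τ` inertial on the base datum and fixing `h₁`, `g₂`:
  `CoverAct₂ H₁ H₂ j c₀ (arithmeticGalois τ) 1 ψ(cyc τ)`;
* `coverAct₂_dia`: `CoverAct₂ H₁ H₂ j c₀ ⟨v⟩ ψ(v) ψ(v)`;
* `word_FH`: for `t t'` in the inertia group, `d = cyc t`, `d'` any unit:
  `(⟨d'⟩ - 1)(t' - 1)(t - ⟨d⟩) x = 0` and `(⟨d'⟩ - 1)(t - ⟨d⟩)(t' - 1) x = 0` on
  `Pic⁰(F_H)[n]`, `q ∤ n`.
-/
import Mathlib
import Fermat.Agent.S43lib.Igusa.NodeAct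
import Fermat.Agent.S43lib.LGC.Abs.Cover
import Fermat.Agent.LSb.Unit.Final

set_option autoImplicit false
set_option linter.unusedSectionVars false
set_option linter.unusedVariables false
set_option linter.style.haveILetI false

noncomputable section

namespace Fermat.Agent.S43lib.Igusa

open Polynomial ModularCurve IntermediateField AlgebraicCurve
open Fermat.Agent Fermat.Agent.S18lib Fermat.Agent.LSb
open Fermat.Agent.ProgramR.BarField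
open Fermat.Agent.S48lib.X1 Fermat.Agent.S48lib.X1.HeckeJ
open Fermat.Agent.S43lib.LGC.KC Fermat.Agent.S43lib.LGC.Abs

local notation "Qb" => AlgebraicClosure ℚ

variable {M q : ℕ} [NeZero M] [NeZero q] (hq : q.Prime) (hqM : ¬ q ∣ M)
variable {ψ : (ZMod (M * q))ˣ →* Qbˣ} (hψ : IsQPart M q ψ)
variable {A : ValuationSubring (AlgebraicClosure ℚ)}

local notation "kA" => IsLocalRing.ResidueField A

variable {K₁' K₂' : Type*} [Field K₁'] [Field K₂']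
variable [Algebra (IsLocalRing.ResidueField A) K₁'] [Algebra (FRes A M) K₁']
variable [IsScalarTower (IsLocalRing.ResidueField A) (FRes A M) K₁']
variable [Algebra (IsLocalRing.ResidueField A) K₂'] [Algebra (FRes A M) K₂']
variable [IsScalarTower (IsLocalRing.ResidueField A) (FRes A M) K₂']
variable {D1 D2 : GaussDatum A (FBar (M * q)) (FRes A M)}
variable {e : ℕ} {u₁ u₂ : FBar (M * q)} {h₁ g₂ : FBH ψ} {ybar₁ : K₁'} {ybar₂ : K₂'}

/-- the root of unity `ψ(v)` as an element of `A` -/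
def psiA (ψ : (ZMod (M * q))ˣ →* Qbˣ) (e : ℕ) (he : e ≠ 0) (hψe : ∀ v, ψ v ^ e = 1)
    (A : ValuationSubring (AlgebraicClosure ℚ)) (v : (ZMod (M * q))ˣ) : A :=
  ⟨((ψ v : Qbˣ) : Qb), Kum.mem_of_pow_eq_one A he (by
    rw [← Units.val_pow_eq_pow_val, hψe v]; rfl)⟩

@[simp] theorem coe_psiA (he : e ≠ 0) (hψe : ∀ v, ψ v ^ e = 1) (v : (ZMod (M * q))ˣ) :
    ((psiA ψ e he hψe A v : A) : Qb) = ((ψ v : Qbˣ) : Qb) := rfl

theorem psiA_pow (he : e ≠ 0) (hψe : ∀ v, ψ v ^ e = 1) (v : (ZMod (M * q))ˣ) :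
    psiA ψ e he hψe A v ^ e = 1 := by
  apply Subtype.ext
  show ((ψ v : Qbˣ) : Qb) ^ e = 1
  rw [← Units.val_pow_eq_pow_val, hψe v]
  rfl

/-- **the Galois elements** -/
theorem coverAct₂_galois (he : e ≠ 0) (hψe : ∀ v, ψ v ^ e = 1) {c₀ : A} {s : ℕ}
    {x₁ x₂ : Fin s → Place kA (FRes A M)}
    [HasPrincipalDivisors Qb (FBar (M * q))] [HasPrincipalDivisors kA (FRes A M)]
    (τ : Qb ≃ₐ[ℚ] Qb)
    (hI : (Unit.chartDatum D1 D2 (Gin0.jF (M * q)) c₀ s x₁ x₂).IsInertial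
      (arithmeticGalois (modularFunctionFieldFull (M * q)) τ))
    (hc₀ : τ (c₀ : Qb) = c₀)
    (hfix₁ : arithmeticGalois (FH0 ψ.ker) τ • h₁ = h₁)
    (hfix₂ : arithmeticGalois (FH0 ψ.ker) τ • g₂ = g₂)
    (heig₂ : ∀ v, diaHHom ψ v g₂ = algebraMap Qb (FBH ψ) (((ψ v)⁻¹ : Qbˣ) : Qb) * g₂) :
    letI := algebraFH ψ (one_lt_mul_of_prime M q hq)
    haveI := isScalarTower_FH ψ (one_lt_mul_of_prime M q hq)
    ∀ (H₁ : KummerLift D1 e u₁ h₁ ybar₁) (H₂ : KummerLift D2 e u₂ (wH hq hqM hψ g₂) ybar₂),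
      CoverAct₂ H₁ H₂ (Gin0.jF (M * q)) c₀ (arithmeticGalois (FH0 ψ.ker) τ) 1
        (psiA ψ e he hψe A (cycU (M * q) τ)) := by
  letI := algebraFH ψ (one_lt_mul_of_prime M q hq)
  haveI := isScalarTower_FH ψ (one_lt_mul_of_prime M q hq)
  intro H₁ H₂
  refine CoverAct₂.of_isInertial H₁ H₂ hI ?_ (Kum.galois_smul_jF (M * q) τ) hc₀ 1 _ (one_pow e)
    (psiA_pow he hψe _) ?_ ?_
  · intro f₀
    exact galois_inclFH ψ (one_lt_mul_of_prime M q hq) τ f₀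
  · rw [hfix₁]
    show h₁ = algebraMap Qb (FBH ψ) ((1 : A) : Qb) * h₁
    rw [show ((1 : A) : Qb) = 1 from rfl, map_one, one_mul]
  · exact galois_wH_eigen hq hqM hψ τ g₂ hfix₂ heig₂

/-- **the diamonds** -/
theorem coverAct₂_dia (he : e ≠ 0) (hψe : ∀ v, ψ v ^ e = 1) (c₀ : A)
    (heig₁ : ∀ v, diaHHom ψ v h₁ = algebraMap Qb (FBH ψ) ((ψ v : Qbˣ) : Qb) * h₁)
    (heig₂ : ∀ v, diaHHom ψ v g₂ = algebraMap Qb (FBH ψ) (((ψ v)⁻¹ : Qbˣ) : Qb) * g₂)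
    (v : (ZMod (M * q))ˣ) :
    letI := algebraFH ψ (one_lt_mul_of_prime M q hq)
    haveI := isScalarTower_FH ψ (one_lt_mul_of_prime M q hq)
    ∀ (H₁ : KummerLift D1 e u₁ h₁ ybar₁) (H₂ : KummerLift D2 e u₂ (wH hq hqM hψ g₂) ybar₂),
      CoverAct₂ H₁ H₂ (Gin0.jF (M * q)) c₀
        (SemilinearAut.ofAlgAut ((diaH ψ (one_lt_mul_of_prime M q hq) v).restrictScalars Qb))
        (psiA ψ e he hψe A v) (psiA ψ e he hψe A v) := by
  letI := algebraFH ψ (one_lt_mul_of_prime M q hq)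
  haveI := isScalarTower_FH ψ (one_lt_mul_of_prime M q hq)
  intro H₁ H₂
  refine CoverAct₂.of_algEquiv H₁ H₂ _ c₀ (diaH ψ (one_lt_mul_of_prime M q hq) v) _ _
    (psiA_pow he hψe _) (psiA_pow he hψe _) ?_ ?_
  · exact heig₁ v
  · exact diaHHom_wH_eigen hq hqM hψ g₂ heig₂ v

/-! ### the words on `Pic⁰(F_H)` -/

section Word

variable [hqF : Fact q.Prime]
variable [HasPrincipalDivisors (AlgebraicClosure ℚ) (FBar (M * q))]
variable [HasPrincipalDivisors (IsLocalRing.ResidueField A) (FRes A M)]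
variable [HasPrincipalDivisors (AlgebraicClosure ℚ) (FBH ψ)]
variable [HasPrincipalDivisors (IsLocalRing.ResidueField A) K₁']
variable [HasPrincipalDivisors (IsLocalRing.ResidueField A) K₂']
variable [Algebra.IsIntegral (FRes A M) K₁'] [Algebra.IsIntegral (FRes A M) K₂']

/-- the Galois element `t` as a semilinear automorphism of `F_H` -/
abbrev galH (ψ : (ZMod (M * q))ˣ →* Qbˣ) (t : Qb ≃ₐ[ℚ] Qb) : SemilinearAut Qb (FBH ψ) :=
  arithmeticGalois (FH0 ψ.ker) t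

/-- the diamond `⟨v⟩` as a semilinear automorphism of `F_H` -/
def diaS (ψ : (ZMod (M * q))ˣ →* Qbˣ) (hN : 1 < M * q) (v : (ZMod (M * q))ˣ) :
    SemilinearAut Qb (FBH ψ) :=
  letI := algebraFH ψ hN
  haveI := isScalarTower_FH ψ hN
  SemilinearAut.ofAlgAut ((diaH ψ hN v).restrictScalars Qb)

theorem diaS_smul (hN : 1 < M * q) (v : (ZMod (M * q))ˣ) (y : FBH ψ) :
    diaS ψ hN v • y = diaHHom ψ v y := rfl

/-- **LGC-C: the words on the torsion of `Pic⁰(F_H)`, general form.**  For `t t'` in the inertia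
group of `A ∣ q`, `d = cyc t`, any automorphism `γ` of `F_H` acting on the Kummer datum through
roots of unity (`CoverAct₂`: inertia elements, diamonds), and `x ∈ Pic⁰(F_H)[n]`, `q ∤ n`:
`(γ - 1)(t' - 1)(t - ⟨d⟩) x = 0` and `(γ - 1)(t - ⟨d⟩)(t' - 1) x = 0`. -/
theorem word_FH_gen (hA : A.LiesOverPrime q) (he : e ≠ 0) (hψe : ∀ v, ψ v ^ e = 1)
    (h1 : Old.IsGaussOne D1) (hO1 : ∀ x ∈ D1.O, x ∈ V.gaussSubring (M * q) A)
    (heig₁ : ∀ v, diaHHom ψ v h₁ = algebraMap Qb (FBH ψ) ((ψ v : Qbˣ) : Qb) * h₁)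
    (heig₂ : ∀ v, diaHHom ψ v g₂ = algebraMap Qb (FBH ψ) (((ψ v)⁻¹ : Qbˣ) : Qb) * g₂)
    (hfix₁ : ∀ τ ∈ A.inertiaSubgroupIn ℚ, arithmeticGalois (FH0 ψ.ker) τ • h₁ = h₁)
    (hfix₂ : ∀ τ ∈ A.inertiaSubgroupIn ℚ, arithmeticGalois (FH0 ψ.ker) τ • g₂ = g₂) :
    letI := algebraFH ψ (one_lt_mul_of_prime M q hqF.out)
    haveI := isScalarTower_FH ψ (one_lt_mul_of_prime M q hqF.out)
    ∀ {ζ : A}
      (H : IsKummerCover D1 (Unit.modD2 hqM D1) (Unit.modX₁ hA D1) (Unit.modX₂ D1) e u₁ u₂ h₁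
        (wH hqF.out hqM hψ g₂) ybar₁ ybar₂ ζ) {g₀ g₁ g₂' : ℕ}
      (C₀ : NodalCtx (Unit.modDatum hA D1 (Unit.modD2 hqM D1)) g₀ g₁ g₂')
      {x₁' : Fin (Unit.modS D1) → Place kA K₁'} {x₂' : Fin (Unit.modS D1) → Place kA K₂'}
      (hx₁' : ∀ c, (x₁' c).restrict (FRes A M) = Unit.modX₁ hA D1 c)
      (hx₂' : ∀ c, (x₂' c).restrict (FRes A M) = Unit.modX₂ D1 c) {g g₁' g₂'' : ℕ}
      (C : NodalCtx (Unit.chartDatum (gaussExt H.lift₁) (gaussExt H.lift₂)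
        (algebraMap (FBar (M * q)) (FBH ψ) (Gin0.jF (M * q))) (Unit.c0 hA D1) (Unit.modS D1)
        x₁' x₂') g g₁' g₂'')
      (t t' : Qb ≃ₐ[ℚ] Qb) (ht : t ∈ A.inertiaSubgroupIn ℚ) (ht' : t' ∈ A.inertiaSubgroupIn ℚ)
      {γ : SemilinearAut Qb (FBH ψ)} {ξ₁ ξ₂ : A}
      (hγ : CoverAct₂ H.lift₁ H.lift₂ (Gin0.jF (M * q)) (Unit.c0 hA D1) γ ξ₁ ξ₂)
      {n : ℕ} (hn : (n : kA) ≠ 0) {x : Pic0 Qb (FBH ψ)} (hx : n • x = 0),
      γ •
          (galH ψ t' • (galH ψ t • x - diaS ψ (one_lt_mul_of_prime M q hqF.out) (cycU (M * q) t) • x) -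
            (galH ψ t • x - diaS ψ (one_lt_mul_of_prime M q hqF.out) (cycU (M * q) t) • x)) =
        galH ψ t' • (galH ψ t • x - diaS ψ (one_lt_mul_of_prime M q hqF.out) (cycU (M * q) t) • x) -
          (galH ψ t • x - diaS ψ (one_lt_mul_of_prime M q hqF.out) (cycU (M * q) t) • x) ∧
      γ •
          (galH ψ t • (galH ψ t' • x - x) -
            diaS ψ (one_lt_mul_of_prime M q hqF.out) (cycU (M * q) t) • (galH ψ t' • x - x)) =
        galH ψ t • (galH ψ t' • x - x) -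
          diaS ψ (one_lt_mul_of_prime M q hqF.out) (cycU (M * q) t) • (galH ψ t' • x - x) := by
  letI := algebraFH ψ (one_lt_mul_of_prime M q hqF.out)
  haveI := isScalarTower_FH ψ (one_lt_mul_of_prime M q hqF.out)
  intro ζ H g₀ g₁ g₂' C₀ x₁' x₂' hx₁' hx₂' g g₁' g₂'' C t t' ht ht' γ ξ₁ ξ₂ hγ n hn x hx
  have hIt := Unit.modDatum_isInertial hqM hA h1 hO1 t ht
  have hIt' := Unit.modDatum_isInertial hqM hA h1 hO1 t' ht'
  have At := coverAct₂_galois hqF.out hqM hψ he hψe t hIt (Unit.c0_fixed hA D1 t ht)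
    (hfix₁ t ht) (hfix₂ t ht) heig₂ H.lift₁ H.lift₂
  have At' := coverAct₂_galois hqF.out hqM hψ he hψe t' hIt' (Unit.c0_fixed hA D1 t' ht')
    (hfix₁ t' ht') (hfix₂ t' ht') heig₂ H.lift₁ H.lift₂
  have Ad := coverAct₂_dia hqF.out hqM hψ he hψe (Unit.c0 hA D1) heig₁ heig₂ (cycU (M * q) t)
    H.lift₁ H.lift₂
  exact pic0_word_cover H C₀ hx₁' hx₂' C At At' Ad hγ hn hx

/-- the inertia elements act on the Kummer datum through roots of unity -/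
theorem coverAct₂_inertia (hA : A.LiesOverPrime q) (he : e ≠ 0) (hψe : ∀ v, ψ v ^ e = 1)
    (h1 : Old.IsGaussOne D1) (hO1 : ∀ x ∈ D1.O, x ∈ V.gaussSubring (M * q) A)
    (heig₂ : ∀ v, diaHHom ψ v g₂ = algebraMap Qb (FBH ψ) (((ψ v)⁻¹ : Qbˣ) : Qb) * g₂)
    (hfix₁ : ∀ τ ∈ A.inertiaSubgroupIn ℚ, arithmeticGalois (FH0 ψ.ker) τ • h₁ = h₁)
    (hfix₂ : ∀ τ ∈ A.inertiaSubgroupIn ℚ, arithmeticGalois (FH0 ψ.ker) τ • g₂ = g₂)
    (t : Qb ≃ₐ[ℚ] Qb) (ht : t ∈ A.inertiaSubgroupIn ℚ) :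
    letI := algebraFH ψ (one_lt_mul_of_prime M q hqF.out)
    haveI := isScalarTower_FH ψ (one_lt_mul_of_prime M q hqF.out)
    ∀ (H₁ : KummerLift D1 e u₁ h₁ ybar₁)
      (H₂ : KummerLift (Unit.modD2 hqM D1) e u₂ (wH hqF.out hqM hψ g₂) ybar₂),
      CoverAct₂ H₁ H₂ (Gin0.jF (M * q)) (Unit.c0 hA D1) (galH ψ t) 1
        (psiA ψ e he hψe A (cycU (M * q) t)) := by
  letI := algebraFH ψ (one_lt_mul_of_prime M q hqF.out)
  haveI := isScalarTower_FH ψ (one_lt_mul_of_prime M q hqF.out)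
  intro H₁ H₂
  exact coverAct₂_galois hqF.out hqM hψ he hψe t (Unit.modDatum_isInertial hqM hA h1 hO1 t ht)
    (Unit.c0_fixed hA D1 t ht) (hfix₁ t ht) (hfix₂ t ht) heig₂ H₁ H₂

end Word

end Fermat.Agent.S43lib.Igusa
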