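/-
S43lib / Igusa / WordKCM  (helper9)

**LGC-C on helper2's KC-Mod datum** (`LGC/KCM/{Setup,Gen}.lean`): `ψ` a multiplicative character of
`ℤ/q` of exact order `e`, `q ∤ e`, `h₁ = hSh = h^♯_ψ`, `h₂ = hTwo = w̃ (h^♯_{ψ⁻¹})`,
`F_H = FBH (psiU M q ψ)`.

* `galois_smul_hSh`, `galois_smul_hShInv`: the inertia group of `A ∣ q` fixes `h^♯_ψ`, `h^♯_{ψ⁻¹}`
  (their coefficients lie in `ℚ(μ_e)`);
* `LGCTors M q ψ A n`: the words `(γ - 1)(t' - 1)(t - ⟨cyc t⟩) x = 0` and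
  `(γ - 1)(t - ⟨cyc t⟩)(t' - 1) x = 0` on `Pic⁰(F_H)[n]` for `t t'` in the inertia group and
  `γ` in the inertia group or a diamond;
* `lgcTors_of_cover`: `LGCTors` from the Kummer cover datum `IsKummerCover` + the two nodal contexts
  (helper2's `KC.nodalCtx_cover`).
-/
import Mathlib
import Fermat.Agent.S43lib.Igusa.NodeActCover
import Fermat.Agent.S43lib.LGC.KCM.Gen

set_option autoImplicit false
set_option linter.unusedSectionVars false
set_option linter.unusedVariables false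
set_option linter.style.haveILetI false

noncomputable section

namespace Fermat.Agent.S43lib.Igusa

open Polynomial ModularCurve IntermediateField AlgebraicCurve
open Fermat.Agent Fermat.Agent.S18lib Fermat.Agent.LSb
open Fermat.Agent.ProgramR.BarField
open Fermat.Agent.S48lib.X1 Fermat.Agent.S48lib.X1.HeckeJ
open Fermat.Agent.S43lib.LGC.KC Fermat.Agent.S43lib.LGC.Abs Fermat.Agent.S43lib.LGC.KCM

local notation "Qb" => AlgebraicClosure ℚ

variable {M q : ℕ} [NeZero M] [NeZero q] [hq : Fact q.Prime]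
variable {A : ValuationSubring (AlgebraicClosure ℚ)}

local notation "kA" => IsLocalRing.ResidueField A

/-! ### the inertia group fixes the two series -/

section Fix

variable {ψ : MulChar (ZMod q) Qb} {e : ℕ}

/-- `e` is invertible in the residue field -/
theorem natCast_residue_ne_zero (hA : A.LiesOverPrime q) (hqe : ¬ q ∣ e) : (e : kA) ≠ 0 := by
  haveI : CharP kA q := Gink.charP_residueField A hq.out hA
  rw [Ne, CharP.cast_eq_zero_iff kA q]
  exact hqe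

/-- the values of `ψ` are fixed by the inertia group -/
theorem inertia_fixes_psi (hA : A.LiesOverPrime q) (H : IsOrd ψ e) (hqe : ¬ q ∣ e)
    {τ : Qb ≃ₐ[ℚ] Qb} (hτ : τ ∈ A.inertiaSubgroupIn ℚ) (a : ZMod q) : τ (ψ a) = ψ a := by
  by_cases ha : IsUnit a
  · obtain ⟨u, rfl⟩ := ha
    exact inertia_fixes_root_of_unity hτ (natCast_residue_ne_zero hA hqe) (H.pow u)
  · rw [MulChar.map_nonunit ψ ha, map_zero]

theorem inertia_fixes_psi_inv (hA : A.LiesOverPrime q) (H : IsOrd ψ e) (hqe : ¬ q ∣ e)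
    {τ : Qb ≃ₐ[ℚ] Qb} (hτ : τ ∈ A.inertiaSubgroupIn ℚ) (a : ZMod q) : τ (ψ⁻¹ a) = ψ⁻¹ a :=
  inertia_fixes_psi hA H.inv hqe hτ a

/-- a `sharp` series whose character values are fixed by `τ` is fixed by `τ` -/
theorem coeffMap_sharp_chi_of_fixed {ψ' : MulChar (ZMod q) Qb} {τ : Qb ≃ₐ[ℚ] Qb}
    (h : ∀ a : ZMod q, τ (ψ' a) = ψ' a) :
    coeffMap (τ : Qb →+* Qb) (sharp q (chi ψ')) = sharp q (chi ψ') := by
  rw [coeffMap_sharp]
  congr 1
  funext n
  exact h _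

theorem galois_smul_hSh (hA : A.LiesOverPrime q) (H : IsOrd ψ e) (hqe : ¬ q ∣ e) (hψ : ψ ≠ 1)
    (heven : ψ (-1) = 1) {τ : Qb ≃ₐ[ℚ] Qb} (hτ : τ ∈ A.inertiaSubgroupIn ℚ) :
    arithmeticGalois (FH0 (psiU M q ψ).ker) τ • hSh (M := M) hψ heven = hSh hψ heven := by
  apply Subtype.ext
  rw [coe_arithmeticGalois_smul, coe_hSh]
  exact coeffMap_sharp_chi_of_fixed (inertia_fixes_psi hA H hqe hτ)

theorem galois_smul_hShInv (hA : A.LiesOverPrime q) (H : IsOrd ψ e) (hqe : ¬ q ∣ e) (hψ : ψ ≠ 1)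
    (heven : ψ (-1) = 1) {τ : Qb ≃ₐ[ℚ] Qb} (hτ : τ ∈ A.inertiaSubgroupIn ℚ) :
    arithmeticGalois (FH0 (psiU M q ψ).ker) τ • hShInv (M := M) hψ heven = hShInv hψ heven := by
  apply Subtype.ext
  rw [coe_arithmeticGalois_smul, coe_hShInv]
  exact coeffMap_sharp_chi_of_fixed (inertia_fixes_psi_inv hA H hqe hτ)

end Fix

/-! ### the statement -/

/-- **LGC on torsion** (the output of LGC-A/B/C, the input of LGC-D): for `t t'` in the inertia
group of `A ∣ q` and `γ` an inertia element or a diamond, on `x ∈ Pic⁰(F_H)[n]`: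
`(γ - 1)(t' - 1)(t - ⟨cyc t⟩) x = 0` and `(γ - 1)(t - ⟨cyc t⟩)(t' - 1) x = 0`. -/
def LGCTors (M q : ℕ) [NeZero M] [NeZero q] [Fact q.Prime] (ψ : MulChar (ZMod q) Qb)
    (A : ValuationSubring (AlgebraicClosure ℚ))
    [HasPrincipalDivisors (AlgebraicClosure ℚ) (FBH (psiU M q ψ))] (n : ℕ) : Prop :=
  ∀ t ∈ A.inertiaSubgroupIn ℚ, ∀ t' ∈ A.inertiaSubgroupIn ℚ,
    ∀ γ : SemilinearAut Qb (FBH (psiU M q ψ)),
      ((∃ t'' ∈ A.inertiaSubgroupIn ℚ, γ = galH (psiU M q ψ) t'') ∨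
        ∃ d' : (ZMod (M * q))ˣ, γ = diaS (psiU M q ψ) (one_lt_level M q) d') →
    ∀ x : Pic0 Qb (FBH (psiU M q ψ)), n • x = 0 →
      γ • (galH (psiU M q ψ) t' • (galH (psiU M q ψ) t • x -
            diaS (psiU M q ψ) (one_lt_level M q) (cycU (M * q) t) • x) -
          (galH (psiU M q ψ) t • x - diaS (psiU M q ψ) (one_lt_level M q) (cycU (M * q) t) • x)) =
        galH (psiU M q ψ) t' • (galH (psiU M q ψ) t • x -
            diaS (psiU M q ψ) (one_lt_level M q) (cycU (M * q) t) • x) -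
          (galH (psiU M q ψ) t • x - diaS (psiU M q ψ) (one_lt_level M q) (cycU (M * q) t) • x) ∧
      γ • (galH (psiU M q ψ) t • (galH (psiU M q ψ) t' • x - x) -
          diaS (psiU M q ψ) (one_lt_level M q) (cycU (M * q) t) •
            (galH (psiU M q ψ) t' • x - x)) =
        galH (psiU M q ψ) t • (galH (psiU M q ψ) t' • x - x) -
          diaS (psiU M q ψ) (one_lt_level M q) (cycU (M * q) t) • (galH (psiU M q ψ) t' • x - x)

section Main

variable {K₁' K₂' : Type*} [Field K₁'] [Field K₂']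
variable [Algebra (IsLocalRing.ResidueField A) K₁'] [Algebra (FRes A M) K₁']
variable [IsScalarTower (IsLocalRing.ResidueField A) (FRes A M) K₁']
variable [Algebra (IsLocalRing.ResidueField A) K₂'] [Algebra (FRes A M) K₂']
variable [IsScalarTower (IsLocalRing.ResidueField A) (FRes A M) K₂']
variable {D1 : GaussDatum A (FBar (M * q)) (FRes A M)}
variable {ψ : MulChar (ZMod q) Qb} {e : ℕ} {ybar₁ : K₁'} {ybar₂ : K₂'}
variable [HasPrincipalDivisors (AlgebraicClosure ℚ) (FBar (M * q))]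
variable [HasPrincipalDivisors (IsLocalRing.ResidueField A) (FRes A M)]
variable [HasPrincipalDivisors (AlgebraicClosure ℚ) (FBH (psiU M q ψ))]
variable [HasPrincipalDivisors (IsLocalRing.ResidueField A) K₁']
variable [HasPrincipalDivisors (IsLocalRing.ResidueField A) K₂']
variable [Algebra.IsIntegral (FRes A M) K₁'] [Algebra.IsIntegral (FRes A M) K₂']

/-- **LGC-C**: `LGCTors` from the Kummer cover datum of `X_H(M q) → X₀(M q)`. -/
theorem lgcTors_of_cover (hqM : ¬ q ∣ M) (hA : A.LiesOverPrime q) (Hord : IsOrd ψ e)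
    (hqe : ¬ q ∣ e) (hψ : ψ ≠ 1) (heven : ψ (-1) = 1)
    (h1 : Old.IsGaussOne D1) (hO1 : ∀ x ∈ D1.O, x ∈ V.gaussSubring (M * q) A) {ζ : A}
    (H : IsKummerCover D1 (Unit.modD2 hqM D1) (Unit.modX₁ hA D1) (Unit.modX₂ D1) e
      (uOne Hord hψ heven) (uTwo hqM Hord hψ heven) (hSh hψ heven) (hTwo hqM hψ heven)
      ybar₁ ybar₂ ζ) {g₀ g₁ g₂ : ℕ}
    (C₀ : NodalCtx (Unit.modDatum hA D1 (Unit.modD2 hqM D1)) g₀ g₁ g₂)
    {x₁' : Fin (Unit.modS D1) → Place kA K₁'} {x₂' : Fin (Unit.modS D1) → Place kA K₂'}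
    (hx₁' : ∀ c, (x₁' c).restrict (FRes A M) = Unit.modX₁ hA D1 c)
    (hx₂' : ∀ c, (x₂' c).restrict (FRes A M) = Unit.modX₂ D1 c) {g g₁' g₂' : ℕ}
    (C : NodalCtx (Unit.chartDatum (gaussExt H.lift₁) (gaussExt H.lift₂)
      (algebraMap (FBar (M * q)) (FBH (psiU M q ψ)) (Gin0.jF (M * q))) (Unit.c0 hA D1)
      (Unit.modS D1) x₁' x₂') g g₁' g₂')
    {n : ℕ} (hn : (n : kA) ≠ 0) : LGCTors M q ψ A n := by
  intro t ht t' ht' γ hγ x hx
  have he : e ≠ 0 := Hord.pos.ne'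
  have hψe : ∀ v, psiU M q ψ v ^ e = 1 := Hord.psiU_pow
  have heig₁ := diaHHom_hSh (M := M) hψ heven
  have heig₂ := diaHHom_hShInv (M := M) hψ heven
  have hfix₁ : ∀ τ ∈ A.inertiaSubgroupIn ℚ,
      arithmeticGalois (FH0 (psiU M q ψ).ker) τ • hSh (M := M) hψ heven = hSh hψ heven :=
    fun τ hτ => galois_smul_hSh hA Hord hqe hψ heven hτ
  have hfix₂ : ∀ τ ∈ A.inertiaSubgroupIn ℚ,
      arithmeticGalois (FH0 (psiU M q ψ).ker) τ • hShInv (M := M) hψ heven = hShInv hψ heven :=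
    fun τ hτ => galois_smul_hShInv hA Hord hqe hψ heven hτ
  -- `γ` acts through roots of unity
  have Aγ : ∃ ξ₁ ξ₂ : A, CoverAct₂ H.lift₁ H.lift₂ (Gin0.jF (M * q)) (Unit.c0 hA D1) γ ξ₁ ξ₂ := by
    rcases hγ with ⟨t'', ht'', rfl⟩ | ⟨d', rfl⟩
    · exact ⟨_, _, coverAct₂_inertia hqM (isQPart_psiU ψ) hA he hψe h1 hO1 heig₂ hfix₁ hfix₂
        t'' ht'' H.lift₁ H.lift₂⟩
    · exact ⟨_, _, coverAct₂_dia hq.out hqM (isQPart_psiU ψ) he hψe (Unit.c0 hA D1) heig₁ heig₂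
        d' H.lift₁ H.lift₂⟩
  obtain ⟨ξ₁, ξ₂, Aγ⟩ := Aγ
  exact word_FH_gen hqM (isQPart_psiU ψ) hA he hψe h1 hO1 heig₁ heig₂ hfix₁ hfix₂ H C₀ hx₁' hx₂'
    C t t' ht ht' Aγ hn hx

end Main

end Fermat.Agent.S43lib.Igusa
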