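/-
S43lib / Igusa / Unram  (helper9)

**`X_H(N) → X₀(N)` is unramified** (for `[ (ℤ/N)ˣ : H ]` prime to `6` and `H` containing the
classes of the parabolic elements), in the form needed for the Kummer cover of a nodal datum:

  if `x ∈ FBar₁(N)`, `x ≠ 0`, is an eigenvector of the diamonds, `⟨u⟩ x = ψ(u) x`, `ψ ^ e = 1`,
  `gcd(e, 6) = 1`, `ψ` trivial on the classes of the parabolic elements of `Γ₀(N)`, and
  `u₀ = x ^ e ∈ FBar(N)`, then **`e ∣ ord_P u₀` for every place `P` of `FBar(N) / ℚ̄`**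
  (`dvd_ord_of_eigen`).

Proof: `Φ x = a / p(j)` with `a` holomorphic on `ℍ` (`exists_integral_multiple`), `a ∘ γ = χ(γ) a`
for `γ ∈ Γ₀(N)`; `(a, χ)` is a root datum (helper6's `S29lib.K3.RootData`) of `G = a ^ e`; `χ` kills the
elements of finite order (`gcd(e, 12) = 1`) and the parabolic ones, hence `e ∣ div G` on the analytic
curve (`EllInput.dvd`, `RootData.dvd_ordV_inf_of_χ`); descend with `exists_place_above_Fan`.

`isPar_unit_eq` : for `N = q N'`, `q` prime, the class modulo `q` of a parabolic element of `Γ₀(N)`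
is `± 1`.
-/
import Mathlib
import Fermat.Agent.S43lib.Igusa.FixedX0
import Fermat.Agent.S29lib.K3.Final
import Fermat.Agent.S29lib.D.UnramInst

set_option autoImplicit false
set_option linter.unusedSectionVars false
set_option linter.unusedVariables false
set_option linter.style.haveILetI false

noncomputable section

namespace Fermat.Agent.S43lib.Igusa

open UpperHalfPlane hiding I
open scoped MatrixGroups
open Polynomial ModularCurve IntermediateField CongruenceSubgroup AlgebraicCurve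
open Fermat.Agent.ProgramR Fermat.Agent.ProgramR.QExp Fermat.Agent.ProgramR.BarField
open Fermat.Agent.ProgramR.ES
open Fermat.Agent.S29lib.H Fermat.Agent.S29lib.K3 Fermat.Agent.S29lib.D
open Fermat.Agent.S48lib.X1 Fermat.Agent.S48lib.X1.Wp Fermat.Agent.S48lib.X1.HeckeJ

attribute [local instance] FractionRing.liftAlgebra
attribute [local instance] Genus.cosetFintype

local notation "Qb" => AlgebraicClosure ℚ

variable {N : ℕ} [NeZero N]

set_option quotPrecheck false in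
local notation "FB1" => ↥(laurentBaseChange Qb (F1 N))

set_option quotPrecheck false in
local notation "FB0" => ↥(laurentBaseChange Qb (modularFunctionFieldFull N))

/-! ### the class of an element of `Γ₀(N)` -/

/-- the class `γ₁₁ mod N` of an element of `Γ₀(N)`, as a homomorphism to `(ℤ/N)ˣ` -/
def gammaUnit (N : ℕ) : Gamma0 N →* (ZMod N)ˣ := (Gamma0Map N).toHomUnits

@[simp] theorem coe_gammaUnit (γ : Gamma0 N) :
    ((gammaUnit N γ : (ZMod N)ˣ) : ZMod N) = (((γ : SL(2, ℤ)) 1 1 : ℤ) : ZMod N) := rfl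

theorem dvd_of_mem_Gamma0 {γ : SL(2, ℤ)} (hγ : γ ∈ Gamma0 N) : (N : ℤ) ∣ γ 1 0 := by
  rw [Gamma0_mem] at hγ
  exact (ZMod.intCast_zmod_eq_zero_iff_dvd _ _).mp hγ

/-! ### the eigenvector, analytically -/

section Eigen

/-- the analytic eigen-equation -/
theorem diaFF_toFunField_eigen (ψ : (ZMod N)ˣ →* Qbˣ) {x : FB1}
    (heig : ∀ u : (ZMod N)ˣ, diaU u x = algebraMap Qb FB1 ((ψ u : Qbˣ) : Qb) * x)
    (γ : Gamma0 N) :
    diaFF (γ : SL(2, ℤ)) (normalises_pmGamma1 (dvd_of_mem_Gamma0 γ.2))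
        ((isAnModel_F1 (M := N)).toFunField (qbarEmb : Qb →+* ℂ) x) =
      algebraMap ℂ (WH0.FunField (pmGamma1 N)) (qbarEmb ((ψ (gammaUnit N γ) : Qbˣ) : Qb)) *
        (isAnModel_F1 (M := N)).toFunField (qbarEmb : Qb →+* ℂ) x := by
  rw [← toFunField_diaU (dvd_of_mem_Gamma0 γ.2) (gammaUnit N γ) (coe_gammaUnit γ).symm, heig,
    map_mul, IsAnModel.toFunField_algebraMap]

/-- the eigen-equation for a holomorphic numerator -/
theorem diaWH0_eigen (ψ : (ZMod N)ˣ →* Qbˣ) {x : FB1}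
    (heig : ∀ u : (ZMod N)ˣ, diaU u x = algebraMap Qb FB1 ((ψ u : Qbˣ) : Qb) * x)
    {a : WH0 (pmGamma1 N)} {p : Polynomial ℂ}
    (hpa : algebraMap (Polynomial ℂ) (WH0.FunField (pmGamma1 N)) p *
        (isAnModel_F1 (M := N)).toFunField (qbarEmb : Qb →+* ℂ) x =
      algebraMap (WH0 (pmGamma1 N)) (WH0.FunField (pmGamma1 N)) a) (γ : Gamma0 N) :
    diaWH0 (γ : SL(2, ℤ)) (normalises_pmGamma1 (dvd_of_mem_Gamma0 γ.2)) a =
      algebraMap ℂ (WH0 (pmGamma1 N)) (qbarEmb ((ψ (gammaUnit N γ) : Qbˣ) : Qb)) * a := by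
  apply IsFractionRing.injective (WH0 (pmGamma1 N)) (WH0.FunField (pmGamma1 N))
  rw [← diaFF_algebraMap, ← hpa, map_mul, diaFF_algebraMap_poly, diaFF_toFunField_eigen ψ heig,
    map_mul, ← hpa, ← IsScalarTower.algebraMap_apply ℂ (WH0 (pmGamma1 N))
      (WH0.FunField (pmGamma1 N))]
  ring

theorem apply_smul_eigen (ψ : (ZMod N)ˣ →* Qbˣ) {x : FB1}
    (heig : ∀ u : (ZMod N)ˣ, diaU u x = algebraMap Qb FB1 ((ψ u : Qbˣ) : Qb) * x)
    {a : WH0 (pmGamma1 N)} {p : Polynomial ℂ}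
    (hpa : algebraMap (Polynomial ℂ) (WH0.FunField (pmGamma1 N)) p *
        (isAnModel_F1 (M := N)).toFunField (qbarEmb : Qb →+* ℂ) x =
      algebraMap (WH0 (pmGamma1 N)) (WH0.FunField (pmGamma1 N)) a) (γ : Gamma0 N) (z : ℍ) :
    a.1 ((γ : SL(2, ℤ)) • z) = qbarEmb ((ψ (gammaUnit N γ) : Qbˣ) : Qb) * a.1 z := by
  have h1 := congrArg (fun f : WH0 (pmGamma1 N) => f.1 z) (diaWH0_eigen ψ heig hpa γ)
  simp only [diaWH0_apply] at h1
  exact h1

end Eigen

/-! ### the main theorem -/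

/-- the character of `Γ₀(N)` attached to `ψ` -/
def chiOf (ψ : (ZMod N)ˣ →* Qbˣ) : Gamma0 N →* ℂˣ :=
  (Units.map ((qbarEmb : Qb →+* ℂ) : Qb →* ℂ)).comp (ψ.comp (gammaUnit N))

theorem coe_chiOf (ψ : (ZMod N)ˣ →* Qbˣ) (γ : Gamma0 N) :
    ((chiOf ψ γ : ℂˣ) : ℂ) = qbarEmb ((ψ (gammaUnit N γ) : Qbˣ) : Qb) := rfl

variable (N) in
/-- `inclFF`, on helper3's model `Fan N` of the analytic function field (the same type up to
unfolding) -/
def inclFan : Fermat.Agent.S29lib.K3.Fan N →+* WH0.FunField (pmGamma1 N) := inclFF N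

theorem inclFan_toFan (G : Bn N) :
    inclFan N (toFan N G) = algebraMap _ _ (inclWH0 (pmGamma1_le_Gamma0 N) G) :=
  inclFF_algebraMap G

theorem qExpFFW_inclFan (f : Fermat.Agent.S29lib.K3.Fan N) :
    qExpFFW (pmGamma1 N) 1 T_mem_pmGamma1 (inclFan N f) = BarField.qExpFF N f := by
  have h1 := qExpFFW_inclFF (N := N) f
  rw [qExpFFW_Gamma0] at h1
  exact h1

theorem nDivF_of_mul_pow {n : ℕ} {f b : Fermat.Agent.S29lib.K3.Fan N} (hf : f ≠ 0) (hb : b ≠ 0)
    (h : NDivF N n (f * b ^ n)) : NDivF N n f := by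
  intro v
  have h1 := h v
  rw [v.ord_mul hf (pow_ne_zero _ hb), Fermat.Agent.S18lib.Cech.ord_pow] at h1
  exact (Int.dvd_add_left (Dvd.intro _ rfl)).mp h1

set_option maxHeartbeats 1000000 in
/-- **unramifiedness, over `ℂ`** -/
theorem nDivF_of_eigen {e : ℕ} (he : 0 < e) (h6 : Nat.Coprime e 6) (ψ : (ZMod N)ˣ →* Qbˣ)
    (hψ : ∀ u, ψ u ^ e = 1)
    (hpar : ∀ γ : Gamma0 N, IsPar (γ : SL(2, ℤ)) → ψ (gammaUnit N γ) = 1)
    {x : FB1} (hx : x ≠ 0)
    (heig : ∀ u : (ZMod N)ˣ, diaU u x = algebraMap Qb FB1 ((ψ u : Qbˣ) : Qb) * x)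
    {f : Fermat.Agent.S29lib.K3.Fan N}
    (hf : inclFan N f = (isAnModel_F1 (M := N)).toFunField (qbarEmb : Qb →+* ℂ) x ^ e) :
    NDivF N e f := by
  set k := (isAnModel_F1 (M := N)).toFunField (qbarEmb : Qb →+* ℂ) x with hk
  have hk0 : k ≠ 0 := (_root_.map_ne_zero _).mpr hx
  obtain ⟨a, p, hp, hpa⟩ := exists_integral_multiple (pmGamma1 N) k
  have ha0 : a ≠ 0 := by
    rintro rfl
    rw [map_zero] at hpa
    exact mul_ne_zero (algebraMap_poly_ne_zero _ hp) hk0 hpa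
  have hsm := apply_smul_eigen ψ heig hpa
  -- `G = a ^ e`
  have hGW : IsWH0 (Gamma0 N) (a ^ e : WH0 (pmGamma1 N)).1 :=
    { mdiff := (a ^ e : WH0 (pmGamma1 N)).2.mdiff
      smul_eq := by
        intro γ hγ z
        show (a.1 ^ e) (γ • z) = (a.1 ^ e) z
        rw [Pi.pow_apply, Pi.pow_apply, hsm ⟨γ, hγ⟩ z, mul_pow, ← map_pow,
          ← Units.val_pow_eq_pow_val, hψ, Units.val_one, map_one, one_mul]
      exists_bdd := (a ^ e : WH0 (pmGamma1 N)).2.exists_bdd }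
  set G : Bn N := ⟨(a ^ e : WH0 (pmGamma1 N)).1, hGW⟩ with hG
  have hinclG : inclWH0 (pmGamma1_le_Gamma0 N) G = a ^ e := Subtype.ext rfl
  have hG0 : G ≠ 0 := by
    intro h0
    have : a ^ e = 0 := by rw [← hinclG, h0, map_zero]
    exact ha0 (pow_eq_zero_iff he.ne' |>.mp this)
  -- the root datum
  let R : RootData N e G :=
    { y := WH0.toHol (pmGamma1 N) a
      pow_eq := by
        apply Hol.ext
        intro z
        rfl
      χ := chiOf ψ
      smul_eq := fun γ z => hsm γ z }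
  have hχe : ∀ γ : Gamma0 N, chiOf ψ γ ^ e = 1 := by
    intro γ
    apply Units.ext
    rw [Units.val_pow_eq_pow_val, coe_chiOf, ← map_pow, ← Units.val_pow_eq_pow_val, hψ,
      Units.val_one, map_one, Units.val_one]
  have hkill_tor : ∀ γ : Gamma0 N, (γ : SL(2, ℤ)) ^ 12 = 1 → R.χ γ = 1 := by
    intro γ hγ
    have h12 : chiOf ψ γ ^ 12 = 1 := by
      rw [← map_pow]
      have : γ ^ 12 = 1 := Subtype.ext (by rw [Subgroup.coe_pow, hγ]; rfl)
      rw [this, map_one]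
    have hg : chiOf ψ γ ^ Nat.gcd e 12 = 1 := pow_gcd_eq_one.mpr ⟨hχe γ, h12⟩
    have hc : Nat.gcd e 12 = 1 := by
      have h2 : Nat.Coprime e 2 := Nat.Coprime.coprime_dvd_right (by norm_num) h6
      have h3 : Nat.Coprime e 3 := Nat.Coprime.coprime_dvd_right (by norm_num) h6
      have h4 : Nat.Coprime e 4 := by
        have := Nat.Coprime.pow_right 2 h2
        simpa using this
      have : Nat.Coprime e (4 * 3) := Nat.Coprime.mul_right h4 h3
      simpa using this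
    rw [hc, pow_one] at hg
    exact hg
  have hkill_par : ∀ γ : Gamma0 N, IsPar (γ : SL(2, ℤ)) → R.χ γ = 1 := by
    intro γ hγ
    show chiOf ψ γ = 1
    apply Units.ext
    rw [coe_chiOf, hpar γ hγ, Units.val_one, map_one, Units.val_one]
  have hfin := (ellInput N he).dvd G hG0 R hkill_tor
  have hinf := R.dvd_ordV_inf_of_χ hG0 he hkill_par
  have hND : NDivF N e (toFan N G) := (nDivF_iff N e _).mpr ⟨hfin, hinf⟩
  -- `toFan G = f * (toFan p(j)) ^ e`
  set Pj : Bn N := algebraMap (Polynomial ℂ) (Bn N) p with hPj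
  have hPj0 : toFan N Pj ≠ 0 :=
    toFan_ne_zero N (fun h0 => hp (WH0.algebraMap_poly_injective (Gamma0 N)
      (h0.trans (map_zero _).symm)))
  have hf0 : f ≠ 0 := by
    rintro rfl
    rw [map_zero] at hf
    exact pow_ne_zero e hk0 hf.symm
  have hrel : toFan N G = f * toFan N Pj ^ e := by
    apply (inclFan N).injective
    rw [map_mul, map_pow, inclFan_toFan, inclFan_toFan, hinclG, hf, map_pow, ← hpa, mul_pow]
    have h1 : algebraMap (WH0 (pmGamma1 N)) (WH0.FunField (pmGamma1 N))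
        (inclWH0 (pmGamma1_le_Gamma0 N) Pj) =
        algebraMap (Polynomial ℂ) (WH0.FunField (pmGamma1 N)) p := by
      rw [IsScalarTower.algebraMap_apply (Polynomial ℂ) (WH0 (pmGamma1 N))
        (WH0.FunField (pmGamma1 N))]
      congr 1
      apply Subtype.ext
      funext z
      rw [inclWH0_apply, WH0.algebraMap_poly_apply, WH0.algebraMap_poly_apply]
    rw [h1]
    ring
  rw [hrel] at hND
  exact nDivF_of_mul_pow hf0 hPj0 hND

/-- **unramifiedness**: `e ∣ ord_P (x ^ e)` at every place `P` of `FBar(N)`, for an eigenvector `x`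
of the diamonds with a character of order prime to `6` killing the parabolic classes -/
theorem dvd_ord_of_eigen {e : ℕ} (he : 0 < e) (h6 : Nat.Coprime e 6) (ψ : (ZMod N)ˣ →* Qbˣ)
    (hψ : ∀ u, ψ u ^ e = 1)
    (hpar : ∀ γ : Gamma0 N, IsPar (γ : SL(2, ℤ)) → ψ (gammaUnit N γ) = 1)
    {x : FB1} (hx : x ≠ 0)
    (heig : ∀ u : (ZMod N)ˣ, diaU u x = algebraMap Qb FB1 ((ψ u : Qbˣ) : Qb) * x)
    {u₀ : FB0} (hu₀ : (u₀ : LaurentSeries Qb) = (x : LaurentSeries Qb) ^ e)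
    (P : Place Qb FB0) : (e : ℤ) ∣ P.ord u₀ := by
  letI : Algebra Qb ℂ := (qbarEmb : Qb →+* ℂ).toAlgebra
  have hf : inclFan N (ΦF N u₀) =
      (isAnModel_F1 (M := N)).toFunField (qbarEmb : Qb →+* ℂ) x ^ e := by
    apply qExpFFW_injective (pmGamma1 N) 1 T_mem_pmGamma1
    rw [qExpFFW_inclFan, map_pow, IsAnModel.qExpFFW_toFunField]
    have h1 : BarField.qExpFF N (ΦF N u₀) =
        coeffMap (algebraMap Qb ℂ) (u₀ : LaurentSeries Qb) := qExpFF_ΦF N u₀
    rw [h1, hu₀, map_pow]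
    rfl
  have hND := nDivF_of_eigen he h6 ψ hψ hpar hx heig hf
  obtain ⟨P', hP'⟩ := exists_place_above_Fan N P
  rw [← hP' u₀]
  exact hND P'

/-! ### the parabolic classes modulo a prime -/

/-- for a prime `q ∣ N`, the class modulo `q` of a parabolic element of `Γ₀(N)` is `± 1` -/
theorem isPar_unit_eq {q : ℕ} (hq : q.Prime) (hqN : q ∣ N) (γ : Gamma0 N)
    (hγ : IsPar (γ : SL(2, ℤ))) :
    ((((γ : SL(2, ℤ)) 1 1 : ℤ) : ZMod q) = 1) ∨ ((((γ : SL(2, ℤ)) 1 1 : ℤ) : ZMod q) = -1) := by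
  haveI : Fact q.Prime := ⟨hq⟩
  set g : SL(2, ℤ) := (γ : SL(2, ℤ)) with hg
  have hdet := sl_det_eq g
  have hc : (N : ℤ) ∣ g 1 0 := dvd_of_mem_Gamma0 γ.2
  have hcq : ((g 1 0 : ℤ) : ZMod q) = 0 := by
    rw [ZMod.intCast_zmod_eq_zero_iff_dvd]
    exact (Int.natCast_dvd_natCast.mpr hqN).trans hc
  have htr : (g 0 0 + g 1 1) ^ 2 = 4 := by
    have h1 : (g : Matrix (Fin 2) (Fin 2) ℤ).trace ^ 2 = 4 := hγ
    rwa [Matrix.trace_fin_two] at h1
  -- modulo `q`: `a d = 1`, `(a + d)^2 = 4`, so `(d - 1)^2 (d + 1)^2 = 0`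
  set a : ZMod q := ((g 0 0 : ℤ) : ZMod q) with ha
  set d : ZMod q := ((g 1 1 : ℤ) : ZMod q) with hd
  have h1 : a * d = 1 := by
    have := congrArg (fun t : ℤ => (t : ZMod q)) hdet
    simp only [Int.cast_sub, Int.cast_mul, Int.cast_one] at this
    rw [hcq, mul_zero, sub_zero] at this
    exact this
  have h2 : (a + d) ^ 2 = 4 := by
    have := congrArg (fun t : ℤ => (t : ZMod q)) htr
    simpa using this
  have h3 : (d ^ 2 - 1) ^ 2 = 0 := by
    have : (d ^ 2 - 1) ^ 2 =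
        d ^ 2 * (a + d) ^ 2 - 4 * d ^ 2 + (1 - a * d) * (1 + a * d + 2 * d ^ 2) := by ring
    rw [this, h2, h1]
    ring
  have h4 : (d - 1) * (d + 1) = 0 := by
    have h5 : d ^ 2 - 1 = 0 := pow_eq_zero_iff (two_ne_zero) |>.mp h3
    rw [← h5]
    ring
  rcases mul_eq_zero.mp h4 with h | h
  · left
    exact sub_eq_zero.mp h
  · right
    exact eq_neg_of_add_eq_zero_left h

end Fermat.Agent.S43lib.Igusa
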